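import Mathlib
import Fermat.Prelude.Def_ModularCurve_IgusaScheme
import Fermat.Prelude.Def_ModularCurve_X0ModL

/-!
Shared definitions for the proof of S28 (Igusa: the reduction of the model of X0(N) is integral).

Notation of the blueprint:
* `Oℓ ℓ` = ℤ_(ℓ) ⊂ ℚ, `red ℓ : Oℓ ℓ →+* ZMod ℓ` the residue map;
* `V R d` = the substitution `q ↦ q^d` on `LaurentSeries R` (total in `d`; `V R 0 = id`);
* `jd R d` = `j(q^d)`, `Dd R d` = `Δ(q^d)` over any commutative ring `R`;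
* `Ft M` = ℚ(j_d, Δ_d/Δ_e : d, e ∣ M) ⊂ ℚ((q));
* `Vw ℓ` = the "Gauss" valuation ring {a/b : a, b ∈ ℤ_(ℓ)((q)), b mod ℓ ≠ 0} ⊂ ℚ((q)),
  `rho ℓ : Vw ℓ →+* F_ℓ((q))` its residue map;
* `kappa ℓ M` = rho (Vw ∩ Ft M), a subfield of F_ℓ((q));
* `kj ℓ d` = F_ℓ(j(q^d)) ⊂ F_ℓ((q)), `Qj d` = ℚ(j(q^d)) ⊂ ℚ((q));
* `psi M` = Dedekind psi function.
-/

set_option autoImplicit false

noncomputable section

open ModularCurve

namespace Fermat.Agent.S28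

/-! ### Substitution `q ↦ q^d`, total in `d` -/

/-- `q ↦ q^d` on Laurent series (`d = 0` gives the identity, a junk value). -/
def V (R : Type*) [CommRing R] (d : ℕ) : LaurentSeries R →+* LaurentSeries R :=
  if h : d = 0 then RingHom.id _ else @qExpand R _ d ⟨h⟩

theorem V_eq_qExpand (R : Type*) [CommRing R] (d : ℕ) [hd : NeZero d] : V R d = qExpand R d := by
  unfold V
  rw [dif_neg (NeZero.ne d)]

theorem V_one (R : Type*) [CommRing R] (x : LaurentSeries R) : V R 1 x = x := by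
  rw [V_eq_qExpand]
  exact qExpand_one_apply x

theorem V_V (R : Type*) [CommRing R] {d e : ℕ} (hd : d ≠ 0) (he : e ≠ 0) (x : LaurentSeries R) :
    V R d (V R e x) = V R (d * e) x := by
  have : NeZero d := ⟨hd⟩
  have : NeZero e := ⟨he⟩
  have : NeZero (d * e) := ⟨Nat.mul_ne_zero hd he⟩
  rw [V_eq_qExpand, V_eq_qExpand, V_eq_qExpand]
  exact qExpand_qExpand e d x

theorem V_injective (R : Type*) [CommRing R] {d : ℕ} (hd : d ≠ 0) : Function.Injective (V R d) := by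
  have : NeZero d := ⟨hd⟩
  rw [V_eq_qExpand]
  exact qExpand_injective d

theorem coeffMap_V {R S : Type*} [CommRing R] [CommRing S] (f : R →+* S) (d : ℕ)
    (x : LaurentSeries R) : coeffMap f (V R d x) = V S d (coeffMap f x) := by
  by_cases hd : d = 0
  · subst hd
    simp [V]
  · have : NeZero d := ⟨hd⟩
    rw [V_eq_qExpand, V_eq_qExpand]
    exact coeffMap_qExpand f d x

/-! ### `j` and `Δ` as Laurent series over any ring -/

/-- `Δ = q ∏ (1 - q^n)^24` as a power series over `ℤ`. -/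
def DqZ : PowerSeries ℤ := PowerSeries.X * dedekindEtaUnit

/-- `Δ` as a Laurent series over `R`. -/
def Dq (R : Type*) [CommRing R] : LaurentSeries R :=
  HahnSeries.ofPowerSeries ℤ R (DqZ.map (Int.castRingHom R))

/-- `j(q^d)` over `R`. -/
def jd (R : Type*) [CommRing R] (d : ℕ) : LaurentSeries R := V R d (jqModC R)

/-- `Δ(q^d)` over `R`. -/
def Dd (R : Type*) [CommRing R] (d : ℕ) : LaurentSeries R := V R d (Dq R)

theorem jd_rat_eq_qExpand (d : ℕ) [NeZero d] : jd ℚ d = qExpand ℚ d jq := by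
  rw [jd, V_eq_qExpand]
  rfl

theorem jd_one (R : Type*) [CommRing R] : jd R 1 = jqModC R := V_one R _

theorem coeffMap_Dq {R S : Type*} [CommRing R] [CommRing S] (f : R →+* S) :
    coeffMap f (Dq R) = Dq S := by
  rw [Dq, coeffMap_ofPowerSeries,
    ← RingHom.comp_apply (PowerSeries.map f) (PowerSeries.map (Int.castRingHom R)),
    ← PowerSeries.map_comp, RingHom.ext_int (f.comp (Int.castRingHom R)) (Int.castRingHom S)]
  rfl

theorem coeffMap_jd {R S : Type*} [CommRing R] [CommRing S] (f : R →+* S) (d : ℕ) :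
    coeffMap f (jd R d) = jd S d := by
  rw [jd, coeffMap_V, coeffMap_jqModC, jd]

theorem coeffMap_Dd {R S : Type*} [CommRing R] [CommRing S] (f : R →+* S) (d : ℕ) :
    coeffMap f (Dd R d) = Dd S d := by
  rw [Dd, coeffMap_V, coeffMap_Dq, Dd]

/-! ### The char-0 function fields -/

/-- Generators of the auxiliary field: `j(q^d)` and `Δ(q^d)/Δ(q^e)` for `d, e ∣ M`. -/
def gens (M : ℕ) : Set (LaurentSeries ℚ) :=
  {x | ∃ d, d ∣ M ∧ x = jd ℚ d} ∪ {x | ∃ d e, d ∣ M ∧ e ∣ M ∧ x = Dd ℚ d / Dd ℚ e}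

/-- `Ft M = ℚ(j(q^d), Δ(q^d)/Δ(q^e) : d, e ∣ M)`. -/
def Ft (M : ℕ) : IntermediateField ℚ (LaurentSeries ℚ) := IntermediateField.adjoin ℚ (gens M)

theorem jd_mem_Ft {M d : ℕ} (h : d ∣ M) : jd ℚ d ∈ Ft M :=
  IntermediateField.subset_adjoin ℚ _ (Or.inl ⟨d, h, rfl⟩)

theorem Dd_div_mem_Ft {M d e : ℕ} (hd : d ∣ M) (he : e ∣ M) : Dd ℚ d / Dd ℚ e ∈ Ft M :=
  IntermediateField.subset_adjoin ℚ _ (Or.inr ⟨d, e, hd, he, rfl⟩)

theorem Ft_mono {M M' : ℕ} (h : M ∣ M') : Ft M ≤ Ft M' := by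
  rw [Ft, IntermediateField.adjoin_le_iff]
  rintro x (⟨d, hd, rfl⟩ | ⟨d, e, hd, he, rfl⟩)
  · exact jd_mem_Ft (hd.trans h)
  · exact Dd_div_mem_Ft (hd.trans h) (he.trans h)

theorem full_le_Ft (N : ℕ) [NeZero N] : modularFunctionFieldFull N ≤ Ft N := by
  rw [modularFunctionFieldFull, IntermediateField.adjoin_le_iff]
  rintro x ⟨d, hne, hdvd, rfl⟩
  have := hne
  rw [← jd_rat_eq_qExpand]
  exact jd_mem_Ft hdvd

/-- `ℚ(j(q^d))` as a subfield of `ℚ((q))`. -/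
def Qj (d : ℕ) : Subfield (LaurentSeries ℚ) := Subfield.closure {jd ℚ d}

/-! ### `ℤ_(ℓ)` and its residue map -/

/-- `ℤ_(ℓ)` as a type. -/
abbrev Oℓ (ℓ : ℕ) : Type := ↥(GaloisRep.ratLocalizedAt ℓ)

theorem natCast_den_ne_zero (ℓ : ℕ) [Fact ℓ.Prime] (x : Oℓ ℓ) : ((x : ℚ).den : ZMod ℓ) ≠ 0 := by
  intro h
  rw [ZMod.natCast_eq_zero_iff] at h
  have hx : (x : ℚ).den.Coprime ℓ := x.2
  have h1 : ℓ ∣ Nat.gcd (x : ℚ).den ℓ := Nat.dvd_gcd h dvd_rfl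
  rw [hx] at h1
  exact (Fact.out : ℓ.Prime).one_lt.ne' (Nat.dvd_one.mp h1)

/-- The residue map `ℤ_(ℓ) → 𝔽_ℓ`. -/
def red (ℓ : ℕ) [Fact ℓ.Prime] : Oℓ ℓ →+* ZMod ℓ where
  toFun x := ((x : ℚ) : ZMod ℓ)
  map_one' := by simp
  map_zero' := by simp
  map_mul' x y := by
    show (((x * y : Oℓ ℓ) : ℚ) : ZMod ℓ) = _
    rw [Subring.coe_mul]
    exact Rat.cast_mul_of_ne_zero (natCast_den_ne_zero ℓ x) (natCast_den_ne_zero ℓ y)
  map_add' x y := by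
    show (((x + y : Oℓ ℓ) : ℚ) : ZMod ℓ) = _
    rw [Subring.coe_add]
    exact Rat.cast_add_of_ne_zero (natCast_den_ne_zero ℓ x) (natCast_den_ne_zero ℓ y)

theorem red_apply (ℓ : ℕ) [Fact ℓ.Prime] (x : Oℓ ℓ) : red ℓ x = ((x : ℚ) : ZMod ℓ) := rfl

/-- Inclusion of coefficients `ℤ_(ℓ)((q)) → ℚ((q))`. -/
def toQ (ℓ : ℕ) : LaurentSeries (Oℓ ℓ) →+* LaurentSeries ℚ :=
  coeffMap (GaloisRep.ratLocalizedAt ℓ).subtype

/-- Reduction of coefficients `ℤ_(ℓ)((q)) → 𝔽_ℓ((q))`. -/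
def toF (ℓ : ℕ) [Fact ℓ.Prime] : LaurentSeries (Oℓ ℓ) →+* LaurentSeries (ZMod ℓ) :=
  coeffMap (red ℓ)

theorem toQ_injective (ℓ : ℕ) : Function.Injective (toQ ℓ) := by
  intro x y h
  ext k
  have := congrArg (fun z => HahnSeries.coeff z k) h
  simpa [toQ] using this


/-! ### The valuation ring `Vw` and its residue map `rho` -/

/-- The valuation ring of the `ℓ`-adic Gauss valuation on `Frac (ℤ_(ℓ)((q))) ⊂ ℚ((q))`:
elements `a / b` with `a, b ∈ ℤ_(ℓ)((q))` and `b ≢ 0 mod ℓ`. -/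
def Vw (ℓ : ℕ) [Fact ℓ.Prime] : Subring (LaurentSeries ℚ) where
  carrier := {x | ∃ a b : LaurentSeries (Oℓ ℓ), toF ℓ b ≠ 0 ∧ x * toQ ℓ b = toQ ℓ a}
  mul_mem' := by
    rintro x y ⟨a, b, hb, h⟩ ⟨a', b', hb', h'⟩
    refine ⟨a * a', b * b', ?_, ?_⟩
    · rw [map_mul]; exact mul_ne_zero hb hb'
    · rw [map_mul, map_mul, ← h, ← h']; ring
  one_mem' := ⟨1, 1, by simp, by simp⟩
  add_mem' := by
    rintro x y ⟨a, b, hb, h⟩ ⟨a', b', hb', h'⟩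
    refine ⟨a * b' + a' * b, b * b', ?_, ?_⟩
    · rw [map_mul]; exact mul_ne_zero hb hb'
    · rw [map_mul, map_add, map_mul, map_mul, ← h, ← h']; ring
  zero_mem' := ⟨0, 1, by simp, by simp⟩
  neg_mem' := by
    rintro x ⟨a, b, hb, h⟩
    exact ⟨-a, b, hb, by rw [map_neg, ← h]; ring⟩

theorem mem_Vw_iff (ℓ : ℕ) [Fact ℓ.Prime] {x : LaurentSeries ℚ} :
    x ∈ Vw ℓ ↔ ∃ a b : LaurentSeries (Oℓ ℓ), toF ℓ b ≠ 0 ∧ x * toQ ℓ b = toQ ℓ a := Iff.rfl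

theorem toQ_mem_Vw (ℓ : ℕ) [Fact ℓ.Prime] (a : LaurentSeries (Oℓ ℓ)) : toQ ℓ a ∈ Vw ℓ :=
  ⟨a, 1, by simp, by simp⟩

/-- A chosen numerator of an element of `Vw`. -/
def vnum (ℓ : ℕ) [Fact ℓ.Prime] (x : Vw ℓ) : LaurentSeries (Oℓ ℓ) := Classical.choose x.2

/-- A chosen denominator of an element of `Vw`. -/
def vden (ℓ : ℕ) [Fact ℓ.Prime] (x : Vw ℓ) : LaurentSeries (Oℓ ℓ) :=
  Classical.choose (Classical.choose_spec x.2)

theorem toF_vden_ne_zero (ℓ : ℕ) [Fact ℓ.Prime] (x : Vw ℓ) : toF ℓ (vden ℓ x) ≠ 0 :=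
  (Classical.choose_spec (Classical.choose_spec x.2)).1

theorem mul_toQ_vden (ℓ : ℕ) [Fact ℓ.Prime] (x : Vw ℓ) :
    (x : LaurentSeries ℚ) * toQ ℓ (vden ℓ x) = toQ ℓ (vnum ℓ x) :=
  (Classical.choose_spec (Classical.choose_spec x.2)).2

theorem vnum_div_vden (ℓ : ℕ) [Fact ℓ.Prime] (x : Vw ℓ) (a b : LaurentSeries (Oℓ ℓ))
    (hb : toF ℓ b ≠ 0) (h : (x : LaurentSeries ℚ) * toQ ℓ b = toQ ℓ a) :
    toF ℓ (vnum ℓ x) / toF ℓ (vden ℓ x) = toF ℓ a / toF ℓ b := by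
  rw [div_eq_div_iff (toF_vden_ne_zero ℓ x) hb, ← map_mul, ← map_mul]
  congr 1
  apply toQ_injective ℓ
  rw [map_mul, map_mul, ← h, ← mul_toQ_vden ℓ x]
  ring

/-- The residue map of `Vw`: `rho (a / b) = ā / b̄`. -/
def rho (ℓ : ℕ) [Fact ℓ.Prime] : Vw ℓ →+* LaurentSeries (ZMod ℓ) where
  toFun x := toF ℓ (vnum ℓ x) / toF ℓ (vden ℓ x)
  map_one' := by
    rw [vnum_div_vden ℓ 1 1 1 (by simp) (by simp)]
    simp
  map_zero' := by
    rw [vnum_div_vden ℓ 0 0 1 (by simp) (by simp)]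
    simp
  map_mul' x y := by
    rw [vnum_div_vden ℓ (x * y) (vnum ℓ x * vnum ℓ y) (vden ℓ x * vden ℓ y)
      (by rw [map_mul]; exact mul_ne_zero (toF_vden_ne_zero ℓ x) (toF_vden_ne_zero ℓ y))
      (by rw [map_mul, map_mul, ← mul_toQ_vden ℓ x, ← mul_toQ_vden ℓ y, Subring.coe_mul]; ring)]
    rw [map_mul, map_mul, mul_div_mul_comm]
  map_add' x y := by
    rw [vnum_div_vden ℓ (x + y) (vnum ℓ x * vden ℓ y + vnum ℓ y * vden ℓ x) (vden ℓ x * vden ℓ y)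
      (by rw [map_mul]; exact mul_ne_zero (toF_vden_ne_zero ℓ x) (toF_vden_ne_zero ℓ y))
      (by rw [map_mul, map_add, map_mul, map_mul, ← mul_toQ_vden ℓ x, ← mul_toQ_vden ℓ y,
            Subring.coe_add]; ring)]
    rw [map_mul, map_add, map_mul, map_mul,
      div_add_div _ _ (toF_vden_ne_zero ℓ x) (toF_vden_ne_zero ℓ y)]
    ring

theorem rho_spec (ℓ : ℕ) [Fact ℓ.Prime] (x : Vw ℓ) (a b : LaurentSeries (Oℓ ℓ))
    (hb : toF ℓ b ≠ 0) (h : (x : LaurentSeries ℚ) * toQ ℓ b = toQ ℓ a) :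
    rho ℓ x * toF ℓ b = toF ℓ a := by
  show toF ℓ (vnum ℓ x) / toF ℓ (vden ℓ x) * toF ℓ b = toF ℓ a
  rw [vnum_div_vden ℓ x a b hb h, div_mul_cancel₀ _ hb]

theorem rho_toQ (ℓ : ℕ) [Fact ℓ.Prime] (a : LaurentSeries (Oℓ ℓ)) :
    rho ℓ ⟨toQ ℓ a, toQ_mem_Vw ℓ a⟩ = toF ℓ a := by
  have := rho_spec ℓ ⟨toQ ℓ a, toQ_mem_Vw ℓ a⟩ a 1 (by simp) (by simp)
  simpa using this

/-! ### Residue fields -/

/-- `kappa ℓ M = rho (Vw ∩ Ft M)`, a subfield of `𝔽_ℓ((q))`. -/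
def kappa (ℓ : ℕ) [Fact ℓ.Prime] (M : ℕ) : Subfield (LaurentSeries (ZMod ℓ)) where
  carrier := {y | ∃ x : Vw ℓ, (x : LaurentSeries ℚ) ∈ Ft M ∧ rho ℓ x = y}
  mul_mem' := by
    rintro _ _ ⟨x, hx, rfl⟩ ⟨y, hy, rfl⟩
    exact ⟨x * y, mul_mem hx hy, map_mul _ _ _⟩
  one_mem' := ⟨1, one_mem _, map_one _⟩
  add_mem' := by
    rintro _ _ ⟨x, hx, rfl⟩ ⟨y, hy, rfl⟩
    exact ⟨x + y, add_mem hx hy, map_add _ _ _⟩
  zero_mem' := ⟨0, zero_mem _, map_zero _⟩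
  neg_mem' := by
    rintro _ ⟨x, hx, rfl⟩
    exact ⟨-x, neg_mem hx, map_neg _ _⟩
  inv_mem' := by
    rintro _ ⟨x, hx, rfl⟩
    by_cases h0 : rho ℓ x = 0
    · rw [h0, inv_zero]
      exact ⟨0, zero_mem _, map_zero _⟩
    · obtain ⟨a, b, hb, h⟩ := x.2
      have hspec := rho_spec ℓ x a b hb h
      have ha : toF ℓ a ≠ 0 := by
        rw [← hspec]
        exact mul_ne_zero h0 hb
      have hbQ : toQ ℓ b ≠ 0 := fun hq => hb (by
        have : b = 0 := toQ_injective ℓ (by rw [hq, map_zero])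
        rw [this, map_zero])
      have haQ : toQ ℓ a ≠ 0 := fun hq => ha (by
        have : a = 0 := toQ_injective ℓ (by rw [hq, map_zero])
        rw [this, map_zero])
      have hx0 : (x : LaurentSeries ℚ) ≠ 0 := by
        intro hx0
        rw [hx0, zero_mul] at h
        exact haQ h.symm
      have hinv : (x : LaurentSeries ℚ)⁻¹ * toQ ℓ a = toQ ℓ b := by
        rw [← h]
        field_simp
      refine ⟨⟨(x : LaurentSeries ℚ)⁻¹, b, a, ha, hinv⟩, inv_mem hx, ?_⟩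
      have h2 := rho_spec ℓ ⟨(x : LaurentSeries ℚ)⁻¹, b, a, ha, hinv⟩ b a ha hinv
      have h3 : rho ℓ ⟨(x : LaurentSeries ℚ)⁻¹, b, a, ha, hinv⟩ * rho ℓ x * toF ℓ b = toF ℓ b := by
        rw [mul_assoc, hspec, h2]
      have h4 : rho ℓ ⟨(x : LaurentSeries ℚ)⁻¹, b, a, ha, hinv⟩ * rho ℓ x = 1 :=
        mul_right_cancel₀ hb (by rw [h3, one_mul])
      exact eq_inv_of_mul_eq_one_left h4

theorem mem_kappa_iff (ℓ : ℕ) [Fact ℓ.Prime] (M : ℕ) {y : LaurentSeries (ZMod ℓ)} :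
    y ∈ kappa ℓ M ↔ ∃ x : Vw ℓ, (x : LaurentSeries ℚ) ∈ Ft M ∧ rho ℓ x = y := Iff.rfl

theorem kappa_mono (ℓ : ℕ) [Fact ℓ.Prime] {M M' : ℕ} (h : M ∣ M') : kappa ℓ M ≤ kappa ℓ M' := by
  rintro _ ⟨x, hx, rfl⟩
  exact ⟨x, Ft_mono h hx, rfl⟩

/-- `𝔽_ℓ(j(q^d))` as a subfield of `𝔽_ℓ((q))`. -/
def kj (ℓ : ℕ) [Fact ℓ.Prime] (d : ℕ) : Subfield (LaurentSeries (ZMod ℓ)) :=
  Subfield.closure {jd (ZMod ℓ) d}

/-! ### Evaluation of polynomials over `ℤ_(ℓ)` at a Laurent series -/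

/-- `P ↦ P(x)` for `P ∈ ℤ_(ℓ)[X]`, `x ∈ ℚ((q))`. -/
def evJ (ℓ : ℕ) (x : LaurentSeries ℚ) : Polynomial (Oℓ ℓ) →+* LaurentSeries ℚ :=
  Polynomial.eval₂RingHom
    ((algebraMap ℚ (LaurentSeries ℚ)).comp (GaloisRep.ratLocalizedAt ℓ).subtype) x

/-! ### q-expansions of modular forms on `Gamma0 M`, as rational Laurent series -/

/-- `E₄ = 1 + 240 ∑ σ₃(n) q^n` as a Laurent series over `R`. -/
def E4q (R : Type*) [CommRing R] : LaurentSeries R :=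
  HahnSeries.ofPowerSeries ℤ R (eisenstein4.map (Int.castRingHom R))

/-- The rational Laurent series that are `q`-expansions (at `∞`, in `q = e^{2πiτ}`) of
modular forms of weight `k` on `Gamma0 M`. -/
def qForms (M : ℕ) (k : ℤ) : Set (LaurentSeries ℚ) :=
  {g | ∃ (G : ModularForm (CongruenceSubgroup.Gamma0 M) k) (g0 : PowerSeries ℚ),
      g = HahnSeries.ofPowerSeries ℤ ℚ g0 ∧
      UpperHalfPlane.qExpansion 1 G = g0.map (algebraMap ℚ ℂ)}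

/-! ### Dedekind psi -/

/-- Dedekind's psi function `ψ(M) = M ∏_{r ∣ M} (1 + 1/r)`. -/
def psi (M : ℕ) : ℕ := ∏ r ∈ M.primeFactors, (r + 1) * r ^ (M.factorization r - 1)

end Fermat.Agent.S28
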