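import Mathlib
import Fermat.Agent.S28.Defs

/-!
S28, work package W1: arithmetic of the Dedekind psi function.
-/

set_option autoImplicit false

namespace Fermat.Agent.S28

theorem psi_one : psi 1 = 1 := by
  simp [psi]

theorem psi_prime {p : ℕ} (hp : p.Prime) : psi p = p + 1 := by
  simp [psi, hp.primeFactors, hp.factorization_self]

theorem psiArith_factorization_mul_self {p M : ℕ} (hp : p.Prime) (hM : 0 < M) :
    (p * M).factorization p = M.factorization p + 1 := by
  rw [Nat.factorization_mul hp.ne_zero hM.ne', Finsupp.add_apply, hp.factorization_self,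
    add_comm]

theorem psiArith_factorization_mul_of_ne {p M r : ℕ} (hp : p.Prime) (hM : 0 < M) (hr : r ≠ p) :
    (p * M).factorization r = M.factorization r := by
  rw [Nat.factorization_mul hp.ne_zero hM.ne', Finsupp.add_apply, hp.factorization,
    Finsupp.single_apply, if_neg (Ne.symm hr), zero_add]

theorem psi_mul_of_dvd {p M : ℕ} (hp : p.Prime) (hM : 0 < M) (h : p ∣ M) :
    psi (p * M) = p * psi M := by
  have hpM : p ∈ M.primeFactors := Nat.mem_primeFactors.mpr ⟨hp, h, hM.ne'⟩
  have hpf : (p * M).primeFactors = M.primeFactors := by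
    rw [Nat.primeFactors_mul hp.ne_zero hM.ne', hp.primeFactors]
    exact Finset.union_eq_right.mpr (Finset.singleton_subset_iff.mpr hpM)
  have he : 1 ≤ M.factorization p := (hp.dvd_iff_one_le_factorization hM.ne').mp h
  unfold psi
  rw [hpf, ← Finset.mul_prod_erase _ _ hpM, ← Finset.mul_prod_erase _ _ hpM,
    psiArith_factorization_mul_self hp hM]
  have hrest : ∏ r ∈ M.primeFactors.erase p, (r + 1) * r ^ ((p * M).factorization r - 1)
      = ∏ r ∈ M.primeFactors.erase p, (r + 1) * r ^ (M.factorization r - 1) := by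
    refine Finset.prod_congr rfl fun r hr => ?_
    rw [psiArith_factorization_mul_of_ne hp hM (Finset.ne_of_mem_erase hr)]
  rw [hrest]
  have hpow : p ^ (M.factorization p + 1 - 1) = p * p ^ (M.factorization p - 1) := by
    rw [Nat.add_sub_cancel, ← pow_succ', Nat.sub_add_cancel he]
  rw [hpow]
  ring

theorem psi_mul_of_not_dvd {p M : ℕ} (hp : p.Prime) (hM : 0 < M) (h : ¬ p ∣ M) :
    psi (p * M) = (p + 1) * psi M := by
  have hpM : p ∉ M.primeFactors := fun hmem => h (Nat.dvd_of_mem_primeFactors hmem)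
  have hpf : (p * M).primeFactors = insert p M.primeFactors := by
    rw [Nat.primeFactors_mul hp.ne_zero hM.ne', hp.primeFactors]
    rfl
  have he : M.factorization p = 0 := Nat.factorization_eq_zero_of_not_dvd h
  unfold psi
  rw [hpf, Finset.prod_insert hpM, psiArith_factorization_mul_self hp hM, he]
  have hrest : ∏ r ∈ M.primeFactors, (r + 1) * r ^ ((p * M).factorization r - 1)
      = ∏ r ∈ M.primeFactors, (r + 1) * r ^ (M.factorization r - 1) := by
    refine Finset.prod_congr rfl fun r hr => ?_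
    rw [psiArith_factorization_mul_of_ne hp hM (fun hrp => hpM (hrp ▸ hr))]
  rw [hrest]
  simp

/-- `2 ∏ (r + 1) ≤ p ∏ r` over a set of integers in `[2, p)` (telescoping bound). -/
theorem psiArith_two_mul_prod_le (p : ℕ) (hp : 2 ≤ p) :
    ∀ S : Finset ℕ, (∀ r ∈ S, 2 ≤ r ∧ r < p) → 2 * ∏ r ∈ S, (r + 1) ≤ p * ∏ r ∈ S, r := by
  induction p, hp using Nat.le_induction with
  | base =>
    intro S hS
    have hSe : S = ∅ := by
      apply Finset.eq_empty_of_forall_notMem
      intro r hr
      have := hS r hr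
      omega
    rw [hSe]
    simp
  | succ n hn ih =>
    intro S hS
    by_cases hmem : n ∈ S
    · have hS' : ∀ r ∈ S.erase n, 2 ≤ r ∧ r < n := by
        intro r hr
        have h1 := hS r (Finset.mem_of_mem_erase hr)
        have h2 := Finset.ne_of_mem_erase hr
        omega
      have h := ih (S.erase n) hS'
      rw [← Finset.mul_prod_erase S _ hmem, ← Finset.mul_prod_erase S (fun r => r) hmem]
      calc 2 * ((n + 1) * ∏ r ∈ S.erase n, (r + 1))
          = (n + 1) * (2 * ∏ r ∈ S.erase n, (r + 1)) := by ring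
        _ ≤ (n + 1) * (n * ∏ r ∈ S.erase n, r) := Nat.mul_le_mul_left _ h
    · have hS' : ∀ r ∈ S, 2 ≤ r ∧ r < n := by
        intro r hr
        have h1 := hS r hr
        have h2 : r ≠ n := fun h => hmem (h ▸ hr)
        omega
      have h := ih S hS'
      calc 2 * ∏ r ∈ S, (r + 1) ≤ n * ∏ r ∈ S, r := h
        _ ≤ (n + 1) * ∏ r ∈ S, r := Nat.mul_le_mul_right _ (Nat.le_succ n)

theorem psiArith_psi_mul_prod {M : ℕ} (hM : 0 < M) :
    psi M * ∏ r ∈ M.primeFactors, r = M * ∏ r ∈ M.primeFactors, (r + 1) := by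
  have hMprod : ∏ r ∈ M.primeFactors, r ^ M.factorization r = M := by
    have h := Nat.prod_factorization_pow_eq_self hM.ne'
    rw [Finsupp.prod, Nat.support_factorization] at h
    exact h
  have key : (∏ r ∈ M.primeFactors, (r + 1) * r ^ (M.factorization r - 1))
        * ∏ r ∈ M.primeFactors, r
      = (∏ r ∈ M.primeFactors, r ^ M.factorization r) * ∏ r ∈ M.primeFactors, (r + 1) := by
    rw [← Finset.prod_mul_distrib, ← Finset.prod_mul_distrib]
    refine Finset.prod_congr rfl fun r hr => ?_
    have hr' := Nat.mem_primeFactors.mp hr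
    have he : 1 ≤ M.factorization r := (hr'.1.dvd_iff_one_le_factorization hM.ne').mp hr'.2.1
    have hpow : r ^ M.factorization r = r ^ (M.factorization r - 1) * r := by
      rw [← pow_succ, Nat.sub_add_cancel he]
    rw [hpow]
    ring
  rw [hMprod] at key
  exact key

/-- `ψ(M)/M = ∏ (1 + 1/r) ≤ ∏_{2 ≤ r < p} (1 + 1/r) = p/2`. -/
theorem psi_lt {p M : ℕ} (hp : 2 ≤ p) (hM : 0 < M) (h : ∀ r ∈ M.primeFactors, r < p) :
    psi M < p * M := by
  have h1 := psiArith_psi_mul_prod hM
  have h2 := psiArith_two_mul_prod_le p hp M.primeFactors (fun r hr =>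
    ⟨(Nat.prime_of_mem_primeFactors hr).two_le, h r hr⟩)
  have hpos : 0 < ∏ r ∈ M.primeFactors, r :=
    Finset.prod_pos fun r hr => (Nat.prime_of_mem_primeFactors hr).pos
  have h3 : 2 * psi M * ∏ r ∈ M.primeFactors, r ≤ p * M * ∏ r ∈ M.primeFactors, r := by
    calc 2 * psi M * ∏ r ∈ M.primeFactors, r = 2 * (psi M * ∏ r ∈ M.primeFactors, r) := by ring
      _ = M * (2 * ∏ r ∈ M.primeFactors, (r + 1)) := by rw [h1]; ring
      _ ≤ M * (p * ∏ r ∈ M.primeFactors, r) := Nat.mul_le_mul_left _ h2
      _ = p * M * ∏ r ∈ M.primeFactors, r := by ring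
  have h4 : 2 * psi M ≤ p * M := Nat.le_of_mul_le_mul_right h3 hpos
  have h5 : 0 < p * M := Nat.mul_pos (by omega) hM
  omega

end Fermat.Agent.S28
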