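import Mathlib
import Fermat.Agent.S28.Defs
import Fermat.Agent.S28.PsiArith

/-!
S28, work package W2: the index of `Gamma0 M` in `SL(2, ℤ)` is at most the Dedekind psi
function of `M`.
-/

set_option autoImplicit false

open scoped MatrixGroups

namespace Fermat.Agent.S28

/-- A relative index is bounded by the size of a finite set carrying an invariant that separates
left cosets. -/
theorem index_relIndex_le_card {G : Type*} [Group G] (H K : Subgroup G) {α : Type*} [Finite α]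
    (f : G → α) (hf : ∀ g ∈ K, ∀ g' ∈ K, f g = f g' → g⁻¹ * g' ∈ H) :
    H.relIndex K ≤ Nat.card α := by
  have h0 : H.relIndex K = Nat.card (K ⧸ H.subgroupOf K) := rfl
  rw [h0]
  let φ : K ⧸ H.subgroupOf K → α := fun q => f (q.out : K)
  apply Nat.card_le_card_of_injective φ
  intro q q' h
  have h2 : ((q.out : K) : G)⁻¹ * ((q'.out : K) : G) ∈ H := hf _ (q.out).2 _ (q'.out).2 h
  rw [← QuotientGroup.out_eq' q, ← QuotientGroup.out_eq' q', QuotientGroup.eq]
  exact Subgroup.mem_subgroupOf.mpr h2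

theorem index_inv_mul_apply (a b : SL(2, ℤ)) :
    (↑(a⁻¹ * b) : Matrix (Fin 2) (Fin 2) ℤ) 1 0 = a 0 0 * b 1 0 - a 1 0 * b 0 0 := by
  rw [Matrix.SpecialLinearGroup.coe_mul, Matrix.SpecialLinearGroup.SL2_inv_expl,
    Matrix.mul_apply, Fin.sum_univ_two]
  simp
  ring

theorem index_mem_Gamma0_iff {N : ℕ} {A : SL(2, ℤ)} :
    A ∈ CongruenceSubgroup.Gamma0 N ↔ (N : ℤ) ∣ A 1 0 := by
  rw [CongruenceSubgroup.Gamma0_mem, ZMod.intCast_zmod_eq_zero_iff_dvd]

theorem index_Gamma0_mul_le (p M : ℕ) :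
    CongruenceSubgroup.Gamma0 (p * M) ≤ CongruenceSubgroup.Gamma0 M := by
  intro A hA
  rw [index_mem_Gamma0_iff] at hA ⊢
  exact dvd_trans ⟨(p : ℤ), by push_cast; ring⟩ hA

/-- the separating criterion: for `γ, γ' ∈ Gamma0 M` with lower left entries `M c₁`, `M c₁'`,
`γ⁻¹ γ' ∈ Gamma0 (p M)` as soon as `p ∣ a c₁' - c₁ a'`. -/
theorem index_inv_mul_mem {p M : ℕ} {g g' : SL(2, ℤ)} {c₁ c₁' : ℤ}
    (hc : g 1 0 = M * c₁) (hc' : g' 1 0 = M * c₁')
    (h : (p : ℤ) ∣ g 0 0 * c₁' - c₁ * g' 0 0) :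
    g⁻¹ * g' ∈ CongruenceSubgroup.Gamma0 (p * M) := by
  rw [index_mem_Gamma0_iff, index_inv_mul_apply, hc, hc']
  obtain ⟨t, ht⟩ := h
  refine ⟨t, ?_⟩
  push_cast
  linear_combination (M : ℤ) * ht

theorem index_relIndex_le_succ {p M : ℕ} (hp : p.Prime) :
    (CongruenceSubgroup.Gamma0 (p * M)).relIndex (CongruenceSubgroup.Gamma0 M) ≤ p + 1 := by
  have : Fact p.Prime := ⟨hp⟩
  classical
  let f : SL(2, ℤ) → Option (ZMod p) := fun g =>
    if (((g 1 0 / (M : ℤ) : ℤ) : ZMod p) = 0) then none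
    else some (((g 0 0 : ℤ) : ZMod p) * ((g 1 0 / (M : ℤ) : ℤ) : ZMod p)⁻¹)
  have hcard : Nat.card (Option (ZMod p)) = p + 1 := by
    rw [Nat.card_eq_fintype_card, Fintype.card_option, ZMod.card]
  rw [← hcard]
  apply index_relIndex_le_card _ _ f
  intro g hg g' hg' hfg
  rw [index_mem_Gamma0_iff] at hg hg'
  have hc : g 1 0 = M * (g 1 0 / (M : ℤ)) := (Int.mul_ediv_cancel' hg).symm
  have hc' : g' 1 0 = M * (g' 1 0 / (M : ℤ)) := (Int.mul_ediv_cancel' hg').symm
  apply index_inv_mul_mem hc hc'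
  rw [← ZMod.intCast_zmod_eq_zero_iff_dvd]
  push_cast
  by_cases h1 : (((g 1 0 / (M : ℤ) : ℤ) : ZMod p) = 0)
  · by_cases h2 : (((g' 1 0 / (M : ℤ) : ℤ) : ZMod p) = 0)
    · rw [h1, h2]
      ring
    · simp only [f, if_pos h1, if_neg h2] at hfg
      exact absurd hfg (by simp)
  · by_cases h2 : (((g' 1 0 / (M : ℤ) : ℤ) : ZMod p) = 0)
    · simp only [f, if_neg h1, if_pos h2] at hfg
      exact absurd hfg (by simp)
    · simp only [f, if_neg h1, if_neg h2, Option.some.injEq] at hfg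
      have h3 : ((g 0 0 : ℤ) : ZMod p) * ((g' 1 0 / (M : ℤ) : ℤ) : ZMod p)
          = ((g 1 0 / (M : ℤ) : ℤ) : ZMod p) * ((g' 0 0 : ℤ) : ZMod p) := by
        field_simp at hfg
        linear_combination hfg
      rw [h3]
      ring

theorem index_relIndex_le_self {p M : ℕ} (hp : p.Prime) (hpM : p ∣ M) :
    (CongruenceSubgroup.Gamma0 (p * M)).relIndex (CongruenceSubgroup.Gamma0 M) ≤ p := by
  have : Fact p.Prime := ⟨hp⟩
  classical
  let f : SL(2, ℤ) → ZMod p := fun g =>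
    ((g 1 0 / (M : ℤ) : ℤ) : ZMod p) * ((g 0 0 : ℤ) : ZMod p)⁻¹
  have hcard : Nat.card (ZMod p) = p := by
    rw [Nat.card_eq_fintype_card, ZMod.card]
  conv_rhs => rw [← hcard]
  apply index_relIndex_le_card _ _ f
  intro g hg g' hg' hfg
  rw [index_mem_Gamma0_iff] at hg hg'
  have hc : g 1 0 = M * (g 1 0 / (M : ℤ)) := (Int.mul_ediv_cancel' hg).symm
  have hc' : g' 1 0 = M * (g' 1 0 / (M : ℤ)) := (Int.mul_ediv_cancel' hg').symm
  -- the upper left entries are units modulo `p`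
  have hunit : ∀ γ : SL(2, ℤ), (M : ℤ) ∣ γ 1 0 → ((γ 0 0 : ℤ) : ZMod p) ≠ 0 := by
    intro γ hγ h0
    have hdet := Matrix.SpecialLinearGroup.det_coe γ
    rw [Matrix.det_fin_two] at hdet
    have hpc : ((γ 1 0 : ℤ) : ZMod p) = 0 := by
      rw [ZMod.intCast_zmod_eq_zero_iff_dvd]
      exact dvd_trans (Int.natCast_dvd_natCast.mpr hpM) hγ
    have h1 := congrArg (fun x : ℤ => (x : ZMod p)) hdet
    simp only [Int.cast_sub, Int.cast_mul, Int.cast_one] at h1
    rw [h0, hpc] at h1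
    simp at h1
  have ha := hunit g hg
  have ha' := hunit g' hg'
  apply index_inv_mul_mem hc hc'
  rw [← ZMod.intCast_zmod_eq_zero_iff_dvd]
  push_cast
  have h3 : ((g 0 0 : ℤ) : ZMod p) * ((g' 1 0 / (M : ℤ) : ℤ) : ZMod p)
      = ((g 1 0 / (M : ℤ) : ℤ) : ZMod p) * ((g' 0 0 : ℤ) : ZMod p) := by
    simp only [f] at hfg
    field_simp at hfg
    linear_combination -hfg
  rw [h3]
  ring

theorem index_Gamma0_one_eq : (CongruenceSubgroup.Gamma0 1).index = 1 := by
  have h : CongruenceSubgroup.Gamma0 1 = ⊤ := by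
    ext g
    refine ⟨fun _ => Subgroup.mem_top g, fun _ => ?_⟩
    rw [index_mem_Gamma0_iff, Nat.cast_one]
    exact one_dvd _
  rw [h, Subgroup.index_top]

theorem index_Gamma0_le_psi (M : ℕ) (hM : 0 < M) :
    (CongruenceSubgroup.Gamma0 M).index ≤ psi M := by
  induction M using induction_on_primes with
  | zero => exact absurd hM (lt_irrefl 0)
  | one => rw [index_Gamma0_one_eq, psi_one]
  | prime_mul p a hp ih =>
    have ha : 0 < a := Nat.pos_of_ne_zero (fun h => by rw [h, mul_zero] at hM; exact lt_irrefl 0 hM)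
    have hidx := Subgroup.relIndex_mul_index (index_Gamma0_mul_le p a)
    rw [← hidx]
    by_cases hpa : p ∣ a
    · rw [psi_mul_of_dvd hp ha hpa]
      exact Nat.mul_le_mul (index_relIndex_le_self hp hpa) (ih ha)
    · rw [psi_mul_of_not_dvd hp ha hpa]
      exact Nat.mul_le_mul (index_relIndex_le_succ hp) (ih ha)

end Fermat.Agent.S28
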