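import Mathlib
import Fermat.Agent.S23.Sym
import Fermat.Agent.S23.Nice
import Fermat.Agent.S23.TNForm
import Fermat.Prelude.Sol.S_ModularForm_heckeT_slash_eq_self_of_mem_Gamma0

/-!
The family of conjugates of the discriminant under the Hecke correspondence of prime level `p`:
`hfam p ∞ τ = p^12 Δ(pτ)` and `hfam p j τ = Δ((τ + j)/p)` for `j : ZMod p`.
The group `SL(2, ℤ)` permutes the family in weight 12, so the elementary symmetric functions
`unitE p r` are modular forms of level one and weight `12 r`, and every member of the family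
is a root of the polynomial with these coefficients.
-/

set_option autoImplicit false

open UpperHalfPlane ModularForm Filter
open scoped MatrixGroups Manifold

namespace Fermat.Agent.S28

open P2MW.S_ModularForm_heckeT_slash_eq_self_of_mem_Gamma0.ModularForm.HeckeSlashInvariance
open Fermat.Agent.S23

/-- The conjugates of `Δ`: `hfam p ∞ τ = p^12 Δ(pτ)`, `hfam p j τ = Δ((τ + j)/p)`. -/
noncomputable def hfam (p : ℕ) (x : OnePoint (ZMod p)) : ℍ → ℂ :=
  (p : ℂ) • (ModularForm.discriminant ∣[(12 : ℤ)] heckeRep p x)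

theorem hfam_infty_apply {p : ℕ} (hp : p ≠ 0) (τ : ℍ) :
    hfam p (OnePoint.infty) τ
      = (p : ℂ) ^ 12 * ModularForm.discriminant (ModularForm.heckeDiagMatrix p • τ) := by
  have h := ModularForm.slash_heckeDiagMatrix_apply (12 : ℤ) hp ModularForm.discriminant τ
  rw [hfam, heckeRep_infty, Pi.smul_apply, h, smul_eq_mul]
  norm_num
  ring

theorem hfam_coe_apply {p : ℕ} (hp : p ≠ 0) (j : ZMod p) (τ : ℍ) :
    hfam p (j : OnePoint (ZMod p)) τ
      = ModularForm.discriminant (ModularForm.heckeMatrix p j.val • τ) := by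
  have h := ModularForm.slash_heckeMatrix_apply (12 : ℤ) hp j.val ModularForm.discriminant τ
  have hp' : (p : ℂ) ≠ 0 := by exact_mod_cast hp
  rw [hfam, heckeRep_coe, Pi.smul_apply, h, smul_eq_mul, ← mul_assoc, mul_inv_cancel₀ hp', one_mul]

theorem hfam_slash (p : ℕ) [Fact p.Prime] (x : OnePoint (ZMod p)) (γ : SL(2, ℤ)) :
    hfam p x ∣[(12 : ℤ)] γ = hfam p (redMatrix p γ • x) := by
  have hp1 : ¬ p ∣ 1 := fun h => (Fact.out : p.Prime).one_lt.ne' (Nat.dvd_one.mp h)
  obtain ⟨g', -, hmul⟩ := heckeRep_mul (p := p) (N := 1) hp1 γ (by simp) x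
  have hΔ : ModularForm.discriminant ∣[(12 : ℤ)] (Matrix.SpecialLinearGroup.mapGL ℝ g')
      = ModularForm.discriminant :=
    SlashInvariantFormClass.slash_action_eq CuspForm.discriminant _ ⟨g', rfl⟩
  unfold hfam
  rw [ModularForm.SL_smul_slash]
  congr 1
  have h2 : (ModularForm.discriminant ∣[(12 : ℤ)] heckeRep p x) ∣[(12 : ℤ)] γ
      = (ModularForm.discriminant ∣[(12 : ℤ)] heckeRep p x) ∣[(12 : ℤ)]
          (Matrix.SpecialLinearGroup.mapGL ℝ γ) := rfl
  rw [h2, ← SlashAction.slash_mul, hmul, SlashAction.slash_mul, hΔ]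

theorem mdiff_hfam (p : ℕ) (x : OnePoint (ZMod p)) : MDiff (hfam p x) := by
  have h : MDiff (ModularForm.discriminant ∣[(12 : ℤ)] heckeRep p x) :=
    (ModularFormClass.holo CuspForm.discriminant).slash 12 _
  have h2 : hfam p x = (fun _ : ℍ => (p : ℂ)) * (ModularForm.discriminant ∣[(12 : ℤ)] heckeRep p x) := by
    ext z; simp [hfam]
  rw [h2]
  exact (Nice.const (p : ℂ)).holo.mul h

theorem isBoundedAtImInfty_hfam (p : ℕ) [NeZero p] (x : OnePoint (ZMod p)) :
    IsBoundedAtImInfty (hfam p x) := by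
  have hp : p ≠ 0 := NeZero.ne p
  have hp1 : (1 : ℝ) ≤ p := by exact_mod_cast Nat.one_le_iff_ne_zero.mpr hp
  have hΔ : IsBoundedAtImInfty ModularForm.discriminant :=
    ModularFormClass.bdd_at_infty CuspForm.discriminant
  rw [isBoundedAtImInfty_iff] at hΔ ⊢
  obtain ⟨M, A, hMA⟩ := hΔ
  induction x using OnePoint.rec with
  | infty =>
    refine ⟨(p : ℝ) ^ 12 * M, max A 0, fun z hz => ?_⟩
    rw [hfam_infty_apply hp, norm_mul, norm_pow, Complex.norm_natCast]
    refine mul_le_mul_of_nonneg_left (hMA _ ?_) (by positivity)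
    have him : (ModularForm.heckeDiagMatrix p • z : ℍ).im = p * z.im := by
      have := congrArg Complex.im (ModularForm.coe_heckeDiagMatrix_smul hp z)
      simpa using this
    rw [him]
    have hz0 : 0 ≤ z.im := le_trans (le_max_right A 0) hz
    have hzA : A ≤ z.im := le_trans (le_max_left A 0) hz
    nlinarith
  | coe j =>
    refine ⟨M, p * max A 0, fun z hz => ?_⟩
    rw [hfam_coe_apply hp]
    refine hMA _ ?_
    have him : (ModularForm.heckeMatrix p j.val • z : ℍ).im = z.im / p := by
      have := congrArg Complex.im (ModularForm.coe_heckeMatrix_smul hp j.val z)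
      rw [Complex.div_natCast_im, Complex.add_im, Complex.natCast_im, add_zero] at this
      exact this
    rw [him, le_div_iff₀ (by positivity)]
    have : A * p ≤ p * max A 0 := by
      rw [mul_comm]
      exact mul_le_mul_of_nonneg_left (le_max_left A 0) (by positivity)
    linarith


theorem card_onePoint_zmod (p : ℕ) [NeZero p] : Fintype.card (OnePoint (ZMod p)) = p + 1 := by
  have h : Fintype.card (OnePoint (ZMod p)) = Fintype.card (Option (ZMod p)) := rfl
  rw [h, Fintype.card_option, ZMod.card]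

theorem esym_hfam_slash (p : ℕ) [Fact p.Prime] (r : ℕ) (γ : SL(2, ℤ)) :
    (esym (hfam p) r) ∣[(r : ℤ) * 12] γ = esym (hfam p) r := by
  classical
  rw [SymAux.esym_slash]
  have h : (fun x => hfam p x ∣[(12 : ℤ)] γ)
      = fun x => hfam p (MulAction.toPerm (redMatrix p γ) x) := by
    funext x
    exact hfam_slash p x γ
  rw [h, esym_reindex]

/-- The `r`-th elementary symmetric function of the family `hfam p`, a modular form of level
one and weight `12 r`. -/
noncomputable def unitE (p : ℕ) [Fact p.Prime] (r : ℕ) : ModularForm 𝒮ℒ ((r : ℤ) * 12) :=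
  SymAux.mkLevelOne ((r : ℤ) * 12) (esym (hfam p) r) (fun γ => esym_hfam_slash p r γ)
    (by classical exact SymAux.mdiff_esym (hfam p) (mdiff_hfam p) r)
    (by classical exact SymAux.isBoundedAtImInfty_esym (hfam p) (isBoundedAtImInfty_hfam p) r)

theorem coe_unitE (p : ℕ) [Fact p.Prime] (r : ℕ) :
    (⇑(unitE p r) : ℍ → ℂ) = esym (hfam p) r := rfl

theorem unitE_apply (p : ℕ) [Fact p.Prime] (r : ℕ) (τ : ℍ) :
    unitE p r τ = ∑ t ∈ (Finset.univ : Finset (OnePoint (ZMod p))).powersetCard r,
      ∏ x ∈ t, hfam p x τ := by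
  classical
  rw [coe_unitE, esym_eq_sum, Finset.sum_apply]
  refine Finset.sum_congr rfl fun t _ => ?_
  rw [Finset.prod_apply]

theorem unitE_zero (p : ℕ) [Fact p.Prime] : (⇑(unitE p 0) : ℍ → ℂ) = 1 := by
  classical
  rw [coe_unitE, SymAux.esym_zero_eq_one]

/-- Every member of the family is a root of the polynomial with coefficients `unitE p r`. -/
theorem unitE_relation (p : ℕ) [Fact p.Prime] (x0 : OnePoint (ZMod p)) (τ : ℍ) :
    ∑ j ∈ Finset.range (p + 2),
      (-1 : ℂ) ^ j * unitE p j τ * (hfam p x0 τ) ^ (p + 1 - j) = 0 := by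
  classical
  have key := congrFun (charpoly_eval (hfam p) x0) τ
  rw [card_onePoint_zmod, Finset.sum_apply, Pi.zero_apply] at key
  rw [← key]
  refine Finset.sum_congr rfl fun j _ => ?_
  simp only [Pi.mul_apply, Pi.pow_apply, Pi.neg_apply, Pi.one_apply, coe_unitE]

end Fermat.Agent.S28
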