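import Mathlib
import Fermat.Agent.S23.Vieta
import Fermat.Agent.S23.FixedField
import Fermat.Agent.S23.Conjugates
import Fermat.Agent.S23.LevelOne
import Fermat.Agent.S28.UnitFam
import Fermat.Prelude.Thm_UpperHalfPlane_qExpansion_coeff_nat_mul

/-!
# S28, package W6b: integrality of the q-expansions of the elementary symmetric functions of
the family `h_∞(τ) = p^12 Δ(pτ)`, `h_b(τ) = Δ((τ + b)/p)` (`b < p`).

Route: q-expansions of period `p`; ring homomorphisms `σ` of `ℂ` permute the family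
(`ζ ↦ ζ^a`, `b ↦ ab`), so the coefficients of the elementary symmetric functions are fixed by
every `σ` (hence rational) and integral over `ℤ`, hence integers; finally pass from period `p`
to period `1`.
-/

set_option autoImplicit false

open UpperHalfPlane Filter
open scoped Manifold MatrixGroups ModularForm

namespace Fermat.Agent.S28


/-! ### Algebra: integrality, rationality -/

/-- a rational number which is integral over `ℤ` (as a complex number) is an integer -/
theorem unitQ_int_of_rat_of_isIntegral (x : ℂ) (r : ℚ) (hr : x = (r : ℂ)) (hx : IsIntegral ℤ x) :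
    ∃ m : ℤ, x = (m : ℂ) := by
  have h1 : IsIntegral ℤ r := by
    have h2 : IsIntegral ℤ (algebraMap ℚ ℂ r) := by
      rw [eq_ratCast, ← hr]; exact hx
    exact (isIntegral_algebraMap_iff (algebraMap ℚ ℂ).injective).mp h2
  obtain ⟨m, hm⟩ := IsIntegrallyClosed.isIntegral_iff.mp h1
  refine ⟨m, ?_⟩
  rw [hr, ← hm]
  simp

/-- the subring of power series with coefficients integral over `ℤ` -/
noncomputable def unitQIntSeries : Subring (PowerSeries ℂ) :=
  (PowerSeries.map (algebraMap (integralClosure ℤ ℂ) ℂ)).range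

theorem unitQ_mem_intSeries (f : PowerSeries ℂ) (h : ∀ n, IsIntegral ℤ (PowerSeries.coeff n f)) :
    f ∈ unitQIntSeries := by
  refine ⟨PowerSeries.mk (fun n => (⟨PowerSeries.coeff n f, h n⟩ : integralClosure ℤ ℂ)), ?_⟩
  ext n
  simp

theorem unitQ_isIntegral_coeff (f : PowerSeries ℂ) (h : f ∈ unitQIntSeries) (n : ℕ) :
    IsIntegral ℤ (PowerSeries.coeff n f) := by
  obtain ⟨g, rfl⟩ := h
  rw [PowerSeries.coeff_map]
  exact (PowerSeries.coeff n g).2

theorem unitQ_esym_mem {ι : Type*} [Fintype ι] [DecidableEq ι] (Q : ι → PowerSeries ℂ)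
    (h : ∀ i, Q i ∈ unitQIntSeries) (r : ℕ) : Fermat.Agent.S23.esym Q r ∈ unitQIntSeries := by
  rw [Fermat.Agent.S23.esym_eq_sum]
  exact Subring.sum_mem _ fun t _ => Subring.prod_mem _ fun i _ => h i

theorem unitQ_map_esym {ι : Type*} [Fintype ι] [DecidableEq ι] (Q : ι → PowerSeries ℂ)
    (σ : ℂ →+* ℂ) (r : ℕ) :
    PowerSeries.map σ (Fermat.Agent.S23.esym Q r)
      = Fermat.Agent.S23.esym (fun i => PowerSeries.map σ (Q i)) r := by
  rw [Fermat.Agent.S23.esym_eq_sum, Fermat.Agent.S23.esym_eq_sum, map_sum]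
  refine Finset.sum_congr rfl fun t _ => ?_
  rw [map_prod]

/-- the permutation of `Option (Fin p)` fixing `none` and multiplying by `a` on `Fin p` -/
def unitQPermFun (p : ℕ) [NeZero p] (a : ℕ) : Option (Fin p) → Option (Fin p)
  | none => none
  | some b => some ⟨(a * (b : ℕ)) % p, Nat.mod_lt _ (Nat.pos_of_ne_zero (NeZero.ne p))⟩

theorem unitQPermFun_injective (p : ℕ) [NeZero p] (a : ℕ) (ha : Nat.Coprime a p) :
    Function.Injective (unitQPermFun p a) := by
  intro x y hxy
  cases x with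
  | none =>
    cases y with
    | none => rfl
    | some b => simp [unitQPermFun] at hxy
  | some b =>
    cases y with
    | none => simp [unitQPermFun] at hxy
    | some b' =>
      simp only [unitQPermFun, Option.some.injEq, Fin.mk.injEq] at hxy
      have h1 : a * (b : ℕ) ≡ a * (b' : ℕ) [MOD p] := hxy
      have h2 : (b : ℕ) ≡ (b' : ℕ) [MOD p] := Nat.ModEq.cancel_left_of_coprime ha.symm h1
      have h3 : (b : ℕ) = (b' : ℕ) := Nat.ModEq.eq_of_lt_of_lt h2 b.2 b'.2
      exact congrArg some (Fin.ext h3)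

noncomputable def unitQPerm (p : ℕ) [NeZero p] (a : ℕ) (ha : Nat.Coprime a p) :
    Option (Fin p) ≃ Option (Fin p) :=
  Equiv.ofBijective (unitQPermFun p a)
    (Finite.injective_iff_bijective.mp (unitQPermFun_injective p a ha))

/-- the model q-expansions of the family -/
noncomputable def unitQSeries (p : ℕ) (c : ℕ → ℂ) (ζ : ℂ) (Q0 : PowerSeries ℂ) :
    Option (Fin p) → PowerSeries ℂ
  | none => Q0
  | some b => PowerSeries.mk fun n => c n * ζ ^ ((b : ℕ) * n)

theorem unitQ_map_series (p : ℕ) [Fact p.Prime] (c : ℕ → ℂ) (ζ : ℂ) (hζ : IsPrimitiveRoot ζ p)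
    (Q0 : PowerSeries ℂ) (hc : ∀ n, ∃ m : ℤ, c n = (m : ℂ))
    (hQ0 : ∀ n, ∃ m : ℤ, PowerSeries.coeff n Q0 = (m : ℂ)) (σ : ℂ →+* ℂ) :
    ∃ e : Option (Fin p) ≃ Option (Fin p), ∀ α,
      PowerSeries.map σ (unitQSeries p c ζ Q0 α) = unitQSeries p c ζ Q0 (e α) := by
  have hp : p.Prime := Fact.out
  have : NeZero p := ⟨hp.ne_zero⟩
  have h1 : (σ ζ) ^ p = 1 := by rw [← map_pow, hζ.pow_eq_one, map_one]
  obtain ⟨a, ha, hζa⟩ := hζ.eq_pow_of_pow_eq_one h1
  have hcop : Nat.Coprime a p := by
    rw [Nat.coprime_comm, hp.coprime_iff_not_dvd]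
    intro hdvd
    obtain ⟨k, rfl⟩ := hdvd
    rw [pow_mul, hζ.pow_eq_one, one_pow] at hζa
    have h2 : σ ζ = σ 1 := by rw [← hζa, map_one]
    have h3 : ζ = 1 := σ.injective h2
    exact hζ.ne_one hp.one_lt h3
  refine ⟨unitQPerm p a hcop, fun α => ?_⟩
  cases α with
  | none =>
    show PowerSeries.map σ Q0 = Q0
    ext n
    obtain ⟨m, hm⟩ := hQ0 n
    rw [PowerSeries.coeff_map, hm, map_intCast]
  | some b =>
    show PowerSeries.map σ (PowerSeries.mk fun n => c n * ζ ^ ((b : ℕ) * n))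
      = PowerSeries.mk fun n => c n * ζ ^ (((a * (b : ℕ)) % p) * n)
    ext n
    obtain ⟨m, hm⟩ := hc n
    rw [PowerSeries.coeff_map, PowerSeries.coeff_mk, PowerSeries.coeff_mk, map_mul, hm,
      map_intCast, map_pow, ← hζa]
    congr 1
    rw [pow_mul ζ ((a * (b : ℕ)) % p) n, ← pow_eq_pow_mod _ hζ.pow_eq_one, ← pow_mul, ← pow_mul]
    congr 1
    ring

theorem unitQ_series_mem (p : ℕ) [Fact p.Prime] (c : ℕ → ℂ) (ζ : ℂ) (hζ : IsPrimitiveRoot ζ p)
    (Q0 : PowerSeries ℂ) (hc : ∀ n, ∃ m : ℤ, c n = (m : ℂ))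
    (hQ0 : ∀ n, ∃ m : ℤ, PowerSeries.coeff n Q0 = (m : ℂ)) (α : Option (Fin p)) :
    unitQSeries p c ζ Q0 α ∈ unitQIntSeries := by
  have hp : p.Prime := Fact.out
  apply unitQ_mem_intSeries
  intro n
  cases α with
  | none =>
    show IsIntegral ℤ (PowerSeries.coeff n Q0)
    obtain ⟨m, hm⟩ := hQ0 n
    rw [hm]
    exact isIntegral_algebraMap (R := ℤ) (A := ℂ) (x := m)
  | some b =>
    show IsIntegral ℤ (PowerSeries.coeff n (PowerSeries.mk fun n => c n * ζ ^ ((b : ℕ) * n)))
    rw [PowerSeries.coeff_mk]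
    obtain ⟨m, hm⟩ := hc n
    rw [hm]
    exact (isIntegral_algebraMap (R := ℤ) (A := ℂ) (x := m)).mul
      ((hζ.isIntegral hp.pos).pow _)

/-- **Algebraic core**: the elementary symmetric functions of the model family have integer
coefficients. -/
theorem unitQ_esym_series_coeff_int (p : ℕ) [Fact p.Prime] (c : ℕ → ℂ) (ζ : ℂ)
    (hζ : IsPrimitiveRoot ζ p) (Q0 : PowerSeries ℂ) (hc : ∀ n, ∃ m : ℤ, c n = (m : ℂ))
    (hQ0 : ∀ n, ∃ m : ℤ, PowerSeries.coeff n Q0 = (m : ℂ)) (r n : ℕ) :
    ∃ m : ℤ, PowerSeries.coeff n (Fermat.Agent.S23.esym (unitQSeries p c ζ Q0) r) = (m : ℂ) := by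
  set Q := unitQSeries p c ζ Q0 with hQ
  have hint : IsIntegral ℤ (PowerSeries.coeff n (Fermat.Agent.S23.esym Q r)) :=
    unitQ_isIntegral_coeff _ (unitQ_esym_mem Q (unitQ_series_mem p c ζ hζ Q0 hc hQ0) r) n
  have hfix : ∀ σ : ℂ →+* ℂ, σ (PowerSeries.coeff n (Fermat.Agent.S23.esym Q r))
      = PowerSeries.coeff n (Fermat.Agent.S23.esym Q r) := by
    intro σ
    obtain ⟨e, he⟩ := unitQ_map_series p c ζ hζ Q0 hc hQ0 σ
    rw [← PowerSeries.coeff_map, unitQ_map_esym]
    have h1 : (fun i => PowerSeries.map σ (Q i)) = fun i => Q (e i) := funext he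
    rw [h1, Fermat.Agent.S23.esym_reindex Q e r]
  obtain ⟨q, hq⟩ := Fermat.Agent.S23.exists_rat_of_forall_ringHom_eq _ hfix
  exact unitQ_int_of_rat_of_isIntegral _ q hq hint



/-! ### Analysis: functions of period `h` -/

/-- holomorphic on `ℍ`, `h`-periodic, bounded at `i∞`. -/
structure UnitQNice (h : ℝ) (F : ℍ → ℂ) : Prop where
  holo : MDiff F
  per : Function.Periodic (F ∘ ofComplex) h
  bdd : IsBoundedAtImInfty F

namespace UnitQNice

variable {h : ℝ} {F G : ℍ → ℂ}

theorem analyticAt (hh : 0 < h) (hF : UnitQNice h F) : AnalyticAt ℂ (cuspFunction h F) 0 :=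
  analyticAt_cuspFunction_zero hh hF.per hF.holo hF.bdd

theorem zero : UnitQNice h (0 : ℍ → ℂ) where
  holo := fun _ => mdifferentiableAt_const
  per := fun _ => rfl
  bdd := zero_form_isBoundedAtImInfty

theorem one : UnitQNice h (1 : ℍ → ℂ) where
  holo := fun _ => mdifferentiableAt_const
  per := fun _ => rfl
  bdd := Filter.const_boundedAtFilter _ 1

theorem add (hF : UnitQNice h F) (hG : UnitQNice h G) : UnitQNice h (F + G) where
  holo := hF.holo.add hG.holo
  per := fun x => by
    have h1 := hF.per x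
    have h2 := hG.per x
    simp only [Function.comp_apply, Pi.add_apply] at h1 h2 ⊢
    rw [h1, h2]
  bdd := hF.bdd.add hG.bdd

theorem mul (hF : UnitQNice h F) (hG : UnitQNice h G) : UnitQNice h (F * G) where
  holo := hF.holo.mul hG.holo
  per := fun x => by
    have h1 := hF.per x
    have h2 := hG.per x
    simp only [Function.comp_apply, Pi.mul_apply] at h1 h2 ⊢
    rw [h1, h2]
  bdd := hF.bdd.mul hG.bdd

theorem sum {ι : Type*} (s : Finset ι) {F : ι → ℍ → ℂ} (hF : ∀ i ∈ s, UnitQNice h (F i)) :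
    UnitQNice h (∑ i ∈ s, F i) := by
  classical
  induction s using Finset.induction_on with
  | empty => simpa using zero
  | insert i t hi ih =>
    rw [Finset.sum_insert hi]
    exact (hF i (Finset.mem_insert_self i t)).add
      (ih fun j hj => hF j (Finset.mem_insert_of_mem hj))

theorem prod {ι : Type*} (s : Finset ι) {F : ι → ℍ → ℂ} (hF : ∀ i ∈ s, UnitQNice h (F i)) :
    UnitQNice h (∏ i ∈ s, F i) := by
  classical
  induction s using Finset.induction_on with
  | empty => simpa using one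
  | insert i t hi ih =>
    rw [Finset.prod_insert hi]
    exact (hF i (Finset.mem_insert_self i t)).mul
      (ih fun j hj => hF j (Finset.mem_insert_of_mem hj))

theorem qExpansion_add (hh : 0 < h) (hF : UnitQNice h F) (hG : UnitQNice h G) :
    qExpansion h (F + G) = qExpansion h F + qExpansion h G :=
  UpperHalfPlane.qExpansion_add (hF.analyticAt hh) (hG.analyticAt hh)

theorem qExpansion_mul (hh : 0 < h) (hF : UnitQNice h F) (hG : UnitQNice h G) :
    qExpansion h (F * G) = qExpansion h F * qExpansion h G :=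
  UpperHalfPlane.qExpansion_mul (hF.analyticAt hh) (hG.analyticAt hh)

theorem qExpansion_sum (hh : 0 < h) {ι : Type*} (s : Finset ι) {F : ι → ℍ → ℂ}
    (hF : ∀ i ∈ s, UnitQNice h (F i)) :
    qExpansion h (∑ i ∈ s, F i) = ∑ i ∈ s, qExpansion h (F i) := by
  classical
  induction s using Finset.induction_on with
  | empty => simpa using UpperHalfPlane.qExpansion_zero h
  | insert i t hi ih =>
    have h1 := hF i (Finset.mem_insert_self i t)
    have h2 : ∀ j ∈ t, UnitQNice h (F j) := fun j hj => hF j (Finset.mem_insert_of_mem hj)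
    rw [Finset.sum_insert hi, Finset.sum_insert hi, h1.qExpansion_add hh (sum t h2), ih h2]

theorem qExpansion_prod (hh : 0 < h) {ι : Type*} (s : Finset ι) {F : ι → ℍ → ℂ}
    (hF : ∀ i ∈ s, UnitQNice h (F i)) :
    qExpansion h (∏ i ∈ s, F i) = ∏ i ∈ s, qExpansion h (F i) := by
  classical
  induction s using Finset.induction_on with
  | empty => simpa using UpperHalfPlane.qExpansion_one h
  | insert i t hi ih =>
    have h1 := hF i (Finset.mem_insert_self i t)
    have h2 : ∀ j ∈ t, UnitQNice h (F j) := fun j hj => hF j (Finset.mem_insert_of_mem hj)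
    rw [Finset.prod_insert hi, Finset.prod_insert hi, h1.qExpansion_mul hh (prod t h2), ih h2]

/-- a nice function of period `1` is nice of period `p` -/
theorem of_nice (p : ℕ) (hF : Fermat.Agent.S23.Nice F) : UnitQNice (p : ℝ) F where
  holo := hF.holo
  per := by
    have h1 := hF.per.nat_mul p
    simpa using h1
  bdd := hF.bdd

/-- q-expansion of an elementary symmetric function of a family -/
theorem qExpansion_esym (hh : 0 < h) {ι : Type*} [Fintype ι] [DecidableEq ι] (F : ι → ℍ → ℂ)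
    (hF : ∀ i, UnitQNice h (F i)) (r : ℕ) :
    qExpansion h (fun τ => Fermat.Agent.S23.esym (fun α => F α τ) r)
      = Fermat.Agent.S23.esym (fun α => qExpansion h (F α)) r := by
  have h1 : (fun τ => Fermat.Agent.S23.esym (fun α => F α τ) r)
      = ∑ t ∈ (Finset.univ : Finset ι).powersetCard r, ∏ i ∈ t, F i := by
    funext τ
    rw [Fermat.Agent.S23.esym_eq_sum]
    simp [Finset.sum_apply, Finset.prod_apply]
  rw [h1, Fermat.Agent.S23.esym_eq_sum,
    qExpansion_sum hh _ (fun t _ => prod t (fun i _ => hF i))]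
  refine Finset.sum_congr rfl fun t _ => ?_
  exact qExpansion_prod hh t (fun i _ => hF i)

end UnitQNice

/-- uniqueness of q-expansion coefficients, for plain functions -/
theorem unitQ_coeff_unique {h : ℝ} {f : ℍ → ℂ} {c : ℕ → ℂ} (hh : 0 < h)
    (hfanalytic : AnalyticAt ℂ (cuspFunction h f) 0)
    (hf : ∀ τ : ℍ, HasSum (fun m ↦ c m • Function.Periodic.qParam h τ ^ m) (f τ)) (m : ℕ) :
    c m = (qExpansion h f).coeff m := by
  have h1 := (hasFPowerSeriesOnBall_cuspFunction hh hfanalytic hf).hasFPowerSeriesAt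
  have h2 : HasFPowerSeriesAt (cuspFunction h f)
      (FormalMultilinearSeries.ofScalars ℂ fun m => (qExpansion h f).coeff m) 0 := by
    simpa [qExpansion_coeff, div_eq_mul_inv, mul_comm] using hfanalytic.hasFPowerSeriesAt
  have h3 := congr_arg (FormalMultilinearSeries.coeff · m) (h1.eq_formalMultilinearSeries h2)
  simpa [FormalMultilinearSeries.coeff_ofScalars] using h3


/-! ### The family `h_b(τ) = Δ((τ + b)/p)`, `h_∞(τ) = p^12 Δ(pτ)` -/

theorem unitQ_heckeMatrix_vadd (p : ℕ) (hp : p ≠ 0) (b : ℕ) (τ : ℍ) :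
    ModularForm.heckeMatrix p b • ((p : ℝ) +ᵥ τ)
      = (1 : ℝ) +ᵥ (ModularForm.heckeMatrix p b • τ) := by
  have hp' : (p : ℂ) ≠ 0 := by exact_mod_cast hp
  apply UpperHalfPlane.ext
  rw [ModularForm.coe_heckeMatrix_smul hp, UpperHalfPlane.coe_vadd, UpperHalfPlane.coe_vadd,
    ModularForm.coe_heckeMatrix_smul hp]
  push_cast
  field_simp
  ring

theorem unitQ_qParam_heckeMatrix (p : ℕ) (hp : p ≠ 0) (b : ℕ) (τ : ℍ) :
    Function.Periodic.qParam 1 ((ModularForm.heckeMatrix p b • τ : ℍ) : ℂ)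
      = Complex.exp (2 * Real.pi * Complex.I / p) ^ b * Function.Periodic.qParam p (τ : ℂ) := by
  have hp' : (p : ℂ) ≠ 0 := by exact_mod_cast hp
  rw [ModularForm.coe_heckeMatrix_smul hp]
  simp only [Function.Periodic.qParam, Complex.ofReal_one, div_one, Complex.ofReal_natCast]
  rw [← Complex.exp_nat_mul, ← Complex.exp_add]
  congr 1
  field_simp
  ring

theorem unitQ_hasSum_some (p : ℕ) (hp : p ≠ 0) (b : ℕ) (τ : ℍ) :
    HasSum (fun m : ℕ => ((qExpansion 1 ModularForm.discriminant).coeff m *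
        Complex.exp (2 * Real.pi * Complex.I / p) ^ (b * m)) •
          Function.Periodic.qParam p (τ : ℂ) ^ m)
      (ModularForm.discriminant (ModularForm.heckeMatrix p b • τ)) := by
  have hniceΔ : Fermat.Agent.S23.Nice ModularForm.discriminant :=
    Fermat.Agent.S23.conj_nice_discriminant
  have h1 := hasSum_qExpansion (h := 1) one_pos hniceΔ.per hniceΔ.holo hniceΔ.bdd
    (ModularForm.heckeMatrix p b • τ)
  rw [unitQ_qParam_heckeMatrix p hp b τ] at h1
  convert h1 using 2 with m
  simp only [smul_eq_mul]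
  rw [mul_pow, pow_mul]
  ring

theorem unitQ_nice_some (p : ℕ) (hp : p ≠ 0) (b : ℕ) (F : ℍ → ℂ)
    (hF : ∀ τ : ℍ, F τ = ModularForm.discriminant (ModularForm.heckeMatrix p b • τ)) :
    UnitQNice (p : ℝ) F where
  holo := by
    have hp' : (p : ℂ) ≠ 0 := by exact_mod_cast hp
    have h1 : MDiff (ModularForm.discriminant ∣[(12 : ℤ)] ModularForm.heckeMatrix p b) :=
      (ModularFormClass.holo CuspForm.discriminant).slash 12 _
    have h2 : F = (fun _ : ℍ => (p : ℂ)) *
        (ModularForm.discriminant ∣[(12 : ℤ)] ModularForm.heckeMatrix p b) := by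
      funext τ
      rw [Pi.mul_apply, ModularForm.slash_heckeMatrix_apply 12 hp, hF τ, ← mul_assoc,
        mul_inv_cancel₀ hp', one_mul]
    rw [h2]
    exact MDifferentiable.mul (fun _ => mdifferentiableAt_const) h1
  per := by
    intro z
    by_cases hz : 0 < z.im
    · have hz' : 0 < (z + (p : ℝ)).im := by simpa using hz
      simp only [Function.comp_apply]
      rw [ofComplex_apply_of_im_pos hz', ofComplex_apply_of_im_pos hz, hF, hF]
      have h1 : (⟨z + (p : ℝ), hz'⟩ : ℍ) = (p : ℝ) +ᵥ (⟨z, hz⟩ : ℍ) := by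
        apply UpperHalfPlane.ext
        rw [UpperHalfPlane.coe_vadd]
        simp [add_comm]
      rw [h1, unitQ_heckeMatrix_vadd p hp b, Fermat.Agent.S23.conj_discriminant_one_vadd]
    · have hz0 : z.im ≤ 0 := not_lt.mp hz
      have hz' : (z + (p : ℝ)).im ≤ 0 := by simpa using hz0
      simp only [Function.comp_apply]
      rw [ofComplex_apply_of_im_nonpos hz', ofComplex_apply_of_im_nonpos hz0]
  bdd := by
    have hpos : (0 : ℝ) < p := by exact_mod_cast Nat.pos_of_ne_zero hp
    refine isBoundedAtImInfty_of_hasSum_qExpansion (h := (p : ℝ)) hpos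
      (c := fun m : ℕ => (qExpansion 1 ModularForm.discriminant).coeff m *
        Complex.exp (2 * Real.pi * Complex.I / p) ^ (b * m)) ?_
    intro τ
    rw [hF τ]
    exact_mod_cast unitQ_hasSum_some p hp b τ

theorem unitQ_qExpansion_some (p : ℕ) (hp : p ≠ 0) (b : ℕ) (F : ℍ → ℂ)
    (hF : ∀ τ : ℍ, F τ = ModularForm.discriminant (ModularForm.heckeMatrix p b • τ)) (n : ℕ) :
    (qExpansion (p : ℝ) F).coeff n = (qExpansion 1 ModularForm.discriminant).coeff n *
        Complex.exp (2 * Real.pi * Complex.I / p) ^ (b * n) := by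
  have hpos : (0 : ℝ) < p := by exact_mod_cast Nat.pos_of_ne_zero hp
  have h1 := unitQ_coeff_unique (h := (p : ℝ)) (f := F)
    (c := fun m : ℕ => (qExpansion 1 ModularForm.discriminant).coeff m *
        Complex.exp (2 * Real.pi * Complex.I / p) ^ (b * m)) hpos
    ((unitQ_nice_some p hp b F hF).analyticAt hpos) ?_ n
  · exact h1.symm
  · intro τ
    rw [hF τ]
    exact_mod_cast unitQ_hasSum_some p hp b τ

theorem unitQ_nice_none (p : ℕ) (hp : p ≠ 0) (F : ℍ → ℂ)
    (hF : ∀ τ : ℍ, F τ = (p : ℂ) ^ 12 *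
      ModularForm.discriminant (ModularForm.heckeDiagMatrix p • τ)) :
    Fermat.Agent.S23.Nice F ∧ ∀ n, ∃ m : ℤ, (qExpansion 1 F).coeff n = (m : ℂ) := by
  have : NeZero p := ⟨hp⟩
  have h1 : F = (p : ℂ) • Fermat.Agent.S23.TN p := by
    funext τ
    rw [Pi.smul_apply, smul_eq_mul, Fermat.Agent.S23.TN_apply hp, hF τ]
    ring
  have hT := Fermat.Agent.S23.nice_TN p
  refine ⟨h1 ▸ hT.smul _, fun n => ?_⟩
  rw [h1, hT.qExpansion_smul]
  obtain ⟨m, hm⟩ := Fermat.Agent.S23.TN_qExpansion_coeff_int p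
    Fermat.Agent.S23.discriminant_qExpansion_coeff_int n
  refine ⟨p * m, ?_⟩
  rw [PowerSeries.coeff_smul, hm]
  push_cast
  simp

/-- **W6b**: the elementary symmetric functions of the family `h_∞ = p^12 Δ(pτ)`,
`h_b = Δ((τ+b)/p)` (`b < p`) have integral q-expansions. -/
theorem unit_esym_coeff_int (p : ℕ) [Fact p.Prime] (F : Option (Fin p) → ℍ → ℂ)
    (hnone : ∀ τ : ℍ, F none τ = (p : ℂ) ^ 12 *
      ModularForm.discriminant (ModularForm.heckeDiagMatrix p • τ))
    (hsome : ∀ (b : Fin p) (τ : ℍ), F (some b) τ =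
      ModularForm.discriminant (ModularForm.heckeMatrix p b • τ))
    (r : ℕ) (G : ℍ → ℂ) (hG : Fermat.Agent.S23.Nice G)
    (hGF : ∀ τ, G τ = Fermat.Agent.S23.esym (fun α => F α τ) r) (n : ℕ) :
    ∃ m : ℤ, (qExpansion 1 G).coeff n = (m : ℂ) := by
  have hprime : p.Prime := Fact.out
  have hp : p ≠ 0 := hprime.ne_zero
  have hpos : (0 : ℝ) < p := by exact_mod_cast hprime.pos
  obtain ⟨hN0, hint0⟩ := unitQ_nice_none p hp (F none) hnone
  have hFnice : ∀ α, UnitQNice (p : ℝ) (F α) := by
    intro α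
    cases α with
    | none => exact UnitQNice.of_nice p hN0
    | some b => exact unitQ_nice_some p hp b (F (some b)) (hsome b)
  -- the q-expansions of period `p`
  set ζ : ℂ := Complex.exp (2 * Real.pi * Complex.I / p) with hζdef
  have hζ : IsPrimitiveRoot ζ p := Complex.isPrimitiveRoot_exp p hp
  set c : ℕ → ℂ := fun n => (qExpansion 1 ModularForm.discriminant).coeff n with hc
  set Q0 : PowerSeries ℂ := qExpansion (p : ℝ) (F none) with hQ0
  have hcint : ∀ n, ∃ m : ℤ, c n = (m : ℂ) :=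
    Fermat.Agent.S23.discriminant_qExpansion_coeff_int
  have hmul : ∀ (H : ℍ → ℂ), Fermat.Agent.S23.Nice H → ∀ k : ℕ,
      (qExpansion (p : ℝ) H).coeff k = if p ∣ k then (qExpansion 1 H).coeff (k / p) else 0 := by
    intro H hH k
    have h1 := UpperHalfPlane.qExpansion_coeff_nat_mul (h := 1) one_pos hH.per hH.holo hH.bdd
      (M := p) hprime.pos k
    rw [mul_one] at h1
    exact h1
  have hQ0int : ∀ n, ∃ m : ℤ, PowerSeries.coeff n Q0 = (m : ℂ) := by
    intro k
    rw [hQ0, hmul _ hN0 k]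
    split_ifs with hk
    · exact hint0 _
    · exact ⟨0, by simp⟩
  have hfam : (fun α => qExpansion (p : ℝ) (F α)) = unitQSeries p c ζ Q0 := by
    funext α
    cases α with
    | none => rfl
    | some b =>
      show qExpansion (p : ℝ) (F (some b)) = PowerSeries.mk fun n => c n * ζ ^ ((b : ℕ) * n)
      ext k
      rw [PowerSeries.coeff_mk]
      exact unitQ_qExpansion_some p hp b (F (some b)) (hsome b) k
  have hGeq : G = fun τ => Fermat.Agent.S23.esym (fun α => F α τ) r := funext hGF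
  have hqG : qExpansion (p : ℝ) G = Fermat.Agent.S23.esym (unitQSeries p c ζ Q0) r := by
    rw [hGeq, UnitQNice.qExpansion_esym hpos F hFnice r, hfam]
  obtain ⟨m, hm⟩ := unitQ_esym_series_coeff_int p c ζ hζ Q0 hcint hQ0int r (p * n)
  refine ⟨m, ?_⟩
  rw [← hm, ← hqG, hmul G hG (p * n), if_pos (dvd_mul_right p n),
    Nat.mul_div_cancel_left n hprime.pos]

/-- elementary symmetric functions are invariant under reindexing along an equivalence -/
theorem unitQ_esym_equiv {R : Type*} [CommRing R] {ι κ : Type*} [Fintype ι] [DecidableEq ι]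
    [Fintype κ] [DecidableEq κ] (a : κ → R) (e : ι ≃ κ) (j : ℕ) :
    Fermat.Agent.S23.esym (fun q => a (e q)) j = Fermat.Agent.S23.esym a j := by
  unfold Fermat.Agent.S23.esym
  congr 1
  have h : (Finset.univ : Finset ι).val.map (fun q => a (e q))
      = ((Finset.univ : Finset ι).val.map e).map a := by
    rw [Multiset.map_map]; rfl
  rw [h]
  congr 1
  have h2 : ((Finset.univ : Finset ι).map e.toEmbedding).val
      = (Finset.univ : Finset ι).val.map e := Finset.map_val _ _
  rw [← h2, Finset.map_univ_equiv]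

theorem unitQ_finEquiv_val (p : ℕ) [NeZero p] (b : Fin p) :
    (ZMod.finEquiv p b).val = (b : ℕ) := by
  cases p with
  | zero => exact (NeZero.ne 0 rfl).elim
  | succ n => rfl

/-- **W6b** (interface of `UnitFam.lean`): the level-one forms `unitE p r` have integral
q-expansions. -/
theorem unitE_qExpansion_int (p : ℕ) [Fact p.Prime] (r n : ℕ) :
    ∃ m : ℤ, (UpperHalfPlane.qExpansion 1 (unitE p r)).coeff n = (m : ℂ) := by
  classical
  have hprime : p.Prime := Fact.out
  have hp : p ≠ 0 := hprime.ne_zero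
  have : NeZero p := ⟨hp⟩
  let e : Option (Fin p) ≃ OnePoint (ZMod p) := Equiv.optionCongr (ZMod.finEquiv p).toEquiv
  refine unit_esym_coeff_int p (fun α => hfam p (e α)) ?_ ?_ r (⇑(unitE p r))
    (Fermat.Agent.S23.nice_levelOne (unitE p r)) ?_ n
  · intro τ
    exact hfam_infty_apply hp τ
  · intro b τ
    have h1 := hfam_coe_apply hp (ZMod.finEquiv p b) τ
    rw [unitQ_finEquiv_val] at h1
    exact h1
  · intro τ
    rw [unitE_apply, unitQ_esym_equiv (fun x => hfam p x τ) e r, Fermat.Agent.S23.esym_eq_sum]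

end Fermat.Agent.S28
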