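import Mathlib

/-!
# S28, W5: bounded degree implies bounded relative rank (primitive element theorem)
-/

set_option autoImplicit false

open Polynomial Module

namespace Fermat.Agent.S28

/-- A finite extension in characteristic zero all of whose elements have degree `≤ n` has
degree `≤ n`. -/
theorem boundedDegree_finrank_le {k E : Type*} [Field k] [Field E] [Algebra k E] [CharZero k]
    [FiniteDimensional k E] (n : ℕ) (h : ∀ x : E, (minpoly k x).natDegree ≤ n) :
    finrank k E ≤ n := by
  obtain ⟨α, hα⟩ := Field.exists_primitive_element k E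
  have h1 := IntermediateField.adjoin.finrank (K := k) (x := α) (Algebra.IsIntegral.isIntegral α)
  rw [hα, IntermediateField.finrank_top'] at h1
  rw [h1]
  exact h α

/-- An algebraic extension in characteristic zero all of whose elements have degree `≤ n` has
degree `≤ n`. -/
theorem boundedDegree_rank_le {k E : Type*} [Field k] [Field E] [Algebra k E] [CharZero k]
    [Algebra.IsAlgebraic k E] (n : ℕ) (h : ∀ x : E, (minpoly k x).natDegree ≤ n) :
    Module.rank k E ≤ (n : Cardinal) := by
  have hfd : FiniteDimensional k E := by
    by_contra hnfd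
    obtain ⟨F, hF, hlt⟩ := IntermediateField.exists_lt_finrank_of_infinite_dimensional hnfd n
    have h2 : finrank k F ≤ n := by
      refine boundedDegree_finrank_le n fun x => ?_
      have e : minpoly k (algebraMap F E x) = minpoly k x :=
        minpoly.algebraMap_eq (algebraMap F E).injective x
      rw [← e]
      exact h _
    omega
  rw [← finrank_eq_rank]
  exact_mod_cast boundedDegree_finrank_le n h

/-- If every element of `K` is a root of a nonzero polynomial of degree `≤ n` with coefficients
in `k`, then `[K : k] ≤ n` (characteristic zero). -/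
theorem relrank_le_of_forall_degree_le {L : Type} [Field L] [CharZero L] (k K : Subfield L)
    (hkK : k ≤ K) (n : ℕ)
    (h : ∀ x ∈ K, ∃ f : Polynomial L, f ≠ 0 ∧ (∀ i, f.coeff i ∈ k) ∧ f.natDegree ≤ n ∧
      f.eval x = 0) :
    Subfield.relrank k K ≤ (n : Cardinal) := by
  rw [Subfield.relrank_eq_rank_of_le hkK]
  set E : IntermediateField k L := Subfield.extendScalars hkK with hE
  have hchar : CharZero k :=
    ((algebraMap k L).charZero_iff (algebraMap k L).injective).mpr inferInstance
  have key : ∀ x : E, ∃ g : Polynomial k, g ≠ 0 ∧ g.natDegree ≤ n ∧ aeval x g = 0 := by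
    intro x
    have hxK : (x : L) ∈ K := x.2
    obtain ⟨f, hf0, hfc, hfn, hfx⟩ := h (x : L) hxK
    have hlift : f ∈ lifts (algebraMap k L) := by
      rw [lifts_iff_coeff_lifts]
      intro i
      exact ⟨⟨f.coeff i, hfc i⟩, rfl⟩
    obtain ⟨g, hg, hgdeg⟩ := exists_degree_eq_of_mem_lifts hlift
    refine ⟨g, ?_, ?_, ?_⟩
    · rintro rfl
      exact hf0 (by rw [← hg, Polynomial.map_zero])
    · exact (natDegree_le_natDegree hgdeg.le).trans hfn
    · have h1 : aeval (x : L) g = 0 := by
        rw [aeval_def, ← eval_map, hg]
        exact hfx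
      have h2 : ((aeval x g : E) : L) = aeval (x : L) g := by
        rw [← IntermediateField.algebraMap_apply, ← aeval_algebraMap_apply]
        rfl
      exact Subtype.ext (by rw [h2, h1]; rfl)
  have halg : Algebra.IsAlgebraic k E := by
    refine ⟨fun x => ?_⟩
    obtain ⟨g, hg0, -, hgx⟩ := key x
    exact ⟨g, hg0, hgx⟩
  refine boundedDegree_rank_le n fun x => ?_
  obtain ⟨g, hg0, hgn, hgx⟩ := key x
  exact (natDegree_le_natDegree (minpoly.degree_le_of_ne_zero k x hg0 hgx)).trans hgn

end Fermat.Agent.S28
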