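import Mathlib
import Fermat.Agent.S28.Defs
import Fermat.Agent.Lib.JDict
import Fermat.Agent.S23.TNForm
import Fermat.Prelude.Thm_ModularForm_sturm_bound_Gamma0
import Fermat.Prelude.Thm_CongruenceSubgroup_one_mem_strictPeriods_Gamma0

/-!
# S28, work package W3: the `qForms` API

`qForms M k` is the set of rational Laurent series that are `q`-expansions of modular forms of
weight `k` on `Gamma0 M`.  This file proves closure under `0`, `+`, rational scalars, `*`, `1`,
membership of `E₄(q^d)` and `Δ(q^d)` for `d ∣ M`, the Sturm bound, and the formal identity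
`j · Δ = E₄³`.
-/

set_option autoImplicit false

open ModularCurve UpperHalfPlane ModularForm
open scoped MatrixGroups Manifold

noncomputable section

namespace Fermat.Agent.S28

/-! ### Formal part -/

/-- the power series `f(q^d)`. -/
def formsVPS (d : ℕ) (f : PowerSeries ℚ) : PowerSeries ℚ :=
  PowerSeries.mk fun n => if d ∣ n then PowerSeries.coeff (n / d) f else 0

theorem forms_V_ofPowerSeries {d : ℕ} (hd : d ≠ 0) (f : PowerSeries ℚ) :
    V ℚ d (HahnSeries.ofPowerSeries ℤ ℚ f) = HahnSeries.ofPowerSeries ℤ ℚ (formsVPS d f) := by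
  have : NeZero d := ⟨hd⟩
  rw [V_eq_qExpand]
  ext m
  rcases lt_or_ge m 0 with hm | hm
  · rw [ofPowerSeries_coeff_of_neg _ hm]
    by_cases hdm : (d : ℤ) ∣ m
    · obtain ⟨c, rfl⟩ := hdm
      rw [qExpand_coeff_mul]
      refine ofPowerSeries_coeff_of_neg _ ?_
      have hd0 : (0 : ℤ) < d := by exact_mod_cast Nat.pos_of_ne_zero hd
      by_contra hc
      push Not at hc
      exact absurd hm (not_lt.mpr (mul_nonneg hd0.le hc))
    · exact qExpand_coeff_of_not_dvd d _ hdm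
  · lift m to ℕ using hm
    rw [HahnSeries.ofPowerSeries_apply_coeff, formsVPS, PowerSeries.coeff_mk]
    split_ifs with hdm
    · obtain ⟨c, rfl⟩ := hdm
      rw [Nat.mul_div_cancel_left c (Nat.pos_of_ne_zero hd)]
      push_cast
      rw [qExpand_coeff_mul, HahnSeries.ofPowerSeries_apply_coeff]
    · refine qExpand_coeff_of_not_dvd d _ ?_
      intro h
      exact hdm (Int.natCast_dvd_natCast.mp h)

/-- formal identity `j · Δ = E₄³` (pure power-series algebra from the Prelude definitions). -/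
theorem jq_mul_Dq : jqModC ℚ * Dq ℚ = E4q ℚ ^ 3 := by
  have h1 : jNum * DqZ = PowerSeries.X * eisenstein4 ^ 3 := by
    rw [jNum, DqZ]
    calc eisenstein4 ^ 3 * dedekindEtaUnitInv * (PowerSeries.X * dedekindEtaUnit)
        = PowerSeries.X * eisenstein4 ^ 3 * (dedekindEtaUnit * dedekindEtaUnitInv) := by ring
      _ = PowerSeries.X * eisenstein4 ^ 3 := by rw [dedekindEtaUnit_mul_inv, mul_one]
  have h2 := congrArg (PowerSeries.map (Int.castRingHom ℚ)) h1
  rw [map_mul, map_mul, map_pow, PowerSeries.map_X] at h2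
  have h3 := congrArg (HahnSeries.ofPowerSeries ℤ ℚ) h2
  rw [map_mul, map_mul, map_pow, HahnSeries.ofPowerSeries_X] at h3
  rw [jqModC, Dq, E4q, mul_assoc, h3, ← mul_assoc, HahnSeries.single_mul_single]
  norm_num

/-! ### Analytic part -/

theorem forms_one_mem_strictPeriods (M : ℕ) :
    (1 : ℝ) ∈ (CongruenceSubgroup.Gamma0 M : Subgroup (GL (Fin 2) ℝ)).strictPeriods :=
  CongruenceSubgroup.one_mem_strictPeriods_Gamma0 M

theorem qForms_zero (M : ℕ) (k : ℤ) : (0 : LaurentSeries ℚ) ∈ qForms M k := by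
  refine ⟨0, 0, by simp, ?_⟩
  rw [FunLike.coe_zero, UpperHalfPlane.qExpansion_zero]
  simp

theorem qForms_add {M : ℕ} [NeZero M] {k : ℤ} {g g' : LaurentSeries ℚ}
    (hg : g ∈ qForms M k) (hg' : g' ∈ qForms M k) : g + g' ∈ qForms M k := by
  obtain ⟨G, g0, rfl, h⟩ := hg
  obtain ⟨G', g0', rfl, h'⟩ := hg'
  refine ⟨G + G', g0 + g0', by rw [map_add], ?_⟩
  rw [FunLike.coe_add, ModularForm.qExpansion_add one_pos (forms_one_mem_strictPeriods M) G G',
    h, h', map_add]

theorem qForms_const_mul {M : ℕ} [NeZero M] {k : ℤ} (c : ℚ) {g : LaurentSeries ℚ}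
    (hg : g ∈ qForms M k) : HahnSeries.C c * g ∈ qForms M k := by
  obtain ⟨G, g0, rfl, h⟩ := hg
  refine ⟨(c : ℂ) • G, PowerSeries.C c * g0, by rw [map_mul, HahnSeries.ofPowerSeries_C], ?_⟩
  rw [FunLike.coe_smul, ModularForm.qExpansion_smul one_pos (forms_one_mem_strictPeriods M)
    (c : ℂ) G, h, map_mul, PowerSeries.map_C, PowerSeries.smul_eq_C_mul]
  rfl

theorem qForms_mul {M : ℕ} [NeZero M] {k k' : ℤ} {g g' : LaurentSeries ℚ}
    (hg : g ∈ qForms M k) (hg' : g' ∈ qForms M k') : g * g' ∈ qForms M (k + k') := by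
  obtain ⟨G, g0, rfl, h⟩ := hg
  obtain ⟨G', g0', rfl, h'⟩ := hg'
  refine ⟨G.mul G', g0 * g0', by rw [map_mul], ?_⟩
  rw [ModularForm.qExpansion_mul one_pos (forms_one_mem_strictPeriods M) G G', h, h', map_mul]

theorem qForms_one (M : ℕ) [NeZero M] : (1 : LaurentSeries ℚ) ∈ qForms M 0 := by
  refine ⟨1, 1, by rw [map_one], ?_⟩
  rw [ModularForm.qExpansion_one, map_one]

/-- Sturm bound (Prelude `ModularForm.sturm_bound_Gamma0`) in terms of `qForms`. -/
theorem qForms_sturm {M : ℕ} [NeZero M] {k : ℤ} {g : LaurentSeries ℚ} (hg : g ∈ qForms M k)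
    (h : ∀ n : ℕ, n ≤ (k * (CongruenceSubgroup.Gamma0 M).index).toNat / 12 → g.coeff (n : ℤ) = 0) :
    g = 0 := by
  obtain ⟨G, g0, rfl, hG⟩ := hg
  have hG0 : G = 0 := by
    refine ModularForm.sturm_bound_Gamma0 M G fun n hn => ?_
    have hn' := h n hn
    rw [HahnSeries.ofPowerSeries_apply_coeff] at hn'
    rw [hG, PowerSeries.coeff_map, hn', map_zero]
  have h0 : g0.map (algebraMap ℚ ℂ) = 0 := by
    rw [← hG, hG0, FunLike.coe_zero, UpperHalfPlane.qExpansion_zero]
  have h1 : g0 = 0 := by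
    ext n
    have := congrArg (PowerSeries.coeff n) h0
    rw [PowerSeries.coeff_map, map_zero] at this
    rw [map_zero]
    exact (algebraMap ℚ ℂ).injective (by rw [this, map_zero])
  rw [h1, map_zero]

/-! ### `F(dτ)` on `Gamma0 M` -/

open ConjAct Pointwise in
theorem forms_Gamma0_le_conj {M d : ℕ} [NeZero M] (hd : d ∣ M) :
    (CongruenceSubgroup.Gamma0 M : Subgroup (GL (Fin 2) ℝ))
      ≤ toConjAct (ModularForm.heckeDiagMatrix d)⁻¹ • 𝒮ℒ := by
  have hd0 : d ≠ 0 := fun h => NeZero.ne M (by rw [h] at hd; exact Nat.eq_zero_of_zero_dvd hd)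
  have : NeZero d := ⟨hd0⟩
  refine le_trans ?_ (Fermat.Agent.S23.Gamma0_le_conj d)
  refine Subgroup.map_mono ?_
  intro γ hγ
  rw [CongruenceSubgroup.Gamma0_mem] at hγ ⊢
  rw [ZMod.intCast_zmod_eq_zero_iff_dvd] at hγ ⊢
  exact (Int.natCast_dvd_natCast.mpr hd).trans hγ

section Vd

variable {F : Type*} [FunLike F ℍ ℂ] {k : ℤ} [ModularFormClass F 𝒮ℒ k]

/-- `f ∣[k] diag(d, 1)` as a modular form on `Gamma0 M`, for `d ∣ M`. -/
def formsSlash {M d : ℕ} [NeZero M] (hd : d ∣ M) (f : F) :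
    ModularForm (CongruenceSubgroup.Gamma0 M) k :=
  { toFun := ⇑f ∣[k] ModularForm.heckeDiagMatrix d
    holo' := (ModularForm.translate f (ModularForm.heckeDiagMatrix d)).holo'
    bdd_at_cusps' := fun hc => (ModularForm.translate f
      (ModularForm.heckeDiagMatrix d)).bdd_at_cusps' (hc.mono (forms_Gamma0_le_conj hd))
    slash_action_eq' := fun γ hγ => (ModularForm.translate f
      (ModularForm.heckeDiagMatrix d)).slash_action_eq' γ (forms_Gamma0_le_conj hd hγ) }

/-- `τ ↦ f (d τ)` as a modular form on `Gamma0 M`, for `d ∣ M`. -/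
def formsVd {M d : ℕ} [NeZero M] (hd : d ∣ M) (f : F) :
    ModularForm (CongruenceSubgroup.Gamma0 M) k :=
  ((d : ℂ) ^ (k - 1))⁻¹ • formsSlash hd f

theorem coe_formsVd {M d : ℕ} [NeZero M] (hd : d ∣ M) (f : F) :
    (⇑(formsVd (k := k) hd f) : ℍ → ℂ) = Fermat.Agent.Lib.JDict.vd d ⇑f := by
  have hd0 : d ≠ 0 := fun h => NeZero.ne M (by rw [h] at hd; exact Nat.eq_zero_of_zero_dvd hd)
  funext τ
  have h : (⇑f ∣[k] ModularForm.heckeDiagMatrix d) τ
      = (d : ℂ) ^ (k - 1) * f (ModularForm.heckeDiagMatrix d • τ) :=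
    ModularForm.slash_heckeDiagMatrix_apply k hd0 (⇑f) τ
  have hne : ((d : ℂ) ^ (k - 1)) ≠ 0 := zpow_ne_zero _ (by exact_mod_cast hd0)
  show ((d : ℂ) ^ (k - 1))⁻¹ • (⇑f ∣[k] ModularForm.heckeDiagMatrix d) τ = _
  rw [h, Fermat.Agent.Lib.JDict.vd, smul_eq_mul, inv_mul_cancel_left₀ hne]

theorem forms_vd_mem {M d : ℕ} [NeZero M] (hd : d ∣ M) (f : F) (f0 : PowerSeries ℚ)
    (hf : qExpansion 1 f = f0.map (algebraMap ℚ ℂ)) :
    V ℚ d (HahnSeries.ofPowerSeries ℤ ℚ f0) ∈ qForms M k := by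
  have hd0 : d ≠ 0 := fun h => NeZero.ne M (by rw [h] at hd; exact Nat.eq_zero_of_zero_dvd hd)
  refine ⟨formsVd hd f, formsVPS d f0, forms_V_ofPowerSeries hd0 f0, ?_⟩
  rw [coe_formsVd]
  ext n
  have hper : Function.Periodic (⇑f ∘ ofComplex) 1 :=
    SlashInvariantFormClass.periodic_comp_ofComplex f (h := 1) (by simp)
  rw [Fermat.Agent.Lib.JDict.qExpansion_vd_coeff hd0 hper (ModularFormClass.holo f)
    (ModularFormClass.bdd_at_infty f), hf, PowerSeries.coeff_map, PowerSeries.coeff_map, formsVPS,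
    PowerSeries.coeff_mk]
  split_ifs <;> simp

end Vd

/-- `E₄(dτ)` is a modular form of weight 4 on `Gamma0 M` for `d ∣ M`, with the expected q-expansion. -/
theorem E4_mem_qForms {M d : ℕ} [NeZero M] (hd : d ∣ M) : V ℚ d (E4q ℚ) ∈ qForms M 4 := by
  refine forms_vd_mem hd ModularForm.E₄ _ ?_
  rw [Fermat.Agent.Lib.JDict.qExpansion_E4]
  ext n
  simp

/-- `Δ(dτ)` is a modular form of weight 12 on `Gamma0 M` for `d ∣ M`, with the expected q-expansion. -/
theorem Delta_mem_qForms {M d : ℕ} [NeZero M] (hd : d ∣ M) : Dd ℚ d ∈ qForms M 12 := by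
  refine forms_vd_mem hd CuspForm.discriminant _ ?_
  rw [CuspForm.coe_discriminant, Fermat.Agent.Lib.JDict.qExpansion_discriminant,
    show (PowerSeries.X * dedekindEtaUnit : PowerSeries ℤ) = DqZ from rfl]
  ext n
  simp

end Fermat.Agent.S28
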