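import Mathlib
import Fermat.Agent.S28.Defs
import Fermat.Agent.S28.Forms

/-!
S28, work package W4: every element of `Ft M` satisfies a nonzero polynomial of degree at most
`index (Gamma0 M)` over `ℚ(j(q^d0))`.

Route: `Ft M` is contained in the field of ratios `g / h` of two `qForms` of the same weight;
for such a ratio a dimension count against the Sturm bound produces the polynomial.
-/

set_option autoImplicit false

open ModularCurve UpperHalfPlane
open scoped MatrixGroups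

noncomputable section

namespace Fermat.Agent.S28

/-! ### Small closure lemmas for `qForms` -/

theorem sd_qForms_congr {M : ℕ} {k k' : ℤ} (h : k = k') {g : LaurentSeries ℚ}
    (hg : g ∈ qForms M k) : g ∈ qForms M k' := h ▸ hg

theorem sd_qForms_pow {M : ℕ} [NeZero M] {k : ℤ} {g : LaurentSeries ℚ} (hg : g ∈ qForms M k)
    (n : ℕ) : g ^ n ∈ qForms M (n * k) := by
  induction n with
  | zero => simpa using qForms_one M
  | succ n ih =>
    rw [pow_succ]
    exact sd_qForms_congr (by push_cast; ring) (qForms_mul ih hg)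

theorem sd_qForms_sum {M : ℕ} [NeZero M] {k : ℤ} {ι : Type*} (s : Finset ι)
    (g : ι → LaurentSeries ℚ) (hg : ∀ i ∈ s, g i ∈ qForms M k) : ∑ i ∈ s, g i ∈ qForms M k := by
  classical
  induction s using Finset.induction_on with
  | empty => simpa using qForms_zero M k
  | insert a s ha ih =>
    rw [Finset.sum_insert ha]
    exact qForms_add (hg _ (Finset.mem_insert_self _ _))
      (ih fun i hi => hg i (Finset.mem_insert_of_mem hi))

/-! ### Basic facts on `Δ` and `j` as Laurent series -/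

theorem sd_Dq_ne_zero : Dq ℚ ≠ 0 := by
  intro h
  have h1 : (Dq ℚ).coeff ((1 : ℕ) : ℤ) = 1 := by
    rw [Dq, HahnSeries.ofPowerSeries_apply_coeff, PowerSeries.coeff_map, DqZ,
      show (1 : ℕ) = 0 + 1 from rfl, PowerSeries.coeff_succ_X_mul,
      PowerSeries.coeff_zero_eq_constantCoeff_apply, constantCoeff_dedekindEtaUnit]
    simp
  rw [h] at h1
  simp at h1

theorem sd_Dd_ne_zero {d : ℕ} (hd : d ≠ 0) : Dd ℚ d ≠ 0 := by
  intro h
  apply sd_Dq_ne_zero
  apply V_injective ℚ hd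
  rw [map_zero]
  exact h

theorem sd_jd_mul_Dd (d : ℕ) : jd ℚ d * Dd ℚ d = V ℚ d (E4q ℚ) ^ 3 := by
  rw [jd, Dd, ← map_mul, jq_mul_Dq, map_pow]

theorem sd_algebraMap_eq_C (c : ℚ) : algebraMap ℚ (LaurentSeries ℚ) c = HahnSeries.C c := by
  rw [algebraMap_apply_eq_single]
  rfl

theorem sd_coeff_C_mul (c : ℚ) (x : LaurentSeries ℚ) (n : ℤ) :
    (HahnSeries.C c * x).coeff n = c * x.coeff n := by
  rw [HahnSeries.C_mul_eq_smul, HahnSeries.coeff_smul, smul_eq_mul]

theorem sd_coeff_algebraMap_mul (c : ℚ) (x : LaurentSeries ℚ) (n : ℤ) :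
    ((algebraMap ℚ (LaurentSeries ℚ) c) * x).coeff n = c * x.coeff n := by
  rw [sd_algebraMap_eq_C, sd_coeff_C_mul]

/-- `j` is transcendental over `ℚ` (leading coefficient of `P(j)`). -/
theorem sd_aeval_jq_ne_zero (P : Polynomial ℚ) (hP : P ≠ 0) :
    Polynomial.aeval (jqModC ℚ) P ≠ 0 := by
  intro h
  have hc : (Polynomial.aeval (jqModC ℚ) P).coeff (-(P.natDegree : ℤ)) = P.leadingCoeff := by
    rw [Polynomial.aeval_eq_sum_range, ← HahnSeries.coeff.addMonoidHom_apply, map_sum,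
      Finset.sum_eq_single P.natDegree]
    · rw [HahnSeries.coeff.addMonoidHom_apply, Algebra.smul_def, sd_coeff_algebraMap_mul,
        coeff_jqModC_pow_self, mul_one, Polynomial.coeff_natDegree]
    · intro b hb hbn
      rw [HahnSeries.coeff.addMonoidHom_apply, Algebra.smul_def, sd_coeff_algebraMap_mul,
        coeff_jqModC_pow_of_lt, mul_zero]
      have : b < P.natDegree := lt_of_le_of_ne (Nat.lt_succ_iff.mp (Finset.mem_range.mp hb)) hbn
      omega
    · intro hn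
      exact absurd (Finset.mem_range.mpr (Nat.lt_succ_self _)) hn
  rw [h] at hc
  simp only [HahnSeries.coeff_zero] at hc
  exact hP (Polynomial.leadingCoeff_eq_zero.mp hc.symm)

theorem sd_aeval_jd_ne_zero {d : ℕ} (hd : d ≠ 0) (P : Polynomial ℚ) (hP : P ≠ 0) :
    Polynomial.aeval (jd ℚ d) P ≠ 0 := by
  have : NeZero d := ⟨hd⟩
  have h1 : jd ℚ d = qExpandₐ d (jqModC ℚ) := by
    rw [jd, V_eq_qExpand, qExpandₐ_apply]
  rw [h1, Polynomial.aeval_algHom_apply, qExpandₐ_apply]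
  intro h
  apply sd_aeval_jq_ne_zero P hP
  apply qExpand_injective (R := ℚ) d
  rw [h, map_zero]

theorem sd_aeval_mem_Qj (d : ℕ) (P : Polynomial ℚ) : Polynomial.aeval (jd ℚ d) P ∈ Qj d := by
  rw [Polynomial.aeval_eq_sum_range]
  refine Subfield.sum_mem _ fun i _ => ?_
  rw [Algebra.smul_def]
  have h1 : algebraMap ℚ (LaurentSeries ℚ) (P.coeff i) ∈ Qj d := by
    rw [eq_ratCast]
    exact SubfieldClass.ratCast_mem _ _
  have h2 : jd ℚ d ∈ Qj d := Subfield.subset_closure rfl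
  exact mul_mem h1 (pow_mem h2 i)

/-! ### The field of ratios of two forms of the same weight -/

/-- `x = g / h` with `g, h` q-expansions of forms on `Gamma0 M` of the same weight. -/
def sdRatio (M : ℕ) : Set (LaurentSeries ℚ) :=
  {x | ∃ (w : ℕ) (g h : LaurentSeries ℚ), g ∈ qForms M (w : ℤ) ∧ h ∈ qForms M (w : ℤ) ∧ h ≠ 0 ∧
    x * h = g}

theorem sd_ratio_zero (M : ℕ) [NeZero M] : (0 : LaurentSeries ℚ) ∈ sdRatio M :=
  ⟨0, 0, 1, qForms_zero M _, by simpa using qForms_one M, one_ne_zero, by simp⟩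

theorem sd_ratio_one (M : ℕ) [NeZero M] : (1 : LaurentSeries ℚ) ∈ sdRatio M :=
  ⟨0, 1, 1, by simpa using qForms_one M, by simpa using qForms_one M, one_ne_zero, by simp⟩

theorem sd_ratio_algebraMap (M : ℕ) [NeZero M] (c : ℚ) :
    algebraMap ℚ (LaurentSeries ℚ) c ∈ sdRatio M := by
  refine ⟨0, HahnSeries.C c * 1, 1, ?_, by simpa using qForms_one M, one_ne_zero, ?_⟩
  · simpa using qForms_const_mul c (qForms_one M)
  · rw [sd_algebraMap_eq_C]

theorem sd_ratio_add {M : ℕ} [NeZero M] {x y : LaurentSeries ℚ} (hx : x ∈ sdRatio M)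
    (hy : y ∈ sdRatio M) : x + y ∈ sdRatio M := by
  obtain ⟨w, g, h, hg, hh, hh0, hxh⟩ := hx
  obtain ⟨w', g', h', hg', hh', hh0', hyh⟩ := hy
  refine ⟨w + w', g * h' + g' * h, h * h', ?_, ?_, mul_ne_zero hh0 hh0', ?_⟩
  · exact qForms_add (sd_qForms_congr (by push_cast; ring) (qForms_mul hg hh'))
      (sd_qForms_congr (by push_cast; ring) (qForms_mul hg' hh))
  · exact sd_qForms_congr (by push_cast; ring) (qForms_mul hh hh')
  · rw [← hxh, ← hyh]; ring

theorem sd_ratio_mul {M : ℕ} [NeZero M] {x y : LaurentSeries ℚ} (hx : x ∈ sdRatio M)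
    (hy : y ∈ sdRatio M) : x * y ∈ sdRatio M := by
  obtain ⟨w, g, h, hg, hh, hh0, hxh⟩ := hx
  obtain ⟨w', g', h', hg', hh', hh0', hyh⟩ := hy
  refine ⟨w + w', g * g', h * h', ?_, ?_, mul_ne_zero hh0 hh0', ?_⟩
  · exact sd_qForms_congr (by push_cast; ring) (qForms_mul hg hg')
  · exact sd_qForms_congr (by push_cast; ring) (qForms_mul hh hh')
  · rw [← hxh, ← hyh]; ring

theorem sd_ratio_inv {M : ℕ} [NeZero M] {x : LaurentSeries ℚ} (hx : x ∈ sdRatio M) :
    x⁻¹ ∈ sdRatio M := by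
  obtain ⟨w, g, h, hg, hh, hh0, hxh⟩ := hx
  by_cases hx0 : x = 0
  · rw [hx0, inv_zero]
    exact sd_ratio_zero M
  · refine ⟨w, h, g, hh, hg, ?_, ?_⟩
    · rw [← hxh]
      exact mul_ne_zero hx0 hh0
    · rw [← hxh, ← mul_assoc, inv_mul_cancel₀ hx0, one_mul]

/-- The field of ratios of forms of equal weight on `Gamma0 M`. -/
def sdField (M : ℕ) [NeZero M] : IntermediateField ℚ (LaurentSeries ℚ) where
  carrier := sdRatio M
  mul_mem' := sd_ratio_mul
  one_mem' := sd_ratio_one M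
  add_mem' := sd_ratio_add
  zero_mem' := sd_ratio_zero M
  algebraMap_mem' := sd_ratio_algebraMap M
  inv_mem' := fun _ hx => sd_ratio_inv hx

theorem sd_Ft_le (M : ℕ) [NeZero M] : Ft M ≤ sdField M := by
  rw [Ft, IntermediateField.adjoin_le_iff]
  rintro y (⟨d, hd, rfl⟩ | ⟨d, e, hd, he, rfl⟩)
  · have hd0 : d ≠ 0 := fun h0 => NeZero.ne M (by rw [h0] at hd; exact zero_dvd_iff.mp hd)
    refine ⟨12, V ℚ d (E4q ℚ) ^ 3, Dd ℚ d, ?_, Delta_mem_qForms hd, sd_Dd_ne_zero hd0,
      sd_jd_mul_Dd d⟩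
    exact sd_qForms_congr (by norm_num) (sd_qForms_pow (E4_mem_qForms hd) 3)
  · have he0 : e ≠ 0 := fun h0 => NeZero.ne M (by rw [h0] at he; exact zero_dvd_iff.mp he)
    exact ⟨12, Dd ℚ d, Dd ℚ e, Delta_mem_qForms hd, Delta_mem_qForms he, sd_Dd_ne_zero he0,
      div_mul_cancel₀ _ (sd_Dd_ne_zero he0)⟩

/-! ### The Sturm count -/

theorem sd_exists_poly {M d0 : ℕ} [NeZero M] (hd0 : d0 ∣ M) (w : ℕ) (g h x : LaurentSeries ℚ)
    (hg : g ∈ qForms M (w : ℤ)) (hh : h ∈ qForms M (w : ℤ)) (hh0 : h ≠ 0) (hx : x * h = g) :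
    ∃ f : Polynomial (LaurentSeries ℚ), f ≠ 0 ∧ (∀ i, f.coeff i ∈ Qj d0) ∧
      f.natDegree ≤ (CongruenceSubgroup.Gamma0 M).index ∧ f.eval x = 0 := by
  classical
  have hd0' : d0 ≠ 0 := fun h0 => NeZero.ne M (by rw [h0] at hd0; exact zero_dvd_iff.mp hd0)
  set μ := (CongruenceSubgroup.Gamma0 M).index with hμdef
  have hμ : 0 < μ := Nat.pos_of_ne_zero Subgroup.FiniteIndex.index_ne_zero
  set D : ℕ := w * μ ^ 2 with hD
  set E : LaurentSeries ℚ := V ℚ d0 (E4q ℚ) with hE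
  set Δ : LaurentSeries ℚ := Dd ℚ d0 with hΔ
  set J : LaurentSeries ℚ := jd ℚ d0 with hJ
  have hJΔ : J * Δ = E ^ 3 := sd_jd_mul_Dd d0
  have hΔ0 : Δ ≠ 0 := sd_Dd_ne_zero hd0'
  have hEq : E ∈ qForms M 4 := E4_mem_qForms hd0
  have hΔq : Δ ∈ qForms M 12 := Delta_mem_qForms hd0
  -- the spanning family of forms of weight `12 D + w μ`
  let T : Fin (μ + 1) × Fin (D + 1) → LaurentSeries ℚ := fun p =>
    E ^ (3 * (p.2 : ℕ)) * Δ ^ (D - (p.2 : ℕ)) * (g ^ (p.1 : ℕ) * h ^ (μ - (p.1 : ℕ)))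
  set K : ℤ := ((12 * D + w * μ : ℕ) : ℤ) with hK
  have hT : ∀ p, T p ∈ qForms M K := by
    intro p
    have hs : (p.2 : ℕ) ≤ D := Nat.lt_succ_iff.mp p.2.2
    have hi : (p.1 : ℕ) ≤ μ := Nat.lt_succ_iff.mp p.1.2
    have h1 := sd_qForms_pow hEq (3 * (p.2 : ℕ))
    have h2 := sd_qForms_pow hΔq (D - (p.2 : ℕ))
    have h3 := sd_qForms_pow hg (p.1 : ℕ)
    have h4 := sd_qForms_pow hh (μ - (p.1 : ℕ))
    refine sd_qForms_congr ?_ (qForms_mul (qForms_mul h1 h2) (qForms_mul h3 h4))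
    rw [hK]
    push_cast [Nat.cast_sub hs, Nat.cast_sub hi]
    ring
  -- the Sturm bound and the dimension count
  set B : ℕ := (K * (μ : ℤ)).toNat / 12 with hB
  have hBlt : B + 1 < (μ + 1) * (D + 1) := by
    have h1 : (K * (μ : ℤ)).toNat = (12 * D + w * μ) * μ := by
      rw [hK, ← Nat.cast_mul, Int.toNat_natCast]
    have h2 : B ≤ D * μ + D := by
      rw [hB, h1]
      apply Nat.div_le_of_le_mul
      have h3 : (12 * D + w * μ) * μ = 12 * (D * μ) + D := by rw [hD]; ring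
      rw [h3]
      omega
    have h4 : (μ + 1) * (D + 1) = D * μ + D + μ + 1 := by ring
    omega
  let A : Matrix (Fin (B + 1)) (Fin (μ + 1) × Fin (D + 1)) ℚ :=
    Matrix.of fun n p => (T p).coeff ((n : ℕ) : ℤ)
  have hker : LinearMap.ker A.mulVecLin ≠ ⊥ := by
    apply LinearMap.ker_ne_bot_of_finrank_lt
    rw [Module.finrank_fintype_fun_eq_card, Module.finrank_fintype_fun_eq_card, Fintype.card_prod,
      Fintype.card_fin, Fintype.card_fin, Fintype.card_fin]
    exact hBlt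
  obtain ⟨c, hc, hc0⟩ := (Submodule.ne_bot_iff _).mp hker
  rw [LinearMap.mem_ker, Matrix.mulVecLin_apply] at hc
  set H : LaurentSeries ℚ := ∑ p, HahnSeries.C (c p) * T p with hH
  have hHq : H ∈ qForms M K := sd_qForms_sum _ _ fun p _ => qForms_const_mul (c p) (hT p)
  have hH0 : H = 0 := by
    apply qForms_sturm hHq
    intro n hn
    have hn' : n < B + 1 := Nat.lt_succ_of_le hn
    have hcn := congrFun hc ⟨n, hn'⟩
    rw [hH, ← HahnSeries.coeff.addMonoidHom_apply, map_sum]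
    simp only [HahnSeries.coeff.addMonoidHom_apply, sd_coeff_C_mul]
    simpa [Matrix.mulVec, dotProduct, A, mul_comm] using hcn
  -- the polynomial
  let P : Fin (μ + 1) → Polynomial ℚ := fun i =>
    ∑ s : Fin (D + 1), Polynomial.monomial (s : ℕ) (c (i, s))
  let f : Polynomial (LaurentSeries ℚ) :=
    ∑ i : Fin (μ + 1), Polynomial.monomial (i : ℕ) (Polynomial.aeval J (P i))
  have hcoeff : ∀ n, f.coeff n =
      ∑ i : Fin (μ + 1), if (i : ℕ) = n then Polynomial.aeval J (P i) else 0 := by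
    intro n
    simp only [f, Polynomial.finsetSum_coeff, Polynomial.coeff_monomial]
  refine ⟨f, ?_, ?_, ?_, ?_⟩
  · obtain ⟨⟨i0, s0⟩, hne⟩ := Function.ne_iff.mp hc0
    have hP : P i0 ≠ 0 := by
      intro hP0
      have h1 : (P i0).coeff (s0 : ℕ) = c (i0, s0) := by
        simp only [P, Polynomial.finsetSum_coeff, Polynomial.coeff_monomial]
        rw [Finset.sum_eq_single s0]
        · simp
        · intro b _ hb
          rw [if_neg]
          exact fun h => hb (Fin.ext h)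
        · intro h
          exact absurd (Finset.mem_univ _) h
      rw [hP0, Polynomial.coeff_zero] at h1
      exact hne (by simpa using h1.symm)
    intro hf
    have h1 : f.coeff (i0 : ℕ) = Polynomial.aeval J (P i0) := by
      rw [hcoeff, Finset.sum_eq_single i0]
      · simp
      · intro b _ hb
        rw [if_neg]
        exact fun h => hb (Fin.ext h)
      · intro h
        exact absurd (Finset.mem_univ _) h
    rw [hf, Polynomial.coeff_zero] at h1
    exact sd_aeval_jd_ne_zero hd0' (P i0) hP h1.symm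
  · intro n
    rw [hcoeff]
    refine Subfield.sum_mem _ fun i _ => ?_
    split_ifs
    · exact sd_aeval_mem_Qj d0 (P i)
    · exact Subfield.zero_mem _
  · refine Polynomial.natDegree_sum_le_of_forall_le _ _ fun i _ => ?_
    exact (Polynomial.natDegree_monomial_le _).trans (Nat.lt_succ_iff.mp i.2)
  · have hmain : Δ ^ D * h ^ μ * f.eval x = H := by
      simp only [f, Polynomial.eval_finsetSum, Polynomial.eval_monomial, P, map_sum,
        Polynomial.aeval_monomial, Finset.mul_sum]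
      rw [hH, Fintype.sum_prod_type]
      refine Finset.sum_congr rfl fun i _ => Finset.sum_congr rfl fun s _ => ?_
      have hs : (s : ℕ) ≤ D := Nat.lt_succ_iff.mp s.2
      have hi : (i : ℕ) ≤ μ := Nat.lt_succ_iff.mp i.2
      have e1 : J ^ (s : ℕ) * Δ ^ D = E ^ (3 * (s : ℕ)) * Δ ^ (D - (s : ℕ)) := by
        rw [pow_mul E 3 (s : ℕ), ← hJΔ, mul_pow, mul_assoc, ← pow_add, Nat.add_sub_cancel' hs]
      have e2 : x ^ (i : ℕ) * h ^ μ = g ^ (i : ℕ) * h ^ (μ - (i : ℕ)) := by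
        rw [← hx, mul_pow, mul_assoc, ← pow_add, Nat.add_sub_cancel' hi]
      rw [sd_algebraMap_eq_C]
      calc Δ ^ D * h ^ μ * (HahnSeries.C (c (i, s)) * J ^ (s : ℕ) * x ^ (i : ℕ))
          = HahnSeries.C (c (i, s)) * ((J ^ (s : ℕ) * Δ ^ D) * (x ^ (i : ℕ) * h ^ μ)) := by ring
        _ = HahnSeries.C (c (i, s)) * T (i, s) := by rw [e1, e2]
    have hne : Δ ^ D * h ^ μ ≠ 0 := mul_ne_zero (pow_ne_zero _ hΔ0) (pow_ne_zero _ hh0)
    rw [hH0] at hmain
    exact (mul_eq_zero.mp hmain).resolve_left hne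

/-- **W4.** Every element of `Ft M` satisfies a nonzero polynomial of degree at most
`index (Gamma0 M)` with coefficients in `ℚ(j(q^d0))`. -/
theorem exists_poly_of_mem_Ft (M d0 : ℕ) (hM : 0 < M) (hd0 : d0 ∣ M) (x : LaurentSeries ℚ)
    (hx : x ∈ Ft M) :
    ∃ f : Polynomial (LaurentSeries ℚ), f ≠ 0 ∧ (∀ i, f.coeff i ∈ Qj d0) ∧
      f.natDegree ≤ (CongruenceSubgroup.Gamma0 M).index ∧ f.eval x = 0 := by
  have : NeZero M := ⟨hM.ne'⟩
  obtain ⟨w, g, h, hg, hh, hh0, hxh⟩ := sd_Ft_le M hx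
  exact sd_exists_poly hd0 w g h x hg hh hh0 hxh

end Fermat.Agent.S28
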