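/-
S28 package W6c: a level-one modular form of weight `12 m` with integral `q`-expansion is an
integer polynomial of degree `≤ m` in `j`, times `Δ^m`.
-/
import Mathlib
import Fermat.Agent.S28.Defs
import Fermat.Agent.Lib.JDict

set_option autoImplicit false

open ModularCurve UpperHalfPlane ModularForm EisensteinSeries
open scoped MatrixGroups

noncomputable section

namespace Fermat.Agent.S28

/-- Formal identity `j · Δ = E₄³` over any commutative ring. -/
theorem levelOneInt_jq_mul_Dq (R : Type*) [CommRing R] : jqModC R * Dq R = E4q R ^ 3 := by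
  have h1 : (jNum * DqZ : PowerSeries ℤ) = PowerSeries.X * eisenstein4 ^ 3 := by
    rw [jNum, DqZ]
    linear_combination (PowerSeries.X * eisenstein4 ^ 3) *
      ((mul_comm _ _).trans dedekindEtaUnit_mul_inv)
  calc jqModC R * Dq R
      = HahnSeries.single (-1 : ℤ) (1 : R) *
          HahnSeries.ofPowerSeries ℤ R ((jNum * DqZ).map (Int.castRingHom R)) := by
        rw [jqModC, Dq, map_mul, map_mul, mul_assoc]
    _ = HahnSeries.single (-1 : ℤ) (1 : R) * (HahnSeries.single (1 : ℤ) (1 : R) * E4q R ^ 3) := by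
        rw [h1, map_mul, map_mul, map_pow, map_pow, PowerSeries.map_X,
          HahnSeries.ofPowerSeries_X, E4q]
    _ = E4q R ^ 3 := by
        rw [← mul_assoc, HahnSeries.single_mul_single]
        simp

theorem levelOneInt_toC_injective :
    Function.Injective (PowerSeries.map (Int.castRingHom ℂ)) := by
  intro a b h
  ext n
  have h1 := congrArg (PowerSeries.coeff n) h
  simpa using h1

/-- The triangular decomposition, as an identity of integral power series. -/
theorem levelOneInt_aux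
    (hE4 : qExpansion 1 E₄ = PowerSeries.map (Int.castRingHom ℂ) eisenstein4)
    (hΔ : qExpansion 1 ModularForm.discriminant = PowerSeries.map (Int.castRingHom ℂ) DqZ) :
    ∀ (m : ℕ) (k : ℤ), k = 12 * (m : ℤ) → ∀ (f : ModularForm 𝒮ℒ k) (F : PowerSeries ℤ),
      qExpansion 1 f = PowerSeries.map (Int.castRingHom ℂ) F →
      ∃ c : ℕ → ℤ,
        F = ∑ a ∈ Finset.range (m + 1), c a • (eisenstein4 ^ (3 * a) * DqZ ^ (m - a)) := by
  intro m
  induction m with
  | zero =>
    intro k hk f F hF
    simp only [Nat.cast_zero, mul_zero] at hk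
    subst hk
    obtain ⟨c₀, hc₀⟩ : ∃ c₀ : ℤ, c₀ = PowerSeries.coeff 0 F := ⟨_, rfl⟩
    refine ⟨fun _ => c₀, ?_⟩
    have hg : f - (c₀ : ℂ) • (1 : ModularForm 𝒮ℒ 0) = 0 := by
      apply sturm_bound_levelOne
      have hq : qExpansion 1 ⇑(f - (c₀ : ℂ) • (1 : ModularForm 𝒮ℒ 0)) =
          PowerSeries.map (Int.castRingHom ℂ) F - (c₀ : ℂ) • 1 := by
        rw [FunLike.coe_sub, ModularForm.qExpansion_sub one_pos one_mem_strictPeriods_SL,
          FunLike.coe_smul, ModularForm.qExpansion_smul one_pos one_mem_strictPeriods_SL,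
          ModularForm.qExpansion_one, hF]
      rw [hq]
      refine lt_of_lt_of_le ?_ (PowerSeries.nat_le_order _ 1 ?_)
      · norm_num
      · intro i hi
        obtain rfl : i = 0 := by omega
        rw [map_sub, PowerSeries.coeff_map, PowerSeries.coeff_smul, PowerSeries.coeff_one, ← hc₀]
        simp
    have hf : qExpansion 1 f = (c₀ : ℂ) • 1 := by
      have h1 : f = (c₀ : ℂ) • (1 : ModularForm 𝒮ℒ 0) := sub_eq_zero.mp hg
      rw [h1, FunLike.coe_smul, ModularForm.qExpansion_smul one_pos one_mem_strictPeriods_SL,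
        ModularForm.qExpansion_one]
    apply levelOneInt_toC_injective
    rw [← hF, hf, Finset.sum_range_one, mul_zero, pow_zero, Nat.sub_zero, pow_zero, mul_one,
      map_zsmul, map_one]
    exact Int.cast_smul_eq_zsmul ℂ c₀ _
  | succ m ih =>
    intro k hk f F hF
    obtain ⟨c₀, hc₀⟩ : ∃ c₀ : ℤ, c₀ = PowerSeries.coeff 0 F := ⟨_, rfl⟩
    have hw : ((3 * (m + 1) : ℕ) : ℤ) * 4 = k := by rw [hk]; push_cast; ring
    -- subtract the constant term
    have hE : qExpansion 1 ⇑(ModularForm.mcast hw (E₄.pow (3 * (m + 1))) : ModularForm 𝒮ℒ k) =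
        PowerSeries.map (Int.castRingHom ℂ) (eisenstein4 ^ (3 * (m + 1))) := by
      rw [ModularForm.qExpansion_mcast, ModularForm.qExpansion_pow one_pos one_mem_strictPeriods_SL,
        hE4, map_pow]
    obtain ⟨F₁, hF₁⟩ : ∃ F₁ : PowerSeries ℤ, F₁ = F - c₀ • eisenstein4 ^ (3 * (m + 1)) := ⟨_, rfl⟩
    obtain ⟨g, hg⟩ : ∃ g : ModularForm 𝒮ℒ k, g = f - (c₀ : ℂ) •
        (ModularForm.mcast hw (E₄.pow (3 * (m + 1))) : ModularForm 𝒮ℒ k) := ⟨_, rfl⟩
    have hq : qExpansion 1 ⇑g = PowerSeries.map (Int.castRingHom ℂ) F₁ := by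
      rw [hg, FunLike.coe_sub, ModularForm.qExpansion_sub one_pos one_mem_strictPeriods_SL,
        FunLike.coe_smul, ModularForm.qExpansion_smul one_pos one_mem_strictPeriods_SL,
        hE, hF, hF₁, map_sub, map_zsmul]
      congr 1
      exact Int.cast_smul_eq_zsmul ℂ c₀ _
    have hF₁0 : PowerSeries.constantCoeff F₁ = 0 := by
      rw [hF₁, map_sub, map_zsmul, map_pow, constantCoeff_eisenstein4, one_pow,
        ← PowerSeries.coeff_zero_eq_constantCoeff_apply, ← hc₀]
      simp
    have h0 : PowerSeries.coeff 0 (qExpansion 1 ⇑g) = 0 := by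
      rw [hq, PowerSeries.coeff_map, PowerSeries.coeff_zero_eq_constantCoeff_apply, hF₁0, map_zero]
    -- divide by `Δ`
    obtain ⟨H, hH⟩ := PowerSeries.X_dvd_iff.mpr hF₁0
    have hDF : DqZ * (H * dedekindEtaUnitInv) = F₁ := by
      rw [hH, DqZ]
      linear_combination (PowerSeries.X * H) * dedekindEtaUnit_mul_inv
    have hDne : PowerSeries.map (Int.castRingHom ℂ) DqZ ≠ 0 := by
      intro h
      have h1 := discriminant_qExpansion_coeff_one
      rw [hΔ, h] at h1
      simp at h1
    have hg' : qExpansion 1 ⇑(CuspForm.discriminantEquiv (g.toCuspForm h0)) =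
        PowerSeries.map (Int.castRingHom ℂ) (H * dedekindEtaUnitInv) := by
      have h1 := qExpansion_eq_qExpansion_discriminant_mul g h0
      rw [hq, hΔ, ← hDF, map_mul] at h1
      exact (mul_left_cancel₀ hDne h1).symm
    obtain ⟨c', hc'⟩ := ih (k - 12) (by rw [hk]; push_cast; ring) _ _ hg'
    refine ⟨fun a => if a = m + 1 then c₀ else c' a, ?_⟩
    have hFeq : F = DqZ * (H * dedekindEtaUnitInv) + c₀ • eisenstein4 ^ (3 * (m + 1)) := by
      rw [hDF, hF₁]; ring
    rw [Finset.sum_range_succ]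
    dsimp only
    rw [if_pos rfl, Nat.sub_self, pow_zero, mul_one, hFeq]
    congr 1
    rw [hc', Finset.mul_sum]
    refine Finset.sum_congr rfl fun a ha => ?_
    have ham : a < m + 1 := Finset.mem_range.mp ha
    rw [if_neg (by omega), show m + 1 - a = (m - a) + 1 by omega, pow_succ, mul_smul_comm]
    congr 1
    ring

/-- **W6c.** A level-one modular form of weight `12 m` with integral `q`-expansion `F` satisfies
`F = P(j) Δ^m` for an integer polynomial `P` of degree `≤ m` (identity of Laurent series over any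
commutative ring).  The two hypotheses are the `q`-expansions of `E₄` and `Δ` in terms of the
Prelude power series. -/
theorem levelOne_int_eq_poly
    (hE4 : qExpansion 1 E₄ = PowerSeries.map (Int.castRingHom ℂ) eisenstein4)
    (hΔ : qExpansion 1 ModularForm.discriminant = PowerSeries.map (Int.castRingHom ℂ) DqZ)
    (m : ℕ) (f : ModularForm 𝒮ℒ (12 * (m : ℤ))) (F : PowerSeries ℤ)
    (hF : qExpansion 1 f = PowerSeries.map (Int.castRingHom ℂ) F) :
    ∃ P : Polynomial ℤ, P.natDegree ≤ m ∧ ∀ (R : Type) [CommRing R],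
      HahnSeries.ofPowerSeries ℤ R (F.map (Int.castRingHom R)) =
        Polynomial.aeval (jd R 1) P * Dq R ^ m := by
  obtain ⟨c, hc⟩ := levelOneInt_aux hE4 hΔ m _ rfl f F hF
  refine ⟨∑ a ∈ Finset.range (m + 1), c a • Polynomial.X ^ a, ?_, ?_⟩
  · refine Polynomial.natDegree_sum_le_of_forall_le _ _ fun a ha => ?_
    have ham : a < m + 1 := Finset.mem_range.mp ha
    exact (Polynomial.natDegree_smul_le _ _).trans
      ((Polynomial.natDegree_X_pow_le a).trans (by omega))
  · intro R _
    rw [hc, jd_one, map_sum, map_sum, map_sum, Finset.sum_mul]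
    refine Finset.sum_congr rfl fun a ha => ?_
    have ham : a ≤ m := by have := Finset.mem_range.mp ha; omega
    rw [map_zsmul, map_zsmul, map_zsmul, smul_mul_assoc]
    congr 1
    rw [map_mul, map_mul, map_pow, map_pow, map_pow, map_pow, map_pow, Polynomial.aeval_X]
    show E4q R ^ (3 * a) * Dq R ^ (m - a) = jqModC R ^ a * Dq R ^ m
    rw [pow_mul, ← levelOneInt_jq_mul_Dq, mul_pow, mul_assoc, ← pow_add, Nat.add_sub_of_le ham]

/-- **W6c, consumer shape.** A level-one modular form of weight `12 m` whose `q`-expansion has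
integer coefficients is `P(j) Δ^m` for an integer polynomial `P` (of degree `≤ m`). -/
theorem exists_poly_of_int_qExpansion' (m : ℕ) (f : ModularForm 𝒮ℒ ((m : ℤ) * 12))
    (hf : ∀ n, ∃ c : ℤ, (UpperHalfPlane.qExpansion 1 f).coeff n = (c : ℂ)) :
    ∃ P : Polynomial ℤ, P.natDegree ≤ m ∧
      HahnSeries.ofPowerSeries ℤ ℂ (UpperHalfPlane.qExpansion 1 f) =
        Polynomial.aeval (jd ℂ 1) P * Dq ℂ ^ m := by
  have hE4 : qExpansion 1 E₄ = PowerSeries.map (Int.castRingHom ℂ) eisenstein4 :=
    Fermat.Agent.Lib.JDict.qExpansion_E4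
  have hΔ : qExpansion 1 ModularForm.discriminant = PowerSeries.map (Int.castRingHom ℂ) DqZ :=
    Fermat.Agent.Lib.JDict.qExpansion_discriminant
  choose c hc using hf
  have hF : qExpansion 1 f = PowerSeries.map (Int.castRingHom ℂ) (PowerSeries.mk c) := by
    ext n
    rw [hc n, PowerSeries.coeff_map, PowerSeries.coeff_mk]
    rfl
  have hk : (m : ℤ) * 12 = 12 * (m : ℤ) := by ring
  obtain ⟨P, hP, hPeq⟩ := levelOne_int_eq_poly hE4 hΔ m (ModularForm.mcast hk f) (PowerSeries.mk c)
    (by rw [ModularForm.qExpansion_mcast]; exact hF)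
  exact ⟨P, hP, by rw [hF]; exact hPeq ℂ⟩

theorem exists_poly_of_int_qExpansion (m : ℕ) (f : ModularForm 𝒮ℒ ((m : ℤ) * 12))
    (hf : ∀ n, ∃ c : ℤ, (UpperHalfPlane.qExpansion 1 f).coeff n = (c : ℂ)) :
    ∃ P : Polynomial ℤ, HahnSeries.ofPowerSeries ℤ ℂ (UpperHalfPlane.qExpansion 1 f) =
      Polynomial.aeval (jd ℂ 1) P * Dq ℂ ^ m := by
  obtain ⟨P, -, hP⟩ := exists_poly_of_int_qExpansion' m f hf
  exact ⟨P, hP⟩

end Fermat.Agent.S28
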