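import Mathlib
import Fermat.Agent.S28.Defs
import Fermat.Agent.S28.UnitFam
import Fermat.Agent.Lib.JDict
import Fermat.Agent.S28.LevelOneInt
import Fermat.Agent.S28.UnitQExp

/-!
The modular unit polynomial: `p^12 Δ(pτ)/Δ(τ)` and `Δ(τ)/Δ(pτ)` are roots of monic polynomials
of degree `p + 1` whose coefficients are integer polynomials in `j(τ)`, resp. `j(pτ)`.
-/

set_option autoImplicit false

open UpperHalfPlane ModularForm Filter ModularCurve
open scoped MatrixGroups Manifold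

namespace Fermat.Agent.S28

open P2MW.S_ModularForm_heckeT_slash_eq_self_of_mem_Gamma0.ModularForm.HeckeSlashInvariance
open Fermat.Agent.S23 Fermat.Agent.Lib

/-! ### Substitution `q ↦ q^d` on power series versus Laurent series -/

theorem unitPoly_ofPowerSeries_V {R : Type*} [CommRing R] {d : ℕ} (hd : d ≠ 0)
    (a b : PowerSeries R)
    (h : ∀ n, PowerSeries.coeff n b = if d ∣ n then PowerSeries.coeff (n / d) a else 0) :
    HahnSeries.ofPowerSeries ℤ R b = V R d (HahnSeries.ofPowerSeries ℤ R a) := by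
  have : NeZero d := ⟨hd⟩
  rw [V_eq_qExpand]
  ext k
  rcases lt_or_ge k 0 with hk | hk
  · rw [ofPowerSeries_coeff_of_neg _ hk]
    by_cases hdk : (d : ℤ) ∣ k
    · obtain ⟨m, rfl⟩ := hdk
      have hm : m < 0 := by
        by_contra hm
        have : 0 ≤ (d : ℤ) * m := mul_nonneg (Int.natCast_nonneg d) (not_lt.mp hm)
        omega
      rw [qExpand_coeff_mul, ofPowerSeries_coeff_of_neg _ hm]
    · rw [qExpand_coeff_of_not_dvd d _ hdk]
  · lift k to ℕ using hk
    rw [HahnSeries.ofPowerSeries_apply_coeff, h k]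
    by_cases hdk : d ∣ k
    · obtain ⟨m, rfl⟩ := hdk
      rw [if_pos (dvd_mul_right d m), Nat.mul_div_cancel_left m (Nat.pos_of_ne_zero hd)]
      push_cast
      rw [qExpand_coeff_mul, HahnSeries.ofPowerSeries_apply_coeff]
    · rw [if_neg hdk, qExpand_coeff_of_not_dvd d _ (by rwa [Int.natCast_dvd_natCast])]

/-! ### Functions with a known q-expansion -/

/-- `F` is nice and its q-expansion, viewed as a Laurent series, is `s`. -/
structure QE (F : ℍ → ℂ) (s : LaurentSeries ℂ) : Prop where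
  nice : Nice F
  eq : HahnSeries.ofPowerSeries ℤ ℂ (qExpansion 1 F) = s

namespace QE

variable {F G : ℍ → ℂ} {s t : LaurentSeries ℂ}

theorem mul (h1 : QE F s) (h2 : QE G t) : QE (F * G) (s * t) where
  nice := h1.nice.mul h2.nice
  eq := by rw [h1.nice.qExpansion_mul h2.nice, map_mul, h1.eq, h2.eq]

theorem one : QE (1 : ℍ → ℂ) 1 where
  nice := Nice.one
  eq := by rw [UpperHalfPlane.qExpansion_one, map_one]

theorem pow (h1 : QE F s) (n : ℕ) : QE (F ^ n) (s ^ n) where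
  nice := h1.nice.pow n
  eq := by rw [h1.nice.qExpansion_pow, map_pow, h1.eq]

theorem neg (h1 : QE F s) : QE (-F) (-s) where
  nice := h1.nice.neg
  eq := by rw [h1.nice.qExpansion_neg, map_neg, h1.eq]

theorem natCast (n : ℕ) : QE (n : ℍ → ℂ) (n : LaurentSeries ℂ) where
  nice := Nice.const (n : ℂ)
  eq := by
    have h : ((n : ℍ → ℂ)) = fun _ : ℍ => (n : ℂ) := rfl
    rw [h, Nice.qExpansion_const, map_natCast, map_natCast]

theorem sum {ι : Type*} (u : Finset ι) {F : ι → ℍ → ℂ} {s : ι → LaurentSeries ℂ}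
    (h : ∀ i ∈ u, QE (F i) (s i)) : QE (∑ i ∈ u, F i) (∑ i ∈ u, s i) where
  nice := Nice.sum u fun i hi => (h i hi).nice
  eq := by
    rw [Nice.qExpansion_sum u fun i hi => (h i hi).nice, map_sum]
    exact Finset.sum_congr rfl fun i hi => (h i hi).eq

theorem eq_zero (h : QE (0 : ℍ → ℂ) s) : s = 0 := by
  rw [← h.eq, UpperHalfPlane.qExpansion_zero, map_zero]

theorem vd {d : ℕ} (hd : d ≠ 0) (h : QE F s) : QE (JDict.vd d F) (V ℂ d s) where
  nice :=
    { holo := JDict.vd_mdiff d h.nice.holo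
      per := JDict.vd_periodic hd h.nice.per
      bdd := JDict.vd_bdd hd h.nice.bdd }
  eq := by
    rw [← h.eq]
    exact unitPoly_ofPowerSeries_V hd _ _
      (JDict.qExpansion_vd_coeff hd h.nice.per h.nice.holo h.nice.bdd)

end QE

theorem qe_discriminant : QE ModularForm.discriminant (Dq ℂ) where
  nice :=
    { holo := ModularFormClass.holo CuspForm.discriminant
      per := by
        have h := SlashInvariantFormClass.periodic_comp_ofComplex CuspForm.discriminant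
          (h := 1) (by simp)
        simpa using h
      bdd := ModularFormClass.bdd_at_infty CuspForm.discriminant }
  eq := by rw [JDict.qExpansion_discriminant]; rfl

/-! ### The two relations as identities of Laurent series over `ℂ` -/

theorem exists_unitE_poly (p : ℕ) [Fact p.Prime] (r : ℕ) :
    ∃ P : Polynomial ℤ, QE (unitE p r) (Polynomial.aeval (jd ℂ 1) P * Dq ℂ ^ r) := by
  obtain ⟨P, hP⟩ := exists_poly_of_int_qExpansion r (unitE p r) (unitE_qExpansion_int p r)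
  exact ⟨P, nice_levelOne _, hP⟩

theorem unitPoly_rel_infty (p : ℕ) [Fact p.Prime] (P : ℕ → Polynomial ℤ)
    (hP : ∀ r, QE (unitE p r) (Polynomial.aeval (jd ℂ 1) (P r) * Dq ℂ ^ r)) :
    ∑ j ∈ Finset.range (p + 2), (-1 : LaurentSeries ℂ) ^ j *
      ((Polynomial.aeval (jd ℂ 1) (P j) * Dq ℂ ^ j) *
        ((p : LaurentSeries ℂ) ^ 12 * V ℂ p (Dq ℂ)) ^ (p + 1 - j)) = 0 := by
  have hp : p ≠ 0 := (Fact.out : p.Prime).ne_zero
  have hfun : ∑ j ∈ Finset.range (p + 2), (-1 : ℍ → ℂ) ^ j *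
      (⇑(unitE p j) * (((p : ℕ) : ℍ → ℂ) ^ 12 * JDict.vd p ModularForm.discriminant)
        ^ (p + 1 - j)) = 0 := by
    funext τ
    have h := unitE_relation p OnePoint.infty τ
    rw [Finset.sum_apply, Pi.zero_apply, ← h]
    refine Finset.sum_congr rfl fun j _ => ?_
    rw [hfam_infty_apply hp]
    simp only [Pi.mul_apply, Pi.pow_apply, Pi.neg_apply, Pi.one_apply, Pi.natCast_apply, JDict.vd]
    ring
  have hqe := QE.sum (Finset.range (p + 2)) (fun j _ => ((QE.one.neg).pow j).mul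
    ((hP j).mul ((((QE.natCast p).pow 12).mul (qe_discriminant.vd hp)).pow (p + 1 - j))))
  rw [hfun] at hqe
  exact hqe.eq_zero

theorem unitPoly_rel_zero (p : ℕ) [Fact p.Prime] (P : ℕ → Polynomial ℤ)
    (hP : ∀ r, QE (unitE p r) (Polynomial.aeval (jd ℂ 1) (P r) * Dq ℂ ^ r)) :
    ∑ j ∈ Finset.range (p + 2), (-1 : LaurentSeries ℂ) ^ j *
      (V ℂ p (Polynomial.aeval (jd ℂ 1) (P j) * Dq ℂ ^ j) * Dq ℂ ^ (p + 1 - j)) = 0 := by
  have hp : p ≠ 0 := (Fact.out : p.Prime).ne_zero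
  have hp' : (p : ℂ) ≠ 0 := by exact_mod_cast hp
  have hfun : ∑ j ∈ Finset.range (p + 2), (-1 : ℍ → ℂ) ^ j *
      (JDict.vd p ⇑(unitE p j) * ModularForm.discriminant ^ (p + 1 - j)) = 0 := by
    funext τ
    have h := unitE_relation p ((0 : ZMod p) : OnePoint (ZMod p)) (ModularForm.heckeDiagMatrix p • τ)
    rw [Finset.sum_apply, Pi.zero_apply, ← h]
    refine Finset.sum_congr rfl fun j _ => ?_
    have hτ : ModularForm.heckeMatrix p (0 : ZMod p).val • (ModularForm.heckeDiagMatrix p • τ) = τ := by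
      apply UpperHalfPlane.ext
      rw [ModularForm.coe_heckeMatrix_smul hp, ModularForm.coe_heckeDiagMatrix_smul hp,
        ZMod.val_zero]
      field_simp
      simp
    rw [hfam_coe_apply hp, hτ]
    simp only [Pi.mul_apply, Pi.pow_apply, Pi.neg_apply, Pi.one_apply, JDict.vd]
    ring
  have hqe := QE.sum (Finset.range (p + 2)) (fun j _ => ((QE.one.neg).pow j).mul
    (((hP j).vd hp).mul (qe_discriminant.pow (p + 1 - j))))
  rw [hfun] at hqe
  exact hqe.eq_zero

/-! ### Algebra -/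

theorem unitPoly_map_aeval {A B : Type*} [CommRing A] [CommRing B] [Algebra ℤ A] [Algebra ℤ B]
    (f : A →+* B) (x : A) (P : Polynomial ℤ) :
    f (Polynomial.aeval x P) = Polynomial.aeval (f x) P := by
  induction P using Polynomial.induction_on with
  | C a => rw [Polynomial.aeval_C, Polynomial.aeval_C, eq_intCast, eq_intCast, map_intCast]
  | add p q hp hq => rw [map_add, map_add, map_add, hp, hq]
  | monomial n a h =>
    simp only [map_mul, map_pow, Polynomial.aeval_X, eq_intCast, map_intCast]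

theorem unitPoly_core {K : Type*} [Field K] (n : ℕ) (a : ℕ → K) (D X : K) (hD : D ≠ 0)
    (ha0 : a 0 = 1)
    (h : ∑ j ∈ Finset.range (n + 2), (-1 : K) ^ j * ((a j * D ^ j) * X ^ (n + 1 - j)) = 0) :
    (X / D) ^ (n + 1) + ∑ i : Fin (n + 1),
      ((-1 : K) ^ (n + 1 - (i : ℕ)) * a (n + 1 - (i : ℕ))) * (X / D) ^ (i : ℕ) = 0 := by
  have h1 : ∑ j ∈ Finset.range (n + 2), (-1 : K) ^ j * a j * (X / D) ^ (n + 1 - j) = 0 := by
    have h2 : ∀ j ∈ Finset.range (n + 2), (-1 : K) ^ j * a j * (X / D) ^ (n + 1 - j)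
        = ((-1 : K) ^ j * ((a j * D ^ j) * X ^ (n + 1 - j))) / D ^ (n + 1) := by
      intro j hj
      have hj' : j ≤ n + 1 := by have := Finset.mem_range.mp hj; omega
      have e : D ^ (n + 1) = D ^ j * D ^ (n + 1 - j) := by rw [← pow_add]; congr 1; omega
      rw [e, div_pow]
      field_simp
    rw [Finset.sum_congr rfl h2, ← Finset.sum_div, h, zero_div]
  rw [Finset.sum_range_succ'] at h1
  simp only [pow_zero, one_mul, ha0, Nat.sub_zero] at h1
  rw [Fin.sum_univ_eq_sum_range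
    (fun i => ((-1 : K) ^ (n + 1 - i) * a (n + 1 - i)) * (X / D) ^ i) (n + 1),
    ← Finset.sum_range_reflect, add_comm]
  rw [← h1]
  congr 1
  refine Finset.sum_congr rfl fun k hk => ?_
  have hk' : k ≤ n := by have := Finset.mem_range.mp hk; omega
  have e1 : n + 1 - (n + 1 - 1 - k) = k + 1 := by omega
  have e2 : n + 1 - 1 - k = n + 1 - (k + 1) := by omega
  rw [e1, e2]

theorem Dq_ne_zero (R : Type*) [CommRing R] [Nontrivial R] : Dq R ≠ 0 := by
  intro h
  have h1 : (Dq R).coeff ((1 : ℕ) : ℤ) = 1 := by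
    rw [Dq, HahnSeries.ofPowerSeries_apply_coeff, PowerSeries.coeff_map, DqZ]
    rw [show (1 : ℕ) = 0 + 1 from rfl, PowerSeries.coeff_succ_X_mul,
      PowerSeries.coeff_zero_eq_constantCoeff_apply, constantCoeff_dedekindEtaUnit, map_one]
  rw [h] at h1
  simp at h1

theorem Dd_ne_zero (R : Type*) [CommRing R] [Nontrivial R] {d : ℕ} (hd : d ≠ 0) : Dd R d ≠ 0 := by
  intro h
  rw [Dd, ← map_zero (V R d)] at h
  exact Dq_ne_zero R (V_injective R hd h)

/-! ### The unit polynomial -/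

theorem exists_unit_poly_complex (p : ℕ) [Fact p.Prime] :
    ∃ (G : Fin (p + 1) → Polynomial ℤ),
      ((p : LaurentSeries ℂ) ^ 12 * (Dd ℂ p / Dd ℂ 1)) ^ (p + 1) +
          ∑ i : Fin (p + 1), Polynomial.aeval (jd ℂ 1) (G i) *
            ((p : LaurentSeries ℂ) ^ 12 * (Dd ℂ p / Dd ℂ 1)) ^ (i : ℕ) = 0 ∧
      (Dd ℂ 1 / Dd ℂ p) ^ (p + 1) +
          ∑ i : Fin (p + 1), Polynomial.aeval (jd ℂ p) (G i) * (Dd ℂ 1 / Dd ℂ p) ^ (i : ℕ) = 0 := by
  have hp : p ≠ 0 := (Fact.out : p.Prime).ne_zero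
  choose P hP using exists_unitE_poly p
  have hD1 : Dd ℂ 1 = Dq ℂ := V_one ℂ _
  have hDp : Dd ℂ p = V ℂ p (Dq ℂ) := rfl
  have hj1 : jd ℂ 1 = jqModC ℂ := jd_one ℂ
  have hjp : V ℂ p (jd ℂ 1) = jd ℂ p := by rw [hj1]; rfl
  have hP0 : Polynomial.aeval (jd ℂ 1) (P 0) = 1 := by
    have h1 := (hP 0).eq
    have h2 : (⇑(unitE p 0) : ℍ → ℂ) = 1 := unitE_zero p
    rw [h2, QE.one.eq, pow_zero, mul_one] at h1
    exact h1.symm
  have hG : ∀ (x : LaurentSeries ℂ) (i : ℕ),
      Polynomial.aeval x ((-1 : Polynomial ℤ) ^ (p + 1 - i) * P (p + 1 - i))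
        = (-1 : LaurentSeries ℂ) ^ (p + 1 - i) * Polynomial.aeval x (P (p + 1 - i)) := by
    intro x i
    rw [map_mul, map_pow, map_neg, map_one]
  refine ⟨fun i => (-1 : Polynomial ℤ) ^ (p + 1 - (i : ℕ)) * P (p + 1 - (i : ℕ)), ?_, ?_⟩
  · have h := unitPoly_core p (fun j => Polynomial.aeval (jd ℂ 1) (P j)) (Dq ℂ)
      ((p : LaurentSeries ℂ) ^ 12 * V ℂ p (Dq ℂ)) (Dq_ne_zero ℂ) hP0 (unitPoly_rel_infty p P hP)
    rw [hD1, hDp, ← mul_div_assoc]
    simp only [hG]
    exact h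
  · have hrel := unitPoly_rel_zero p P hP
    have hrel' : ∑ j ∈ Finset.range (p + 2), (-1 : LaurentSeries ℂ) ^ j *
        ((Polynomial.aeval (jd ℂ p) (P j) * V ℂ p (Dq ℂ) ^ j) * Dq ℂ ^ (p + 1 - j)) = 0 := by
      rw [← hrel]
      refine Finset.sum_congr rfl fun j _ => ?_
      rw [map_mul, map_pow, unitPoly_map_aeval, hjp]
    have hP0' : Polynomial.aeval (jd ℂ p) (P 0) = 1 := by
      rw [← hjp, ← unitPoly_map_aeval, hP0, map_one]
    have h := unitPoly_core p (fun j => Polynomial.aeval (jd ℂ p) (P j)) (V ℂ p (Dq ℂ))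
      (Dq ℂ) (by rw [← hDp]; exact Dd_ne_zero ℂ hp) hP0' hrel'
    rw [hD1, hDp]
    simp only [hG]
    exact h

theorem exists_unit_poly (p : ℕ) (hp : p.Prime) :
    ∃ (n : ℕ) (G : Fin (n + 1) → Polynomial ℤ), n ≤ p ∧
      ((p : LaurentSeries ℚ) ^ 12 * (Dd ℚ p / Dd ℚ 1)) ^ (n + 1) +
          ∑ i : Fin (n + 1), Polynomial.aeval (jd ℚ 1) (G i) *
            ((p : LaurentSeries ℚ) ^ 12 * (Dd ℚ p / Dd ℚ 1)) ^ (i : ℕ) = 0 ∧
      (Dd ℚ 1 / Dd ℚ p) ^ (n + 1) +
          ∑ i : Fin (n + 1), Polynomial.aeval (jd ℚ p) (G i) * (Dd ℚ 1 / Dd ℚ p) ^ (i : ℕ) = 0 := by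
  have : Fact p.Prime := ⟨hp⟩
  obtain ⟨G, h1, h2⟩ := exists_unit_poly_complex p
  have hinj : Function.Injective (coeffMap (algebraMap ℚ ℂ)) :=
    (coeffMap (algebraMap ℚ ℂ)).injective
  refine ⟨p, G, le_rfl, ?_, ?_⟩
  · apply hinj
    rw [map_zero, ← h1]
    simp only [map_add, map_pow, map_mul, map_sum, map_natCast, map_div₀, coeffMap_Dd,
      unitPoly_map_aeval, coeffMap_jd]
  · apply hinj
    rw [map_zero, ← h2]
    simp only [map_add, map_pow, map_mul, map_sum, map_div₀, coeffMap_Dd,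
      unitPoly_map_aeval, coeffMap_jd]

end Fermat.Agent.S28
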