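import Mathlib
import Fermat.Agent.S28.Defs

/-!
# S28, work package W8: the fundamental inequality for the Gauss valuation ring `Vw`

Main results (exact blueprint statements):
* `relrank_kappa_le`: `[kappa ℓ M : kj ℓ d0] ≤ [Ft M : Qj d0]` (residue degree ≤ degree);
* `isIntegralElem_of_relrank`: if both degrees equal `n`, then for every `z ∈ Vw ∩ Ft M` some
  multiple `Q(t) z`, `Q ∈ ℤ_(ℓ)[X]` with nonzero reduction, is integral over `ℤ_(ℓ)[t]`
  (`t = j(q^d0)` or its inverse).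

The proofs are done in an abstract setting (a subring `V` of a field `E` with a ring hom `ρ` to a
field `F` of characteristic `ℓ`, and `τ ∈ V` with `ρ τ` transcendental over `𝔽_ℓ`); all helper
names are prefixed `fundIneq_`.  Only `Defs` (and the Prelude) are needed.
-/

set_option autoImplicit false

open Polynomial ModularCurve

noncomputable section

namespace Fermat.Agent.S28

/-! ### Generic linear algebra bridges for `Subfield.relrank` -/

theorem fundIneq_card_le_relrank {E : Type} [Field E] {A B : Subfield E} (h : A ≤ B)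
    {ι : Type} (y : ι → E) (hyB : ∀ i, y i ∈ B) (hy : LinearIndependent A y) :
    Cardinal.mk ι ≤ Subfield.relrank A B := by
  rw [Subfield.relrank_eq_rank_of_le h]
  have hy' : LinearIndependent A (fun i => (⟨y i, hyB i⟩ : Subfield.extendScalars h)) :=
    LinearIndependent.of_comp (Subfield.extendScalars h).val.toLinearMap hy
  exact hy'.cardinal_le_rank

theorem fundIneq_exists_family {F : Type} [Field F] {a b : Subfield F} (h : a ≤ b) (n : ℕ)
    (hn : (n : Cardinal) ≤ Subfield.relrank a b) :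
    ∃ y : Fin n → F, (∀ i, y i ∈ b) ∧ LinearIndependent a y := by
  rw [Subfield.relrank_eq_rank_of_le h] at hn
  obtain ⟨s, hs, hli⟩ := le_rank_iff_exists_linearIndependent_finset.mp hn
  let e : Fin n ≃ ↥(s : Set (Subfield.extendScalars h)) := (s.equivFinOfCardEq hs).symm
  have h1 : LinearIndependent a (fun i : Fin n => ((e i : Subfield.extendScalars h))) :=
    hli.comp e e.injective
  refine ⟨fun i => (((e i : Subfield.extendScalars h)) : F), fun i => (e i).1.2, ?_⟩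
  exact h1.map' (Subfield.extendScalars h).val.toLinearMap
    (LinearMap.ker_eq_bot.mpr (Subfield.extendScalars h).val.injective)

theorem fundIneq_mem_span {E : Type} [Field E] {A B : Subfield E} (h : A ≤ B) {n : ℕ}
    (y : Fin n → E) (hyB : ∀ i, y i ∈ B) (hy : LinearIndependent A y)
    (hn : Subfield.relrank A B ≤ (n : Cardinal)) (w : E) (hw : w ∈ B) :
    ∃ c : Fin n → A, ∑ i, (c i : E) * y i = w := by
  by_contra hcon
  have hw' : w ∉ Submodule.span A (Set.range y) := by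
    intro hmem
    obtain ⟨c, hc⟩ := (Submodule.mem_span_range_iff_exists_fun A).mp hmem
    exact hcon ⟨c, by simpa [Subfield.smul_def] using hc⟩
  have hli := linearIndependent_option'.mpr ⟨hy, hw'⟩
  have h2 := fundIneq_card_le_relrank h _ (by
    rintro (_ | i)
    · exact hw
    · exact hyB i) hli
  rw [Cardinal.mk_option, Cardinal.mk_fin] at h2
  have h3 := h2.trans hn
  have h4 : ((n + 1 : ℕ) : Cardinal.{0}) ≤ ((n : ℕ) : Cardinal.{0}) := by
    push_cast
    exact h3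
  have := Nat.cast_le.mp h4
  omega

theorem fundIneq_one_le_relrank {E : Type} [Field E] {A B : Subfield E} (h : A ≤ B) :
    (1 : Cardinal) ≤ Subfield.relrank A B := by
  have hli : LinearIndependent A (fun _ : Unit => (1 : E)) :=
    LinearIndependent.of_subsingleton () one_ne_zero
  have := fundIneq_card_le_relrank h _ (fun _ => one_mem B) hli
  simpa using this

theorem fundIneq_mem_closure_singleton {E : Type} [Field E] (t c : E)
    (hc : c ∈ Subfield.closure {t}) :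
    ∃ P Q : ℤ[X], aeval t Q ≠ 0 ∧ c * aeval t Q = aeval t P := by
  have key : ∀ y ∈ Subring.closure {t}, ∃ P : ℤ[X], aeval t P = y := by
    intro y hy
    induction hy using Subring.closure_induction with
    | mem x hx => exact ⟨X, by simp [Set.mem_singleton_iff.mp hx]⟩
    | zero => exact ⟨0, by simp⟩
    | one => exact ⟨1, by simp⟩
    | add x y _ _ hx hy =>
      obtain ⟨P, rfl⟩ := hx
      obtain ⟨Q, rfl⟩ := hy
      exact ⟨P + Q, by simp⟩
    | neg x _ hx =>
      obtain ⟨P, rfl⟩ := hx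
      exact ⟨-P, by simp⟩
    | mul x y _ _ hx hy =>
      obtain ⟨P, rfl⟩ := hx
      obtain ⟨Q, rfl⟩ := hy
      exact ⟨P * Q, by simp⟩
  obtain ⟨y, hy, z, hz, rfl⟩ := Subfield.mem_closure_iff.mp hc
  obtain ⟨P, rfl⟩ := key y hy
  obtain ⟨Q, rfl⟩ := key z hz
  by_cases hQ : aeval t Q = 0
  · exact ⟨0, 1, by simp, by simp [hQ]⟩
  · exact ⟨P, Q, hQ, div_mul_cancel₀ _ hQ⟩

theorem fundIneq_aeval_mem {F : Type} [Field F] (a : Subfield F) (x : F) (hx : x ∈ a)
    (P : ℤ[X]) : aeval x P ∈ a := by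
  rw [Polynomial.aeval_eq_sum_range]
  exact sum_mem fun i _ => zsmul_mem (pow_mem hx i) _

/-! ### `ℓ`-content of a finite family of integer polynomials -/

theorem fundIneq_content {ι : Type} (ℓ : ℕ) [Fact ℓ.Prime] (s : Finset ι) :
    ∀ (m : ℕ) (B : ι → ℤ[X]),
      (∃ i ∈ s, ∃ n, (B i).coeff n ≠ 0 ∧ ((B i).coeff n).natAbs ≤ m) →
      ∃ (k : ℕ) (R : ι → ℤ[X]), (∀ i ∈ s, B i = C ((ℓ : ℤ) ^ k) * R i) ∧
        ∃ i ∈ s, (R i).map (Int.castRingHom (ZMod ℓ)) ≠ 0 := by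
  intro m
  induction m with
  | zero =>
    rintro B ⟨i, hi, n, hn, hle⟩
    exact absurd (Int.natAbs_eq_zero.mp (Nat.le_zero.mp hle)) hn
  | succ m ih =>
    rintro B ⟨i0, hi0, n0, hn0, hle⟩
    by_cases hex : ∃ i ∈ s, (B i).map (Int.castRingHom (ZMod ℓ)) ≠ 0
    · exact ⟨0, B, fun i _ => by simp, hex⟩
    · push Not at hex
      have hdiv : ∀ i ∈ s, ∃ R : ℤ[X], B i = C (ℓ : ℤ) * R := by
        intro i hi
        have h0 := hex i hi
        have : C (ℓ : ℤ) ∣ B i := by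
          rw [Polynomial.C_dvd_iff_dvd_coeff]
          intro n
          have h1 := congrArg (fun p => p.coeff n) h0
          simp only [coeff_map, coeff_zero, eq_intCast] at h1
          exact (ZMod.intCast_zmod_eq_zero_iff_dvd _ _).mp h1
        exact this
      choose! R hR using hdiv
      have hcoef : (B i0).coeff n0 = ℓ * (R i0).coeff n0 := by
        rw [hR i0 hi0, coeff_C_mul]
      have hne : (R i0).coeff n0 ≠ 0 := by
        intro h
        rw [h, mul_zero] at hcoef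
        exact hn0 hcoef
      have hlt : ((R i0).coeff n0).natAbs ≤ m := by
        have h1 : ((B i0).coeff n0).natAbs = ℓ * ((R i0).coeff n0).natAbs := by
          rw [hcoef, Int.natAbs_mul, Int.natAbs_natCast]
        have h2 := (Fact.out : ℓ.Prime).two_le
        have h3 : 0 < ((R i0).coeff n0).natAbs := Int.natAbs_pos.mpr hne
        rw [h1] at hle
        nlinarith
      obtain ⟨k, R', hR', hex'⟩ := ih R ⟨i0, hi0, n0, hne, hlt⟩
      refine ⟨k + 1, R', fun i hi => ?_, hex'⟩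
      rw [hR i hi, hR' i hi, pow_succ, C_mul, ← mul_assoc, mul_comm (C (ℓ : ℤ))]

/-! ### The abstract valuation-theoretic core -/

section abstract

variable {E F : Type} [Field E] [Field F] (ℓ : ℕ) [Fact ℓ.Prime]
  [Algebra (ZMod ℓ) F] (V : Subring E) (ρ : V →+* F)

theorem fundIneq_coe_aeval (τ : V) (P : ℤ[X]) : ((aeval τ P : V) : E) = aeval (τ : E) P := by
  have h := Polynomial.map_aeval_eq_aeval_map (S := V) (U := E) (φ := RingHom.id ℤ)
    (ψ := V.subtype) (RingHom.ext_int _ _) P τ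
  rw [Polynomial.map_id] at h
  exact h

theorem fundIneq_rho_aeval (τ : V) (P : ℤ[X]) :
    ρ (aeval τ P) = aeval (ρ τ) (P.map (Int.castRingHom (ZMod ℓ))) :=
  Polynomial.map_aeval_eq_aeval_map (S := V) (U := F) (φ := Int.castRingHom (ZMod ℓ))
    (ψ := ρ) (RingHom.ext_int _ _) P τ

theorem fundIneq_aeval_map (x : F) (P : ℤ[X]) :
    aeval x (P.map (Int.castRingHom (ZMod ℓ))) = aeval x P := by
  have := Polynomial.aeval_map_algebraMap (ZMod ℓ) x P
  rwa [algebraMap_int_eq] at this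

/-- core reduction step: a relation with `ℓ`-divisible left coefficient forces all the
right coefficients to be `ℓ`-divisible. -/
theorem fundIneq_indep_aux (τ : V) (hτ : Transcendental (ZMod ℓ) (ρ τ)) (a : Subfield F)
    (hτa : ρ τ ∈ a) {ι : Type} (y : ι → V) (hy : LinearIndependent a (fun i => ρ (y i)))
    (s : Finset ι) (w : V) (R₀ : ℤ[X]) (hR₀ : R₀.map (Int.castRingHom (ZMod ℓ)) = 0)
    (R : ι → ℤ[X])
    (h : aeval (τ : E) R₀ * (w : E) = ∑ i ∈ s, aeval (τ : E) (R i) * (y i : E)) :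
    ∀ i ∈ s, (R i).map (Int.castRingHom (ZMod ℓ)) = 0 := by
  have hV : aeval τ R₀ * w = ∑ i ∈ s, aeval τ (R i) * y i := by
    apply Subtype.ext
    push_cast
    simp only [fundIneq_coe_aeval]
    exact h
  have hF := congrArg ρ hV
  rw [map_mul, fundIneq_rho_aeval ℓ V ρ, hR₀, map_zero, zero_mul, map_sum] at hF
  have hF' : ∑ i ∈ s, (⟨aeval (ρ τ) (R i), fundIneq_aeval_mem a _ hτa _⟩ : a) • ρ (y i) = 0 := by
    rw [hF]
    refine Finset.sum_congr rfl fun i _ => ?_
    rw [map_mul, fundIneq_rho_aeval ℓ V ρ, fundIneq_aeval_map, Subfield.smul_def, smul_eq_mul]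
  intro i hi
  have h0 := linearIndependent_iff'.mp hy s _ hF' i hi
  have h1 : aeval (ρ τ) (R i) = 0 := congrArg Subtype.val h0
  rw [← fundIneq_aeval_map ℓ] at h1
  exact transcendental_iff.mp hτ _ h1

theorem fundIneq_indep (hℓE : ((ℓ : ℤ) : E) ≠ 0)
    (τ : V) (hτ : Transcendental (ZMod ℓ) (ρ τ)) (a : Subfield F)
    (hτa : ρ τ ∈ a) {ι : Type} (y : ι → V) (hy : LinearIndependent a (fun i => ρ (y i)))
    (s : Finset ι) (B : ι → ℤ[X])
    (h : ∑ i ∈ s, aeval (τ : E) (B i) * (y i : E) = 0) : ∀ i ∈ s, B i = 0 := by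
  by_contra hcon
  push Not at hcon
  obtain ⟨i0, hi0, hB0⟩ := hcon
  obtain ⟨n0, hn0⟩ : ∃ n, (B i0).coeff n ≠ 0 := by
    by_contra hh
    push Not at hh
    exact hB0 (Polynomial.ext (by simpa using hh))
  obtain ⟨k, R, hBR, i1, hi1, hR1⟩ :=
    fundIneq_content ℓ s _ B ⟨i0, hi0, n0, hn0, le_rfl⟩
  have h2 : ((ℓ : ℤ) : E) ^ k * ∑ i ∈ s, aeval (τ : E) (R i) * (y i : E) = 0 := by
    rw [← h, Finset.mul_sum]
    refine Finset.sum_congr rfl fun i hi => ?_
    rw [hBR i hi, map_mul, aeval_C, algebraMap_int_eq, eq_intCast, Int.cast_pow]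
    ring
  have h3 : aeval (τ : E) (0 : ℤ[X]) * ((0 : V) : E)
      = ∑ i ∈ s, aeval (τ : E) (R i) * (y i : E) := by
    rcases mul_eq_zero.mp h2 with h | h
    · exact absurd h (pow_ne_zero _ hℓE)
    · rw [h]; simp
  exact hR1 (fundIneq_indep_aux ℓ V ρ τ hτ a hτa y hy s 0 0 (by simp) R h3 i1 hi1)

theorem fundIneq_reduce (hℓE : ((ℓ : ℤ) : E) ≠ 0)
    (τ : V) (hτ : Transcendental (ZMod ℓ) (ρ τ)) (a : Subfield F)
    (hτa : ρ τ ∈ a) {ι : Type} (y : ι → V) (hy : LinearIndependent a (fun i => ρ (y i)))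
    (s : Finset ι) (w : V) (Q : ℤ[X]) (hQ : Q ≠ 0) (B : ι → ℤ[X])
    (h : aeval (τ : E) Q * (w : E) = ∑ i ∈ s, aeval (τ : E) (B i) * (y i : E)) :
    ∃ (Q' : ℤ[X]) (A : ι → ℤ[X]), Q'.map (Int.castRingHom (ZMod ℓ)) ≠ 0 ∧
      aeval (τ : E) Q' * (w : E) = ∑ i ∈ s, aeval (τ : E) (A i) * (y i : E) := by
  obtain ⟨n0, hn0⟩ : ∃ n, Q.coeff n ≠ 0 := by
    by_contra hh
    push Not at hh
    exact hQ (Polynomial.ext (by simpa using hh))
  -- combined family indexed by `Option ι`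
  let B' : Option ι → ℤ[X] := fun o => Option.casesOn' o Q B
  obtain ⟨k, R, hBR, hex⟩ :=
    fundIneq_content ℓ (Finset.insertNone s) _ B'
      ⟨none, by simp, n0, hn0, le_rfl⟩
  have hQR : Q = C ((ℓ : ℤ) ^ k) * R none := hBR none (by simp)
  have hBR' : ∀ i ∈ s, B i = C ((ℓ : ℤ) ^ k) * R (some i) := fun i hi =>
    hBR (some i) (by simpa using hi)
  have h2 : ((ℓ : ℤ) : E) ^ k * (aeval (τ : E) (R none) * (w : E))
      = ((ℓ : ℤ) : E) ^ k * ∑ i ∈ s, aeval (τ : E) (R (some i)) * (y i : E) := by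
    have e1 : ((ℓ : ℤ) : E) ^ k * (aeval (τ : E) (R none) * (w : E))
        = aeval (τ : E) Q * (w : E) := by
      rw [hQR, map_mul, aeval_C, algebraMap_int_eq, eq_intCast, Int.cast_pow]
      ring
    rw [e1, h, Finset.mul_sum]
    refine Finset.sum_congr rfl fun i hi => ?_
    rw [hBR' i hi, map_mul, aeval_C, algebraMap_int_eq, eq_intCast, Int.cast_pow]
    ring
  have h3 : aeval (τ : E) (R none) * (w : E)
      = ∑ i ∈ s, aeval (τ : E) (R (some i)) * (y i : E) :=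
    mul_left_cancel₀ (pow_ne_zero _ hℓE) h2
  by_cases hnone : (R none).map (Int.castRingHom (ZMod ℓ)) = 0
  · exfalso
    have hall := fundIneq_indep_aux ℓ V ρ τ hτ a hτa y hy s w (R none) hnone
      (fun i => R (some i)) h3
    obtain ⟨o, ho, hRo⟩ := hex
    cases o with
    | none => exact hRo hnone
    | some i => exact hRo (hall i (by simpa using ho))
  · exact ⟨R none, fun i => R (some i), hnone, h3⟩

/-- lifts of a residually independent family are independent over `closure {τ}`. -/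
theorem fundIneq_lift_indep (hℓE : ((ℓ : ℤ) : E) ≠ 0)
    (τ : V) (hτ : Transcendental (ZMod ℓ) (ρ τ)) (A : Subfield E)
    (hA : A = Subfield.closure {(τ : E)}) (a : Subfield F)
    (hτa : ρ τ ∈ a) {ι : Type} (y : ι → V) (hy : LinearIndependent a (fun i => ρ (y i))) :
    LinearIndependent A (fun i => (y i : E)) := by
  classical
  rw [linearIndependent_iff']
  intro s c hc i hi
  have hmem : ∀ j, ∃ P Q : ℤ[X], aeval (τ : E) Q ≠ 0 ∧
      (c j : E) * aeval (τ : E) Q = aeval (τ : E) P := fun j =>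
    fundIneq_mem_closure_singleton (τ : E) (c j : E) (hA ▸ (c j).2)
  choose P Q hQ hPQ using hmem
  have hD : ∀ j ∈ s, (c j : E) * ∏ j' ∈ s, aeval (τ : E) (Q j')
      = aeval (τ : E) (P j * ∏ j' ∈ s.erase j, Q j') := by
    intro j hj
    rw [← Finset.mul_prod_erase s _ hj, ← mul_assoc, hPQ, map_mul, map_prod]
  have hrel : ∑ j ∈ s, aeval (τ : E) (P j * ∏ j' ∈ s.erase j, Q j') * (y j : E) = 0 := by
    have : ∑ j ∈ s, aeval (τ : E) (P j * ∏ j' ∈ s.erase j, Q j') * (y j : E)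
        = (∏ j' ∈ s, aeval (τ : E) (Q j')) * ∑ j ∈ s, c j • (y j : E) := by
      rw [Finset.mul_sum]
      refine Finset.sum_congr rfl fun j hj => ?_
      rw [← hD j hj, Subfield.smul_def, smul_eq_mul]
      ring
    rw [this, hc, mul_zero]
  have h0 := fundIneq_indep ℓ V ρ hℓE τ hτ a hτa y hy s _ hrel i hi
  have h1 := hD i hi
  rw [h0, map_zero] at h1
  rcases mul_eq_zero.mp h1 with h | h
  · exact Subtype.ext h
  · exact absurd h (Finset.prod_ne_zero_iff.mpr fun j _ => hQ j)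

theorem fundIneq_relrank_le_aux (hℓE : ((ℓ : ℤ) : E) ≠ 0)
    (τ : V) (hτ : Transcendental (ZMod ℓ) (ρ τ))
    (A B : Subfield E) (hAB : A ≤ B) (hA : A = Subfield.closure {(τ : E)})
    (a b : Subfield F) (hab : a ≤ b) (hτa : ρ τ ∈ a)
    (hb : ∀ x ∈ b, ∃ v : V, (v : E) ∈ B ∧ ρ v = x) :
    Subfield.relrank a b ≤ Subfield.relrank A B := by
  rw [Subfield.relrank_eq_rank_of_le hab]
  let bs := Module.Basis.ofVectorSpace a (Subfield.extendScalars hab)
  rw [← bs.mk_eq_rank'']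
  have hli : LinearIndependent a (fun i => ((bs i : Subfield.extendScalars hab) : F)) :=
    bs.linearIndependent.map' (Subfield.extendScalars hab).val.toLinearMap
      (LinearMap.ker_eq_bot.mpr (Subfield.extendScalars hab).val.injective)
  have hlift : ∀ i, ∃ v : V, (v : E) ∈ B ∧ ρ v = ((bs i : Subfield.extendScalars hab) : F) :=
    fun i => hb _ (bs i).2
  choose y hyB hy using hlift
  refine fundIneq_card_le_relrank hAB (fun i => (y i : E)) hyB ?_
  refine fundIneq_lift_indep ℓ V ρ hℓE τ hτ A hA a hτa y ?_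
  simpa only [hy] using hli

theorem fundIneq_integral_aux (hℓE : ((ℓ : ℤ) : E) ≠ 0)
    (τ : V) (hτ : Transcendental (ZMod ℓ) (ρ τ))
    (A B : Subfield E) (hAB : A ≤ B) (hA : A = Subfield.closure {(τ : E)})
    (a b : Subfield F) (hab : a ≤ b) (hτa : ρ τ ∈ a)
    (hb : ∀ x ∈ b, ∃ v : V, (v : E) ∈ B ∧ ρ v = x)
    (n : ℕ) (hUB : Subfield.relrank A B ≤ (n : Cardinal))
    (hLB : (n : Cardinal) ≤ Subfield.relrank a b) (z : V) (hz : (z : E) ∈ B) :
    ∃ Q : ℤ[X], Q.map (Int.castRingHom (ZMod ℓ)) ≠ 0 ∧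
      (Polynomial.eval₂RingHom (Int.castRingHom E) (τ : E)).IsIntegralElem
        (Polynomial.eval₂RingHom (Int.castRingHom E) (τ : E) Q * (z : E)) := by
  classical
  have hn : 0 < n := by
    have h1 := (fundIneq_one_le_relrank hAB).trans hUB
    have h2 : ((1 : ℕ) : Cardinal.{0}) ≤ ((n : ℕ) : Cardinal.{0}) := by
      push_cast
      exact h1
    exact Nat.cast_le.mp h2
  obtain ⟨ybar, hybar, hli⟩ := fundIneq_exists_family hab n hLB
  have hlift : ∀ i, ∃ v : V, (v : E) ∈ B ∧ ρ v = ybar i := fun i => hb _ (hybar i)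
  choose y hyB hy using hlift
  have hli' : LinearIndependent a (fun i => ρ (y i)) := by simpa only [hy] using hli
  have hyA : LinearIndependent A (fun i => (y i : E)) :=
    fundIneq_lift_indep ℓ V ρ hℓE τ hτ A hA a hτa y hli'
  have claim : ∀ w : V, (w : E) ∈ B → ∃ (Q' : ℤ[X]) (Am : Fin n → ℤ[X]),
      Q'.map (Int.castRingHom (ZMod ℓ)) ≠ 0 ∧
      aeval (τ : E) Q' * (w : E) = ∑ i, aeval (τ : E) (Am i) * (y i : E) := by
    intro w hw
    obtain ⟨c, hc⟩ := fundIneq_mem_span hAB (fun i => (y i : E)) hyB hyA hUB (w : E) hw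
    have hmem : ∀ j, ∃ P Q : ℤ[X], aeval (τ : E) Q ≠ 0 ∧
        (c j : E) * aeval (τ : E) Q = aeval (τ : E) P := fun j =>
      fundIneq_mem_closure_singleton (τ : E) (c j : E) (hA ▸ (c j).2)
    choose P Q hQ hPQ using hmem
    have hD : ∀ j, (c j : E) * ∏ j', aeval (τ : E) (Q j')
        = aeval (τ : E) (P j * ∏ j' ∈ Finset.univ.erase j, Q j') := by
      intro j
      rw [← Finset.mul_prod_erase Finset.univ _ (Finset.mem_univ j), ← mul_assoc, hPQ,
        map_mul, map_prod]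
    have hQne : (∏ j, Q j) ≠ 0 := by
      intro h0
      have h1 := congrArg (aeval (τ : E)) h0
      rw [map_prod, map_zero] at h1
      exact (Finset.prod_ne_zero_iff.mpr fun j _ => hQ j) h1
    refine fundIneq_reduce ℓ V ρ hℓE τ hτ a hτa y hli' Finset.univ w (∏ j, Q j) hQne
      (fun j => P j * ∏ j' ∈ Finset.univ.erase j, Q j') ?_
    rw [map_prod, ← hc, Finset.mul_sum]
    refine Finset.sum_congr rfl fun j _ => ?_
    rw [← hD j]
    ring
  have hw : ∀ i, ∃ (Q' : ℤ[X]) (Am : Fin n → ℤ[X]),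
      Q'.map (Int.castRingHom (ZMod ℓ)) ≠ 0 ∧
      aeval (τ : E) Q' * ((z : E) * (y i : E)) = ∑ j, aeval (τ : E) (Am j) * (y j : E) := by
    intro i
    have h1 := claim (z * y i) (by push_cast; exact mul_mem hz (hyB i))
    simpa using h1
  choose Q' Am hQ' hAm using hw
  refine ⟨∏ i, Q' i, ?_, ?_⟩
  · rw [Polynomial.map_prod]
    exact Finset.prod_ne_zero_iff.mpr fun i _ => hQ' i
  · let _ : Algebra ℤ[X] E := (Polynomial.eval₂RingHom (Int.castRingHom E) (τ : E)).toAlgebra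
    have hsmul : ∀ (P : ℤ[X]) (e : E), P • e = aeval (τ : E) P * e := fun P e => rfl
    let N : Submodule ℤ[X] E := Submodule.span ℤ[X] (Set.range fun i => (y i : E))
    have hN : N ≠ ⊥ := by
      intro h0
      have hmem : (y ⟨0, hn⟩ : E) ∈ N := Submodule.subset_span ⟨_, rfl⟩
      rw [h0, Submodule.mem_bot] at hmem
      exact hyA.ne_zero ⟨0, hn⟩ hmem
    have hFG : N.FG := Submodule.fg_span (Set.finite_range _)
    have hx : ∀ m ∈ N, (aeval (τ : E) (∏ i, Q' i) * (z : E)) • m ∈ N := by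
      intro m hm
      induction hm using Submodule.span_induction with
      | mem m hm =>
        obtain ⟨i, rfl⟩ := hm
        have h1 : (aeval (τ : E) (∏ i, Q' i) * (z : E)) • (y i : E)
            = ∑ j, ((∏ i' ∈ Finset.univ.erase i, Q' i') * Am i j) • (y j : E) := by
          rw [smul_eq_mul, ← Finset.mul_prod_erase Finset.univ _ (Finset.mem_univ i)]
          simp only [hsmul, map_mul]
          have h2 : (aeval (τ : E)) (Q' i) * (∏ x ∈ Finset.univ.erase i, (aeval (τ : E)) (Q' x))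
                * (z : E) * (y i : E)
              = (∏ x ∈ Finset.univ.erase i, (aeval (τ : E)) (Q' x))
                * ((aeval (τ : E)) (Q' i) * ((z : E) * (y i : E))) := by ring
          rw [map_prod, h2, hAm i, Finset.mul_sum]
          refine Finset.sum_congr rfl fun j _ => by ring
        rw [h1]
        exact Submodule.sum_mem _ fun j _ =>
          Submodule.smul_mem _ _ (Submodule.subset_span ⟨j, rfl⟩)
      | zero => simp
      | add m m' _ _ hm hm' =>
        rw [smul_add]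
        exact add_mem hm hm'
      | smul r m _ hm =>
        rw [smul_comm]
        exact Submodule.smul_mem _ _ hm
    exact isIntegral_of_smul_mem_submodule N hN hFG _ hx

end abstract

/-! ### The concrete statements (W8) -/

section W8
variable (ℓ : ℕ) [Fact ℓ.Prime]

/-- units of `Vw`: an element with nonzero residue has its inverse in `Vw`. -/
theorem fundIneq_inv_mem (x : Vw ℓ) (h0 : rho ℓ x ≠ 0) :
    ∃ x' : Vw ℓ, (x' : LaurentSeries ℚ) = (x : LaurentSeries ℚ)⁻¹ ∧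
      rho ℓ x' = (rho ℓ x)⁻¹ := by
  obtain ⟨a, b, hb, h⟩ := x.2
  have hspec := rho_spec ℓ x a b hb h
  have ha : toF ℓ a ≠ 0 := by
    rw [← hspec]
    exact mul_ne_zero h0 hb
  have hbQ : toQ ℓ b ≠ 0 := fun hq => hb (by
    have : b = 0 := toQ_injective ℓ (by rw [hq, map_zero])
    rw [this, map_zero])
  have haQ : toQ ℓ a ≠ 0 := fun hq => ha (by
    have : a = 0 := toQ_injective ℓ (by rw [hq, map_zero])
    rw [this, map_zero])
  have hx0 : (x : LaurentSeries ℚ) ≠ 0 := by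
    intro hx0
    rw [hx0, zero_mul] at h
    exact haQ h.symm
  have hinv : (x : LaurentSeries ℚ)⁻¹ * toQ ℓ a = toQ ℓ b := by
    rw [← h]
    field_simp
  refine ⟨⟨(x : LaurentSeries ℚ)⁻¹, b, a, ha, hinv⟩, rfl, ?_⟩
  have h2 := rho_spec ℓ ⟨(x : LaurentSeries ℚ)⁻¹, b, a, ha, hinv⟩ b a ha hinv
  have h3 : rho ℓ ⟨(x : LaurentSeries ℚ)⁻¹, b, a, ha, hinv⟩ * rho ℓ x * toF ℓ b = toF ℓ b := by
    rw [mul_assoc, hspec, h2]
  have h4 : rho ℓ ⟨(x : LaurentSeries ℚ)⁻¹, b, a, ha, hinv⟩ * rho ℓ x = 1 :=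
    mul_right_cancel₀ hb (by rw [h3, one_mul])
  exact eq_inv_of_mul_eq_one_left h4

theorem fundIneq_natCast_ne_zero : ((ℓ : ℤ) : LaurentSeries ℚ) ≠ 0 := by
  have : CharZero (LaurentSeries ℚ) :=
    charZero_of_injective_algebraMap (algebraMap ℚ (LaurentSeries ℚ)).injective
  exact_mod_cast (Fact.out : ℓ.Prime).ne_zero

theorem fundIneq_jd_mem_Vw (d : ℕ) : jd ℚ d ∈ Vw ℓ := by
  rw [← coeffMap_jd (GaloisRep.ratLocalizedAt ℓ).subtype d]
  exact toQ_mem_Vw ℓ (jd (Oℓ ℓ) d)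

theorem fundIneq_rho_jd (d : ℕ) :
    rho ℓ ⟨jd ℚ d, fundIneq_jd_mem_Vw ℓ d⟩ = jd (ZMod ℓ) d := by
  have h : (⟨jd ℚ d, fundIneq_jd_mem_Vw ℓ d⟩ : Vw ℓ)
      = ⟨toQ ℓ (jd (Oℓ ℓ) d), toQ_mem_Vw ℓ _⟩ :=
    Subtype.ext (coeffMap_jd (GaloisRep.ratLocalizedAt ℓ).subtype d).symm
  rw [h, rho_toQ]
  exact coeffMap_jd (red ℓ) d

theorem fundIneq_jd_transc (d : ℕ) (hd : d ≠ 0) :
    Transcendental (ZMod ℓ) (jd (ZMod ℓ) d) := by
  have : NeZero d := ⟨hd⟩
  have h1 : Transcendental (ZMod ℓ) (jqModC (ZMod ℓ)) :=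
    P2MW.S_ModularCurve_coeff_jqModC_neg_one.ModularCurve.CharLRows.transcendental_jqModC
      (ZMod ℓ)
  have h2 : jd (ZMod ℓ) d = qExpandAlgHomC (ZMod ℓ) d (jqModC (ZMod ℓ)) := by
    rw [jd, V_eq_qExpand]
    rfl
  rw [h2]
  exact fun h => h1 ((isAlgebraic_algHom_iff _ (qExpand_injective d)).mp h)

theorem fundIneq_Qj_le_Ft {M d0 : ℕ} (hd0 : d0 ∣ M) : Qj d0 ≤ (Ft M).toSubfield :=
  Subfield.closure_le.mpr (Set.singleton_subset_iff.mpr (jd_mem_Ft hd0))

theorem fundIneq_kj_le_kappa {M d0 : ℕ} (hd0 : d0 ∣ M) : kj ℓ d0 ≤ kappa ℓ M :=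
  Subfield.closure_le.mpr (Set.singleton_subset_iff.mpr
    ⟨⟨jd ℚ d0, fundIneq_jd_mem_Vw ℓ d0⟩, jd_mem_Ft hd0, fundIneq_rho_jd ℓ d0⟩)

/-- fundamental inequality: residue degree ≤ degree. -/
theorem relrank_kappa_le (M d0 : ℕ) (hM : 0 < M) (hd0 : d0 ∣ M) :
    Subfield.relrank (kj ℓ d0) (kappa ℓ M) ≤ Subfield.relrank (Qj d0) (Ft M).toSubfield := by
  have hd0' : d0 ≠ 0 := by
    rintro rfl
    exact hM.ne' (Nat.eq_zero_of_zero_dvd hd0)
  refine fundIneq_relrank_le_aux ℓ (Vw ℓ) (rho ℓ) (fundIneq_natCast_ne_zero ℓ)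
    ⟨jd ℚ d0, fundIneq_jd_mem_Vw ℓ d0⟩ ?_ (Qj d0)
    (Ft M).toSubfield (fundIneq_Qj_le_Ft hd0) rfl (kj ℓ d0) (kappa ℓ M)
    (fundIneq_kj_le_kappa ℓ hd0) ?_ ?_
  · rw [fundIneq_rho_jd]
    exact fundIneq_jd_transc ℓ d0 hd0'
  · rw [fundIneq_rho_jd]
    exact Subfield.subset_closure rfl
  · rintro x ⟨v, hv, rfl⟩
    exact ⟨v, hv, rfl⟩

/-- if the residue degree equals the degree `n`, then `Vw ∩ Ft M` is a finite module over the
Gauss valuation ring of `ℚ(t)`; consequence for integrality over `ℤ_(ℓ)[t]`, `t = j(q^d0)^{±1}`. -/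
theorem isIntegralElem_of_relrank (M d0 : ℕ) (hM : 0 < M) (hd0 : d0 ∣ M) (n : ℕ)
    (hUB : Subfield.relrank (Qj d0) (Ft M).toSubfield ≤ (n : Cardinal))
    (hLB : (n : Cardinal) ≤ Subfield.relrank (kj ℓ d0) (kappa ℓ M))
    (t : LaurentSeries ℚ) (ht : t = jd ℚ d0 ∨ t = (jd ℚ d0)⁻¹)
    (z : LaurentSeries ℚ) (hz : z ∈ Ft M) (hzV : z ∈ Vw ℓ) :
    ∃ Q : Polynomial (Oℓ ℓ), Q.map (red ℓ) ≠ 0 ∧
      (evJ ℓ t).IsIntegralElem (evJ ℓ t Q * z) := by
  have hd0' : d0 ≠ 0 := by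
    rintro rfl
    exact hM.ne' (Nat.eq_zero_of_zero_dvd hd0)
  obtain ⟨τ, hτt, hτ, hτa, hA⟩ : ∃ τ : Vw ℓ, (τ : LaurentSeries ℚ) = t ∧
      Transcendental (ZMod ℓ) (rho ℓ τ) ∧ rho ℓ τ ∈ kj ℓ d0 ∧
      Qj d0 = Subfield.closure {(τ : LaurentSeries ℚ)} := by
    rcases ht with rfl | rfl
    · refine ⟨⟨jd ℚ d0, fundIneq_jd_mem_Vw ℓ d0⟩, rfl, ?_, ?_, rfl⟩
      · rw [fundIneq_rho_jd]
        exact fundIneq_jd_transc ℓ d0 hd0'
      · rw [fundIneq_rho_jd]
        exact Subfield.subset_closure rfl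
    · have htr := fundIneq_jd_transc ℓ d0 hd0'
      have h0 : rho ℓ ⟨jd ℚ d0, fundIneq_jd_mem_Vw ℓ d0⟩ ≠ 0 := by
        rw [fundIneq_rho_jd]
        intro h0'
        exact htr (h0' ▸ isAlgebraic_zero)
      obtain ⟨x', hx', hρ⟩ := fundIneq_inv_mem ℓ _ h0
      rw [fundIneq_rho_jd] at hρ
      refine ⟨x', hx', ?_, ?_, ?_⟩
      · rw [hρ]
        intro halg
        exact htr (by simpa using halg.inv)
      · rw [hρ]
        exact inv_mem (Subfield.subset_closure rfl)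
      · rw [hx']
        show Subfield.closure {jd ℚ d0} = Subfield.closure {(jd ℚ d0)⁻¹}
        apply le_antisymm
        · apply Subfield.closure_le.mpr
          rw [Set.singleton_subset_iff]
          have := inv_mem (Subfield.subset_closure (Set.mem_singleton ((jd ℚ d0)⁻¹)))
          rwa [inv_inv] at this
        · exact Subfield.closure_le.mpr
            (Set.singleton_subset_iff.mpr (inv_mem (Subfield.subset_closure rfl)))
  obtain ⟨Q, hQ, hint⟩ := fundIneq_integral_aux ℓ (Vw ℓ) (rho ℓ)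
    (fundIneq_natCast_ne_zero ℓ) τ hτ (Qj d0)
    (Ft M).toSubfield (fundIneq_Qj_le_Ft hd0) hA (kj ℓ d0) (kappa ℓ M)
    (fundIneq_kj_le_kappa ℓ hd0) hτa
    (by
      rintro x ⟨v, hv, rfl⟩
      exact ⟨v, hv, rfl⟩) n hUB hLB ⟨z, hzV⟩ hz
  rw [hτt] at hint
  have hev : ∀ P : ℤ[X], evJ ℓ t (P.map (Int.castRingHom (Oℓ ℓ)))
      = Polynomial.eval₂RingHom (Int.castRingHom (LaurentSeries ℚ)) t P := by
    intro P
    rw [evJ, Polynomial.coe_eval₂RingHom, Polynomial.eval₂_map, Polynomial.coe_eval₂RingHom]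
    congr 1
    exact RingHom.ext_int _ _
  refine ⟨Q.map (Int.castRingHom (Oℓ ℓ)), ?_, ?_⟩
  · rw [Polynomial.map_map]
    rwa [RingHom.ext_int ((red ℓ).comp (Int.castRingHom (Oℓ ℓ))) (Int.castRingHom (ZMod ℓ))]
  · rw [hev]
    obtain ⟨p, hp, hp0⟩ := hint
    refine ⟨p.map (Polynomial.mapRingHom (Int.castRingHom (Oℓ ℓ))), hp.map _, ?_⟩
    rw [Polynomial.eval₂_map]
    have hcomp : (evJ ℓ t).comp (Polynomial.mapRingHom (Int.castRingHom (Oℓ ℓ)))
        = Polynomial.eval₂RingHom (Int.castRingHom (LaurentSeries ℚ)) t :=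
      RingHom.ext fun P => hev P
    rw [hcomp]
    exact hp0

end W8

end Fermat.Agent.S28
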