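import Mathlib

/-!
# S28 / W10: abstract field theory

* `irreducible_of_roots`
* `le_relrank_of_irreducible`
-/

set_option autoImplicit false

noncomputable section

namespace Fermat.Agent.S28

open Polynomial

namespace Factor

variable {L : Type} [Field L]

/-- a nonzero polynomial over `E` vanishing at `x` has degree at least `p`. -/
theorem le_natDegree_of_root (E : Subfield L) (p : ℕ) (x : L)
    (hx : ∀ g : Polynomial L, (∀ i, g.coeff i ∈ E) → g.natDegree < p → g.eval x = 0 → g = 0)
    (h : Polynomial E) (h0 : h ≠ 0) (hroot : (h.map E.subtype).eval x = 0) :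
    p ≤ h.natDegree := by
  by_contra hlt
  rw [not_le] at hlt
  have hinj : Function.Injective E.subtype := Subtype.val_injective
  have := hx (h.map E.subtype) (fun i => by rw [coeff_map]; exact (h.coeff i).2)
    (by rw [natDegree_map_eq_of_injective hinj]; exact hlt) hroot
  exact h0 ((Polynomial.map_eq_zero_iff hinj).1 this)

/-- a polynomial `g` over `E` with root `c ∈ E` and a further root `x ≠ c` (of degree `≥ p` over
`E`) has degree at least `p + 1`. -/
theorem succ_le_natDegree_of_two_roots (E : Subfield L) (p : ℕ) (x : L)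
    (hx : ∀ g : Polynomial L, (∀ i, g.coeff i ∈ E) → g.natDegree < p → g.eval x = 0 → g = 0)
    (c : E) (hxc : x ≠ (c : L))
    (g : Polynomial E) (g0 : g ≠ 0) (hgc : g.eval c = 0) (hgx : (g.map E.subtype).eval x = 0) :
    p + 1 ≤ g.natDegree := by
  obtain ⟨h, rfl⟩ := (dvd_iff_isRoot (p := g) (a := c)).2 hgc
  have hh0 : h ≠ 0 := right_ne_zero_of_mul g0
  have hX0 : (X - C c : Polynomial E) ≠ 0 := X_sub_C_ne_zero c
  rw [Polynomial.map_mul, eval_mul] at hgx
  have hhx : (h.map E.subtype).eval x = 0 := by
    rcases mul_eq_zero.1 hgx with h1 | h1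
    · exfalso
      simp only [Polynomial.map_sub, map_X, map_C, eval_sub, eval_X, eval_C] at h1
      exact hxc (sub_eq_zero.1 h1)
    · exact h1
  have := le_natDegree_of_root E p x hx h hh0 hhx
  rw [natDegree_mul hX0 hh0, natDegree_X_sub_C]
  omega

end Factor

/-- `f ∈ k[X]` monic of degree ≤ p+1 with a root `c ∈ E ⊇ k`, `c ∉ k`, and a root `x` of degree
≥ p over `E`: then `f` is irreducible over `k` of degree exactly `p + 1`. -/
theorem irreducible_of_roots {L : Type} [Field L] (k E : Subfield L) (hkE : k ≤ E) (p : ℕ)
    (hp : 2 ≤ p) (f : Polynomial k) (hf : f.Monic) (hdeg : f.natDegree ≤ p + 1)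
    (c x : L) (hc : c ∈ E) (hfc : (f.map k.subtype).eval c = 0)
    (hfx : (f.map k.subtype).eval x = 0)
    (hx : ∀ g : Polynomial L, (∀ i, g.coeff i ∈ E) → g.natDegree < p → g.eval x = 0 → g = 0)
    (hck : c ∉ k) : Irreducible f ∧ f.natDegree = p + 1 := by
  classical
  set ι : k →+* E := Subfield.inclusion hkE with hι
  have hιinj : Function.Injective ι := ι.injective
  have hcomp : E.subtype.comp ι = k.subtype := rfl
  -- `x ∉ E`
  have hxE : x ∉ E := by
    intro hxE
    have := Factor.le_natDegree_of_root E p x hx (X - C ⟨x, hxE⟩) (X_sub_C_ne_zero _)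
      (by simp)
    rw [natDegree_X_sub_C] at this
    omega
  have hxc : x ≠ ((⟨c, hc⟩ : E) : L) := fun h => hxE (h ▸ hc)
  -- transfer of roots to `E[X]`
  have evalc : ∀ g : Polynomial k, (g.map k.subtype).eval c = 0 →
      (g.map ι).eval (⟨c, hc⟩ : E) = 0 := by
    intro g hg
    apply Subtype.val_injective
    have : E.subtype ((g.map ι).eval (⟨c, hc⟩ : E)) = ((g.map ι).map E.subtype).eval c :=
      (Polynomial.eval_map_apply (p := g.map ι) E.subtype (⟨c, hc⟩ : E)).symm
    change E.subtype ((g.map ι).eval (⟨c, hc⟩ : E)) = _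
    rw [this, Polynomial.map_map, hcomp, hg]
    rfl
  have evalx : ∀ g : Polynomial k, (g.map k.subtype).eval x = 0 →
      ((g.map ι).map E.subtype).eval x = 0 := by
    intro g hg
    rw [Polynomial.map_map, hcomp, hg]
  have hdegf : f.natDegree = p + 1 := by
    have h1 := Factor.succ_le_natDegree_of_two_roots E p x hx ⟨c, hc⟩ hxc (f.map ι)
      ((Polynomial.map_ne_zero_iff hιinj).2 hf.ne_zero) (evalc f hfc) (evalx f hfx)
    rw [natDegree_map_eq_of_injective hιinj] at h1
    omega
  refine ⟨?_, hdegf⟩
  have hf0 : f ≠ 0 := hf.ne_zero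
  have hnu : ¬ IsUnit f := by
    intro hu
    have := natDegree_eq_zero_of_isUnit hu
    omega
  refine ⟨hnu, ?_⟩
  -- main claim: in a factorisation `f = a * b` with `x` a root of `a`, `b` is a unit
  have main : ∀ a b : Polynomial k, f = a * b → (a.map k.subtype).eval x = 0 → IsUnit b := by
    intro a b hab hax
    have ha0 : a ≠ 0 := by rintro rfl; simp at hab; exact hf0 hab
    have hb0 : b ≠ 0 := by rintro rfl; simp at hab; exact hf0 hab
    have hdeg_ab : a.natDegree + b.natDegree = p + 1 := by
      rw [← natDegree_mul ha0 hb0, ← hab, hdegf]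
    have haE0 : a.map ι ≠ 0 := (Polynomial.map_ne_zero_iff hιinj).2 ha0
    have hap : p ≤ a.natDegree := by
      have := Factor.le_natDegree_of_root E p x hx (a.map ι) haE0 (evalx a hax)
      rwa [natDegree_map_eq_of_injective hιinj] at this
    by_contra hbu
    have hb1 : b.natDegree = 1 := by
      have : b.natDegree ≠ 0 := by
        intro h0
        apply hbu
        rw [natDegree_eq_zero] at h0
        obtain ⟨r, rfl⟩ := h0
        have hr : r ≠ 0 := by rintro rfl; simp at hb0
        exact isUnit_C.2 (isUnit_iff_ne_zero.2 hr)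
      omega
    -- `c` is a root of `a` or `b`
    have hfc' : (a.map k.subtype).eval c * (b.map k.subtype).eval c = 0 := by
      rw [← eval_mul, ← Polynomial.map_mul, ← hab]; exact hfc
    rcases mul_eq_zero.1 hfc' with hac | hbc
    · have := Factor.succ_le_natDegree_of_two_roots E p x hx ⟨c, hc⟩ hxc (a.map ι) haE0
        (evalc a hac) (evalx a hax)
      rw [natDegree_map_eq_of_injective hιinj] at this
      omega
    · -- `b` linear with root `c` forces `c ∈ k`
      apply hck
      have hb : b = C (b.coeff 1) * X + C (b.coeff 0) :=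
        eq_X_add_C_of_natDegree_le_one hb1.le
      have hlc : b.coeff 1 ≠ 0 := by
        have := leadingCoeff_ne_zero.2 hb0
        rwa [leadingCoeff, hb1] at this
      rw [hb] at hbc
      simp only [Polynomial.map_add, Polynomial.map_mul, map_C, map_X, eval_add, eval_mul, eval_C,
        eval_X, Subfield.coe_subtype] at hbc
      have hlc' : ((b.coeff 1 : k) : L) ≠ 0 := fun h => hlc (Subtype.val_injective h)
      have hceq : c = ((-(b.coeff 0) / (b.coeff 1) : k) : L) := by
        push_cast
        field_simp
        linear_combination hbc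
      rw [hceq]
      exact (-(b.coeff 0) / (b.coeff 1) : k).2
  intro a b hab
  have hfx' : (a.map k.subtype).eval x * (b.map k.subtype).eval x = 0 := by
    rw [← eval_mul, ← Polynomial.map_mul, ← hab]; exact hfx
  rcases mul_eq_zero.1 hfx' with h | h
  · exact Or.inr (main a b hab h)
  · exact Or.inl (main b a (by rw [hab, mul_comm]) h)

theorem le_relrank_of_irreducible {L : Type} [Field L] (k B : Subfield L) (hkB : k ≤ B)
    (f : Polynomial k) (hf : Irreducible f) (y : L) (hy : y ∈ B)
    (hfy : (f.map k.subtype).eval y = 0) :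
    (f.natDegree : Cardinal) ≤ Subfield.relrank k B := by
  classical
  rw [Subfield.relrank_eq_rank_of_le hkB]
  have haeval : Polynomial.aeval y f = 0 := by
    rw [← hfy, Polynomial.aeval_def, Polynomial.eval_map]
    rfl
  have hf0 : f ≠ 0 := hf.ne_zero
  have hint : IsIntegral k y := by
    refine ⟨f * C f.leadingCoeff⁻¹, monic_mul_leadingCoeff_inv hf0, ?_⟩
    rw [← Polynomial.aeval_def, map_mul, haeval, zero_mul]
  have hmin : (minpoly k y).natDegree = f.natDegree := by
    rw [← minpoly.eq_of_irreducible hf haeval]
    rw [natDegree_mul_C (inv_ne_zero (leadingCoeff_ne_zero.2 hf0))]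
  have hle : IntermediateField.adjoin k {y} ≤ Subfield.extendScalars hkB := by
    rw [IntermediateField.adjoin_simple_le_iff]
    exact (Subfield.mem_extendScalars hkB).2 hy
  have hrank : Module.rank k (IntermediateField.adjoin k {y}) = (f.natDegree : Cardinal) := by
    have : FiniteDimensional k (IntermediateField.adjoin k {y}) :=
      IntermediateField.adjoin.finiteDimensional hint
    rw [← Module.finrank_eq_rank, IntermediateField.adjoin.finrank hint, hmin]
  rw [← hrank]
  exact LinearMap.rank_le_of_injective (IntermediateField.inclusion hle).toLinearMap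
    (IntermediateField.inclusion_injective hle)

end Fermat.Agent.S28
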