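import Mathlib
import Fermat.Agent.S28.Defs

/-!
# S28, work package W9: ramification in `k((q))`

If `ord_q x` is prime to `d`, then `1, x, …, x^(d-1)` are linearly independent over the subfield
`k((q^d))` of `k((q))` (the nonzero terms of a linear combination have pairwise distinct orders
modulo `d`).
-/

set_option autoImplicit false

open ModularCurve

namespace Fermat.Agent.S28

/-- A finite family of Laurent series whose nonzero members have pairwise distinct orders and
whose sum is zero consists of zeros. -/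
theorem ramification_sum_eq_zero {k : Type*} [Field k] {ι : Type*} (s : Finset ι)
    (t : ι → LaurentSeries k)
    (hinj : ∀ i ∈ s, ∀ j ∈ s, t i ≠ 0 → t j ≠ 0 → (t i).order = (t j).order → i = j)
    (hsum : ∑ i ∈ s, t i = 0) : ∀ i ∈ s, t i = 0 := by
  classical
  by_contra hcon
  push Not at hcon
  obtain ⟨i1, hi1, hi1'⟩ := hcon
  have hne : (s.filter fun i => t i ≠ 0).Nonempty := ⟨i1, Finset.mem_filter.mpr ⟨hi1, hi1'⟩⟩
  obtain ⟨i0, hi0, hmin⟩ := Finset.exists_min_image _ (fun i => (t i).order) hne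
  rw [Finset.mem_filter] at hi0
  have hc := congrArg (fun y => HahnSeries.coeff y (t i0).order) hsum
  simp only [HahnSeries.coeff_sum, HahnSeries.coeff_zero] at hc
  rw [Finset.sum_eq_single i0] at hc
  · exact hi0.2 (HahnSeries.coeff_order_eq_zero.mp hc)
  · intro j hj hji
    by_cases hj0 : t j = 0
    · rw [hj0, HahnSeries.coeff_zero]
    · apply HahnSeries.coeff_eq_zero_of_lt_order
      have hle := hmin j (Finset.mem_filter.mpr ⟨hj, hj0⟩)
      exact lt_of_le_of_ne hle (fun h => hji (hinj j hj i0 hi0.1 hj0 hi0.2 h.symm))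
  · intro h
    exact absurd hi0.1 h

/-- The order of a series in `q^d` is divisible by `d`. -/
theorem ramification_dvd_order_V {k : Type*} [Field k] (d : ℕ) (hd : d ≠ 0)
    (a : LaurentSeries k) : (d : ℤ) ∣ (V k d a).order := by
  have : NeZero d := ⟨hd⟩
  by_cases h0 : V k d a = 0
  · rw [h0, HahnSeries.order_zero]
    exact dvd_zero _
  · by_contra hdvd
    have h1 : (V k d a).coeff (V k d a).order = 0 := by
      rw [V_eq_qExpand] at hdvd ⊢
      exact qExpand_coeff_of_not_dvd d a hdvd
    exact h0 (HahnSeries.coeff_order_eq_zero.mp h1)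

/-- Linear independence of `1, x, …, x^(d-1)` over `k((q^d))`, sum form. -/
theorem ramification_sum {k : Type} [Field k] (d : ℕ) (hd : 0 < d) (x : LaurentSeries k)
    (hx : x ≠ 0) (hord : Nat.Coprime x.order.natAbs d) (c : Fin d → LaurentSeries k)
    (hc : ∀ i, c i ∈ Set.range (V k d)) (h0 : ∑ i : Fin d, c i * x ^ (i : ℕ) = 0) :
    ∀ i, c i = 0 := by
  have hcop : IsCoprime (d : ℤ) x.order := by
    rw [Int.isCoprime_iff_gcd_eq_one]
    show Nat.gcd (d : ℤ).natAbs x.order.natAbs = 1
    rw [Int.natAbs_natCast, Nat.gcd_comm]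
    exact hord
  have key := ramification_sum_eq_zero Finset.univ (fun i : Fin d => c i * x ^ (i : ℕ)) ?_ h0
  · intro i
    rcases mul_eq_zero.mp (key i (Finset.mem_univ i)) with h | h
    · exact h
    · exact absurd h (pow_ne_zero _ hx)
  · intro i _ j _ hti htj hij
    have hci : c i ≠ 0 := left_ne_zero_of_mul hti
    have hcj : c j ≠ 0 := left_ne_zero_of_mul htj
    rw [HahnSeries.order_mul hci (pow_ne_zero _ hx), HahnSeries.order_mul hcj (pow_ne_zero _ hx),
      HahnSeries.order_pow, HahnSeries.order_pow, nsmul_eq_mul, nsmul_eq_mul] at hij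
    obtain ⟨ai, hai⟩ := hc i
    obtain ⟨aj, haj⟩ := hc j
    obtain ⟨ui, hui⟩ := ramification_dvd_order_V d hd.ne' ai
    obtain ⟨uj, huj⟩ := ramification_dvd_order_V d hd.ne' aj
    rw [← hai, ← haj, hui, huj] at hij
    have hdvd : (d : ℤ) ∣ (((i : ℕ) : ℤ) - ((j : ℕ) : ℤ)) * x.order :=
      ⟨uj - ui, by linear_combination hij⟩
    have hdvd' : (d : ℤ) ∣ ((i : ℕ) : ℤ) - ((j : ℕ) : ℤ) := hcop.dvd_of_dvd_mul_right hdvd
    have hlt : |((i : ℕ) : ℤ) - ((j : ℕ) : ℤ)| < (d : ℤ) := by
      rw [abs_lt]
      have hi := i.2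
      have hj := j.2
      constructor <;> omega
    have hz := Int.eq_zero_of_abs_lt_dvd hdvd' hlt
    apply Fin.ext
    omega

/-- if `ord_q(x)` is prime to `d`, then `1, x, …, x^(d-1)` are linearly independent over `k((q^d))`
(distinct orders mod `d`). -/
theorem ramification_poly {k : Type} [Field k] (d : ℕ) (hd : 0 < d) (x : LaurentSeries k)
    (hx : x ≠ 0) (hord : Nat.Coprime x.order.natAbs d) (f : Polynomial (LaurentSeries k))
    (hf : ∀ i, f.coeff i ∈ Set.range (V k d)) (hdeg : f.natDegree < d) (h0 : f.eval x = 0) :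
    f = 0 := by
  rw [Polynomial.eval_eq_sum_range' hdeg, Finset.sum_range] at h0
  have key := ramification_sum d hd x hx hord (fun i : Fin d => f.coeff (i : ℕ))
    (fun i => hf i) h0
  apply Polynomial.ext
  intro i
  rw [Polynomial.coeff_zero]
  by_cases hi : i < d
  · exact key ⟨i, hi⟩
  · exact Polynomial.coeff_eq_zero_of_natDegree_lt (by omega)

theorem ramification_relrank {k : Type} [Field k] (d : ℕ) (hd : 0 < d)
    (A B : Subfield (LaurentSeries k)) (hA : ∀ a ∈ A, a ∈ Set.range (V k d))
    (x : LaurentSeries k) (hxB : x ∈ B) (hx : x ≠ 0) (hord : Nat.Coprime x.order.natAbs d) :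
    (d : Cardinal) ≤ Subfield.relrank A B := by
  rw [Subfield.relrank]
  let v : Fin d → ↥(Subfield.extendScalars (inf_le_right : A ⊓ B ≤ B)) :=
    fun i => ⟨x ^ (i : ℕ), pow_mem hxB i⟩
  have hli : LinearIndependent ↥(A ⊓ B) v := by
    rw [Fintype.linearIndependent_iff]
    intro g hg
    have h1 : ∑ i : Fin d, ((g i : ↥(A ⊓ B)) : LaurentSeries k) * x ^ (i : ℕ) = 0 := by
      have h2 := congrArg
        (fun y : ↥(Subfield.extendScalars (inf_le_right : A ⊓ B ≤ B)) => (y : LaurentSeries k)) hg
      simp only [v, Algebra.smul_def, AddSubmonoidClass.coe_finsetSum, MulMemClass.coe_mul] at h2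
      exact h2
    have key := ramification_sum d hd x hx hord
      (fun i : Fin d => ((g i : ↥(A ⊓ B)) : LaurentSeries k)) (fun i => hA _ (g i).2.1) h1
    intro i
    exact Subtype.ext (key i)
  have hcard := hli.cardinal_le_rank
  simpa using hcard

end Fermat.Agent.S28
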