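import Mathlib
import Fermat.Agent.S28.Defs
import Fermat.Agent.S28.SturmDegree
import Fermat.Agent.S28.Index
import Fermat.Agent.S28.BoundedDegree

/-!
S28: assembly of W2 (index bound), W4 (Sturm degree bound) and W5 (bounded degree):
`[Ft M : ℚ(j(q^d0))] ≤ ψ(M)`.
-/

set_option autoImplicit false

open ModularCurve

noncomputable section

namespace Fermat.Agent.S28

theorem relrank_Ft_le (M d0 : ℕ) (hM : 0 < M) (hd0 : d0 ∣ M) :
    Subfield.relrank (Qj d0) (Ft M).toSubfield ≤ (psi M : Cardinal) := by
  have hle : Qj d0 ≤ (Ft M).toSubfield := by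
    rw [Qj, Subfield.closure_le]
    rintro x rfl
    exact jd_mem_Ft hd0
  refine (@relrank_le_of_forall_degree_le (LaurentSeries ℚ) _
    (charZero_of_injective_ringHom (HahnSeries.C : ℚ →+* LaurentSeries ℚ).injective)
    (Qj d0) (Ft M).toSubfield hle (CongruenceSubgroup.Gamma0 M).index ?_).trans ?_
  · intro x hx
    exact exists_poly_of_mem_Ft M d0 hM hd0 x hx
  · exact_mod_cast index_Gamma0_le_psi M hM

end Fermat.Agent.S28
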