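import Mathlib
import Fermat.Agent.S28.Defs

/-!
# S28, work package W7: API of the Gauss valuation ring `Vw`, its residue map `rho`,
and the residue fields `kappa`, `kj`.
-/

set_option autoImplicit false

open ModularCurve

noncomputable section

namespace Fermat.Agent.S28

section W7

variable (ℓ : ℕ) [Fact ℓ.Prime]

/-! ### Elementary facts on `ℤ_(ℓ)` -/

theorem valRing_red_natCast_self : red ℓ (ℓ : Oℓ ℓ) = 0 := by
  rw [map_natCast]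
  exact ZMod.natCast_self ℓ

theorem valRing_natCast_ne_zero : (ℓ : Oℓ ℓ) ≠ 0 := by
  intro h
  have h2 : ((ℓ : Oℓ ℓ) : ℚ) = 0 := by rw [h]; rfl
  rw [Subring.coe_natCast] at h2
  exact (Fact.out : ℓ.Prime).ne_zero (by exact_mod_cast h2)

/-- An element of `ℤ_(ℓ)` reduces to zero iff it is divisible by `ℓ`. -/
theorem valRing_red_eq_zero_iff (c : Oℓ ℓ) :
    red ℓ c = 0 ↔ ∃ c' : Oℓ ℓ, c = (ℓ : Oℓ ℓ) * c' := by
  constructor
  · intro h
    rw [red_apply, Rat.cast_def, div_eq_zero_iff] at h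
    rcases h with h | h
    · rw [ZMod.intCast_zmod_eq_zero_iff_dvd] at h
      obtain ⟨m, hm⟩ := h
      have hden0 : ((c : ℚ).den : ℚ) ≠ 0 := Nat.cast_ne_zero.mpr (c : ℚ).den_ne_zero
      refine ⟨⟨(m : ℚ) / (c : ℚ).den, ?_⟩, ?_⟩
      · show ((m : ℚ) / ((c : ℚ).den : ℚ)).den.Coprime ℓ
        have h1 : (((m : ℚ) / ((c : ℚ).den : ℚ)).den : ℤ) ∣ ((c : ℚ).den : ℤ) := by
          have := Rat.den_dvd m ((c : ℚ).den : ℤ)
          rwa [Rat.divInt_eq_div, Int.cast_natCast] at this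
        exact Nat.Coprime.coprime_dvd_left (Int.natCast_dvd_natCast.mp h1) c.2
      · apply Subtype.ext
        rw [Subring.coe_mul, Subring.coe_natCast]
        show (c : ℚ) = (ℓ : ℚ) * ((m : ℚ) / ((c : ℚ).den : ℚ))
        rw [eq_comm, mul_div_assoc', div_eq_iff hden0, Rat.mul_den_eq_num, hm]
        push_cast
        rfl
    · exact absurd h (natCast_den_ne_zero ℓ c)
  · rintro ⟨c', rfl⟩
    rw [map_mul, valRing_red_natCast_self, zero_mul]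

theorem valRing_natCast_laurent_zmod : (ℓ : LaurentSeries (ZMod ℓ)) = 0 := by
  rw [← map_natCast (HahnSeries.C : ZMod ℓ →+* LaurentSeries (ZMod ℓ)), ZMod.natCast_self,
    map_zero]

theorem valRing_toF_natCast_self : toF ℓ (ℓ : LaurentSeries (Oℓ ℓ)) = 0 := by
  rw [map_natCast]
  exact valRing_natCast_laurent_zmod ℓ

theorem valRing_natCast_mul_coeff (a : LaurentSeries (Oℓ ℓ)) (n : ℤ) :
    ((ℓ : LaurentSeries (Oℓ ℓ)) * a).coeff n = (ℓ : Oℓ ℓ) * a.coeff n := by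
  rw [← map_natCast (HahnSeries.C : Oℓ ℓ →+* LaurentSeries (Oℓ ℓ)), HahnSeries.C_mul_eq_smul,
    HahnSeries.coeff_smul, smul_eq_mul]

theorem toF_eq_zero_iff (a : LaurentSeries (Oℓ ℓ)) :
    toF ℓ a = 0 ↔ ∃ a' : LaurentSeries (Oℓ ℓ), a = (ℓ : LaurentSeries (Oℓ ℓ)) * a' := by
  classical
  constructor
  · intro h
    have hc : ∀ n : ℤ, ∃ c' : Oℓ ℓ, a.coeff n = (ℓ : Oℓ ℓ) * c' := by
      intro n
      rw [← valRing_red_eq_zero_iff]
      have := congrArg (fun z => HahnSeries.coeff z n) h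
      simpa [toF] using this
    -- the division-by-`ℓ` map on coefficients
    let g : Oℓ ℓ → Oℓ ℓ := fun c =>
      if hc' : ∃ c' : Oℓ ℓ, c = (ℓ : Oℓ ℓ) * c' then Classical.choose hc' else 0
    have hg : ∀ c : Oℓ ℓ, (∃ c' : Oℓ ℓ, c = (ℓ : Oℓ ℓ) * c') → c = (ℓ : Oℓ ℓ) * g c := by
      intro c hc'
      show c = (ℓ : Oℓ ℓ) * (if hc' : ∃ c' : Oℓ ℓ, c = (ℓ : Oℓ ℓ) * c' then
        Classical.choose hc' else 0)
      rw [dif_pos hc']
      exact Classical.choose_spec hc'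
    have hg0 : g 0 = 0 := by
      have h0 := hg 0 ⟨0, by rw [mul_zero]⟩
      rcases mul_eq_zero.mp h0.symm with h1 | h1
      · exact absurd h1 (valRing_natCast_ne_zero ℓ)
      · exact h1
    refine ⟨a.map (⟨g, hg0⟩ : ZeroHom (Oℓ ℓ) (Oℓ ℓ)), ?_⟩
    refine HahnSeries.ext (funext fun n => ?_)
    rw [valRing_natCast_mul_coeff, HahnSeries.map_coeff]
    exact hg _ (hc n)
  · rintro ⟨a', rfl⟩
    rw [map_mul, valRing_toF_natCast_self, zero_mul]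

/-! ### Basic facts on `Vw` and `rho` -/

theorem valRing_toQ_ne_zero {a : LaurentSeries (Oℓ ℓ)} (ha : a ≠ 0) : toQ ℓ a ≠ 0 := fun h =>
  ha (toQ_injective ℓ (by rw [h, map_zero]))

theorem valRing_ne_zero_of_toF_ne_zero {a : LaurentSeries (Oℓ ℓ)} (ha : toF ℓ a ≠ 0) : a ≠ 0 :=
  fun h => ha (by rw [h, map_zero])

theorem valRing_rho_eq_div (x : Vw ℓ) (a b : LaurentSeries (Oℓ ℓ)) (hb : toF ℓ b ≠ 0)
    (h : (x : LaurentSeries ℚ) * toQ ℓ b = toQ ℓ a) : rho ℓ x = toF ℓ a / toF ℓ b := by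
  rw [eq_div_iff hb]
  exact rho_spec ℓ x a b hb h

theorem valRing_rho_eq_toF (x : Vw ℓ) (a : LaurentSeries (Oℓ ℓ))
    (h : (x : LaurentSeries ℚ) = toQ ℓ a) : rho ℓ x = toF ℓ a := by
  have := valRing_rho_eq_div ℓ x a 1 (by simp) (by simp [h])
  simpa using this

theorem valRing_toQ_natCast (n : ℕ) : toQ ℓ (n : LaurentSeries (Oℓ ℓ)) = (n : LaurentSeries ℚ) :=
  map_natCast _ n

theorem natCast_mem_Vw (n : ℕ) : (n : LaurentSeries ℚ) ∈ Vw ℓ := by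
  rw [← valRing_toQ_natCast ℓ n]
  exact toQ_mem_Vw ℓ _

theorem valRing_rho_natCast_self (h : (ℓ : LaurentSeries ℚ) ∈ Vw ℓ) :
    rho ℓ ⟨(ℓ : LaurentSeries ℚ), h⟩ = 0 := by
  rw [valRing_rho_eq_toF ℓ _ (ℓ : LaurentSeries (Oℓ ℓ)) (valRing_toQ_natCast ℓ ℓ).symm]
  exact valRing_toF_natCast_self ℓ

theorem rho_eq_zero_iff (x : Vw ℓ) :
    rho ℓ x = 0 ↔ ∃ y : Vw ℓ, (x : LaurentSeries ℚ) = (ℓ : LaurentSeries ℚ) * y := by
  constructor
  · intro h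
    obtain ⟨a, b, hb, hab⟩ := x.2
    have hspec := rho_spec ℓ x a b hb hab
    rw [h, zero_mul] at hspec
    obtain ⟨a', rfl⟩ := (toF_eq_zero_iff ℓ a).mp hspec.symm
    have hbQ : toQ ℓ b ≠ 0 := valRing_toQ_ne_zero ℓ (valRing_ne_zero_of_toF_ne_zero ℓ hb)
    refine ⟨⟨toQ ℓ a' / toQ ℓ b, a', b, hb, div_mul_cancel₀ _ hbQ⟩, ?_⟩
    show (x : LaurentSeries ℚ) = (ℓ : LaurentSeries ℚ) * (toQ ℓ a' / toQ ℓ b)
    rw [eq_comm, mul_div_assoc', div_eq_iff hbQ, hab, map_mul, valRing_toQ_natCast]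
  · rintro ⟨y, hy⟩
    have hx : x = ⟨(ℓ : LaurentSeries ℚ), natCast_mem_Vw ℓ ℓ⟩ * y := Subtype.ext hy
    rw [hx, map_mul, valRing_rho_natCast_self, zero_mul]

/-! ### `ℓ`-adic factorisation in `ℤ_(ℓ)((q))` and in its fraction field -/

theorem valRing_padicValRat_nonneg (c : Oℓ ℓ) : 0 ≤ padicValRat ℓ (c : ℚ) := by
  rw [padicValRat_def]
  have h : padicValNat ℓ (c : ℚ).den = 0 := by
    apply padicValNat.eq_zero_of_not_dvd
    intro hdvd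
    have hx : (c : ℚ).den.Coprime ℓ := c.2
    have h1 : ℓ ∣ Nat.gcd (c : ℚ).den ℓ := Nat.dvd_gcd hdvd dvd_rfl
    rw [hx] at h1
    exact (Fact.out : ℓ.Prime).one_lt.ne' (Nat.dvd_one.mp h1)
  rw [h]
  simp

theorem valRing_exists_pow_mul_aux (n : ℤ) : ∀ (k : ℕ) (a : LaurentSeries (Oℓ ℓ)),
    a.coeff n ≠ 0 → padicValRat ℓ ((a.coeff n : Oℓ ℓ) : ℚ) ≤ k →
    ∃ (m : ℕ) (a₀ : LaurentSeries (Oℓ ℓ)), toF ℓ a₀ ≠ 0 ∧
      a = (ℓ : LaurentSeries (Oℓ ℓ)) ^ m * a₀ := by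
  intro k
  induction k with
  | zero =>
    intro a ha hk
    by_cases h : toF ℓ a = 0
    · exfalso
      obtain ⟨a', rfl⟩ := (toF_eq_zero_iff ℓ a).mp h
      rw [valRing_natCast_mul_coeff] at ha hk
      have ha' : a'.coeff n ≠ 0 := fun h0 => ha (by rw [h0, mul_zero])
      have hℓ0 : ((ℓ : ℕ) : ℚ) ≠ 0 := Nat.cast_ne_zero.mpr (Fact.out : ℓ.Prime).ne_zero
      have ha'Q : ((a'.coeff n : Oℓ ℓ) : ℚ) ≠ 0 := fun h0 => ha' (Subtype.ext h0)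
      rw [Subring.coe_mul, Subring.coe_natCast, padicValRat.mul hℓ0 ha'Q,
        padicValRat.self (Fact.out : ℓ.Prime).one_lt] at hk
      have := valRing_padicValRat_nonneg ℓ (a'.coeff n)
      simp only [CharP.cast_eq_zero] at hk
      omega
    · exact ⟨0, a, h, by rw [pow_zero, one_mul]⟩
  | succ k ih =>
    intro a ha hk
    by_cases h : toF ℓ a = 0
    · obtain ⟨a', rfl⟩ := (toF_eq_zero_iff ℓ a).mp h
      rw [valRing_natCast_mul_coeff] at ha hk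
      have ha' : a'.coeff n ≠ 0 := fun h0 => ha (by rw [h0, mul_zero])
      have hℓ0 : ((ℓ : ℕ) : ℚ) ≠ 0 := Nat.cast_ne_zero.mpr (Fact.out : ℓ.Prime).ne_zero
      have ha'Q : ((a'.coeff n : Oℓ ℓ) : ℚ) ≠ 0 := fun h0 => ha' (Subtype.ext h0)
      rw [Subring.coe_mul, Subring.coe_natCast, padicValRat.mul hℓ0 ha'Q,
        padicValRat.self (Fact.out : ℓ.Prime).one_lt] at hk
      have hk' : padicValRat ℓ ((a'.coeff n : Oℓ ℓ) : ℚ) ≤ k := by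
        push_cast at hk
        omega
      obtain ⟨m, a₀, h0, rfl⟩ := ih a' ha' hk'
      exact ⟨m + 1, a₀, h0, by rw [pow_succ']; ring⟩
    · exact ⟨0, a, h, by rw [pow_zero, one_mul]⟩

/-- Every nonzero element of `ℤ_(ℓ)((q))` is `ℓ^m` times a series that is nonzero mod `ℓ`. -/
theorem valRing_exists_pow_mul (a : LaurentSeries (Oℓ ℓ)) (ha : a ≠ 0) :
    ∃ (m : ℕ) (a₀ : LaurentSeries (Oℓ ℓ)), toF ℓ a₀ ≠ 0 ∧
      a = (ℓ : LaurentSeries (Oℓ ℓ)) ^ m * a₀ := by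
  have hex : ∃ n : ℤ, a.coeff n ≠ 0 := by
    by_contra hcon
    exact ha (HahnSeries.ext (funext fun n => by
      by_contra hn
      exact hcon ⟨n, hn⟩))
  obtain ⟨n, hn⟩ := hex
  exact valRing_exists_pow_mul_aux ℓ n (padicValRat ℓ ((a.coeff n : Oℓ ℓ) : ℚ)).toNat a hn
    (Int.self_le_toNat _)

theorem valRing_natCast_laurent_rat_ne_zero : (ℓ : LaurentSeries ℚ) ≠ 0 := by
  rw [← map_natCast (algebraMap ℚ (LaurentSeries ℚ)) ℓ]
  intro h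
  have h2 : ((ℓ : ℕ) : ℚ) = 0 := (algebraMap ℚ (LaurentSeries ℚ)).injective (by rw [h, map_zero])
  exact (Fact.out : ℓ.Prime).ne_zero (by exact_mod_cast h2)

/-- every nonzero element of the fraction field of `ℤ_(ℓ)((q))` is `ℓ^k · unit`. -/
theorem exists_zpow_mul_unit (x : LaurentSeries ℚ) (hx0 : x ≠ 0)
    (hx : ∃ a b : LaurentSeries (Oℓ ℓ), b ≠ 0 ∧ x * toQ ℓ b = toQ ℓ a) :
    ∃ (k : ℤ) (u : Vw ℓ), rho ℓ u ≠ 0 ∧ x = (ℓ : LaurentSeries ℚ) ^ k * u := by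
  obtain ⟨a, b, hb, hab⟩ := hx
  have hbQ : toQ ℓ b ≠ 0 := valRing_toQ_ne_zero ℓ hb
  have ha : a ≠ 0 := by
    rintro rfl
    rw [map_zero] at hab
    rcases mul_eq_zero.mp hab with h | h
    · exact hx0 h
    · exact hbQ h
  obtain ⟨m, a₀, ha₀, rfl⟩ := valRing_exists_pow_mul ℓ a ha
  obtain ⟨n, b₀, hb₀, rfl⟩ := valRing_exists_pow_mul ℓ b hb
  have hb₀Q : toQ ℓ b₀ ≠ 0 := valRing_toQ_ne_zero ℓ (valRing_ne_zero_of_toF_ne_zero ℓ hb₀)
  have hℓ := valRing_natCast_laurent_rat_ne_zero ℓ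
  have hu : toQ ℓ a₀ / toQ ℓ b₀ ∈ Vw ℓ := ⟨a₀, b₀, hb₀, div_mul_cancel₀ _ hb₀Q⟩
  refine ⟨(m : ℤ) - n, ⟨toQ ℓ a₀ / toQ ℓ b₀, hu⟩, ?_, ?_⟩
  · have hrho : rho ℓ ⟨toQ ℓ a₀ / toQ ℓ b₀, hu⟩ = toF ℓ a₀ / toF ℓ b₀ :=
      valRing_rho_eq_div ℓ ⟨toQ ℓ a₀ / toQ ℓ b₀, hu⟩ a₀ b₀ hb₀
        (div_mul_cancel₀ (toQ ℓ a₀) hb₀Q)
    rw [hrho]
    exact div_ne_zero ha₀ hb₀
  · show x = (ℓ : LaurentSeries ℚ) ^ ((m : ℤ) - n) * (toQ ℓ a₀ / toQ ℓ b₀)
    rw [map_mul, map_mul, map_pow, map_pow, valRing_toQ_natCast] at hab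
    have hxeq : x = ((ℓ : LaurentSeries ℚ) ^ m * toQ ℓ a₀) / ((ℓ : LaurentSeries ℚ) ^ n * toQ ℓ b₀) := by
      rw [eq_div_iff (mul_ne_zero (pow_ne_zero _ hℓ) hb₀Q)]
      exact hab
    rw [zpow_sub₀ hℓ, zpow_natCast, zpow_natCast, hxeq, mul_div_mul_comm]

/-- an element of `Vw` with nonzero reduction is a unit of `Vw`. -/
theorem valRing_inv_mem (u : Vw ℓ) (hu : rho ℓ u ≠ 0) : (u : LaurentSeries ℚ)⁻¹ ∈ Vw ℓ := by
  obtain ⟨a, b, hb, hab⟩ := u.2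
  have hspec := rho_spec ℓ u a b hb hab
  have ha : toF ℓ a ≠ 0 := by
    rw [← hspec]
    exact mul_ne_zero hu hb
  have haQ : toQ ℓ a ≠ 0 := valRing_toQ_ne_zero ℓ (valRing_ne_zero_of_toF_ne_zero ℓ ha)
  have hbQ : toQ ℓ b ≠ 0 := valRing_toQ_ne_zero ℓ (valRing_ne_zero_of_toF_ne_zero ℓ hb)
  have hu0 : (u : LaurentSeries ℚ) ≠ 0 := by
    intro h0
    rw [h0, zero_mul] at hab
    exact haQ hab.symm
  refine ⟨b, a, ha, ?_⟩
  rw [← hab]
  field_simp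

/-- `Vw` is integrally closed in the fraction field of `ℤ_(ℓ)((q))`. -/
theorem mem_Vw_of_isIntegral (x : LaurentSeries ℚ)
    (hx : ∃ a b : LaurentSeries (Oℓ ℓ), b ≠ 0 ∧ x * toQ ℓ b = toQ ℓ a)
    (hint : ∃ f : Polynomial (LaurentSeries ℚ), f.Monic ∧ (∀ i, f.coeff i ∈ Vw ℓ) ∧ f.eval x = 0) :
    x ∈ Vw ℓ := by
  by_cases hx0 : x = 0
  · rw [hx0]
    exact zero_mem _
  obtain ⟨k, u, hu, hxu⟩ := exists_zpow_mul_unit ℓ x hx0 hx
  have hℓ := valRing_natCast_laurent_rat_ne_zero ℓ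
  have hℓV : (ℓ : LaurentSeries ℚ) ∈ Vw ℓ := natCast_mem_Vw ℓ ℓ
  rcases le_or_gt 0 k with hk | hk
  · lift k to ℕ using hk
    rw [hxu, zpow_natCast]
    exact mul_mem (pow_mem hℓV k) u.2
  · exfalso
    obtain ⟨f, hf, hfV, hfx⟩ := hint
    obtain ⟨n, hn⟩ : ∃ n : ℕ, k = -((n : ℤ) + 1) := ⟨(-k - 1).toNat, by omega⟩
    set m := f.natDegree with hm
    -- `x = u / ℓ^(n+1)`
    have hxu' : x * (ℓ : LaurentSeries ℚ) ^ (n + 1) = u := by
      rw [hxu, hn, zpow_neg, ← Nat.cast_add_one, zpow_natCast]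
      field_simp
    -- the key element `w` with `u^m = - ℓ w`
    let w : Vw ℓ := ∑ i ∈ Finset.range m,
      ⟨f.coeff i, hfV i⟩ * u ^ i * ⟨(ℓ : LaurentSeries ℚ), hℓV⟩ ^ ((n + 1) * (m - i) - 1)
    have hw : (u : LaurentSeries ℚ) ^ m = -((ℓ : LaurentSeries ℚ) * (w : LaurentSeries ℚ)) := by
      have h1 : f.eval x * ((ℓ : LaurentSeries ℚ) ^ (n + 1)) ^ m = 0 := by rw [hfx, zero_mul]
      rw [Polynomial.eval_eq_sum_range, Finset.sum_mul, Finset.sum_range_succ] at h1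
      have htop : f.coeff f.natDegree * x ^ f.natDegree * ((ℓ : LaurentSeries ℚ) ^ (n + 1)) ^ m
          = (u : LaurentSeries ℚ) ^ m := by
        rw [Polynomial.Monic.coeff_natDegree hf, one_mul, ← hm, ← mul_pow, hxu']
      rw [htop] at h1
      have hrest : ∑ i ∈ Finset.range f.natDegree,
          f.coeff i * x ^ i * ((ℓ : LaurentSeries ℚ) ^ (n + 1)) ^ m
          = (ℓ : LaurentSeries ℚ) * (w : LaurentSeries ℚ) := by
        show _ = (ℓ : LaurentSeries ℚ) * ((∑ i ∈ Finset.range m,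
          ⟨f.coeff i, hfV i⟩ * u ^ i * ⟨(ℓ : LaurentSeries ℚ), hℓV⟩ ^ ((n + 1) * (m - i) - 1) :
            Vw ℓ) : LaurentSeries ℚ)
        rw [AddSubmonoidClass.coe_finsetSum, Finset.mul_sum, ← hm]
        refine Finset.sum_congr rfl fun i hi => ?_
        have him : i < m := Finset.mem_range.mp hi
        have hexp : (n + 1) * m = (n + 1) * i + (((n + 1) * (m - i) - 1) + 1) := by
          have h2 : 1 ≤ (n + 1) * (m - i) := Nat.mul_pos (Nat.succ_pos n) (Nat.sub_pos_of_lt him)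
          have h3 : (n + 1) * m = (n + 1) * i + (n + 1) * (m - i) := by
            rw [← Nat.mul_add]
            congr 1
            omega
          omega
        show f.coeff i * x ^ i * ((ℓ : LaurentSeries ℚ) ^ (n + 1)) ^ m
          = (ℓ : LaurentSeries ℚ) * (f.coeff i * (u : LaurentSeries ℚ) ^ i *
              (ℓ : LaurentSeries ℚ) ^ ((n + 1) * (m - i) - 1))
        rw [← hxu', ← pow_mul, hexp, pow_add, pow_succ, mul_pow, ← pow_mul]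
        ring
      rw [hrest] at h1
      exact eq_neg_of_add_eq_zero_right h1
    have hwV : u ^ m = -(⟨(ℓ : LaurentSeries ℚ), hℓV⟩ * w) := Subtype.ext hw
    have hrho : rho ℓ u ^ m = 0 := by
      rw [← map_pow, hwV, map_neg, map_mul, valRing_rho_natCast_self, zero_mul, neg_zero]
    exact hu (eq_zero_of_pow_eq_zero hrho)

/-! ### The substitution `V` on `Vw` -/

theorem valRing_V_eq_zero_iff (R : Type*) [CommRing R] (d : ℕ) (x : LaurentSeries R) :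
    V R d x = 0 ↔ x = 0 := by
  by_cases hd : d = 0
  · subst hd
    simp [V]
  · constructor
    · intro h
      exact V_injective R hd (by rw [h, map_zero])
    · rintro rfl
      exact map_zero _

theorem valRing_toQ_V (d : ℕ) (a : LaurentSeries (Oℓ ℓ)) :
    toQ ℓ (V (Oℓ ℓ) d a) = V ℚ d (toQ ℓ a) := coeffMap_V _ d a

theorem valRing_toF_V (d : ℕ) (a : LaurentSeries (Oℓ ℓ)) :
    toF ℓ (V (Oℓ ℓ) d a) = V (ZMod ℓ) d (toF ℓ a) := coeffMap_V _ d a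

theorem V_mem_Vw (d : ℕ) (x : Vw ℓ) : V ℚ d x ∈ Vw ℓ := by
  obtain ⟨a, b, hb, hab⟩ := x.2
  refine ⟨V (Oℓ ℓ) d a, V (Oℓ ℓ) d b, ?_, ?_⟩
  · rw [valRing_toF_V, Ne, valRing_V_eq_zero_iff]
    exact hb
  · rw [valRing_toQ_V, valRing_toQ_V, ← map_mul, hab]

theorem rho_V (d : ℕ) (x : Vw ℓ) :
    rho ℓ ⟨V ℚ d x, V_mem_Vw ℓ d x⟩ = V (ZMod ℓ) d (rho ℓ x) := by
  obtain ⟨a, b, hb, hab⟩ := x.2
  have hb' : toF ℓ (V (Oℓ ℓ) d b) ≠ 0 := by
    rw [valRing_toF_V, Ne, valRing_V_eq_zero_iff]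
    exact hb
  have h1 : rho ℓ ⟨V ℚ d x, V_mem_Vw ℓ d x⟩ = toF ℓ (V (Oℓ ℓ) d a) / toF ℓ (V (Oℓ ℓ) d b) :=
    valRing_rho_eq_div ℓ ⟨V ℚ d x, V_mem_Vw ℓ d x⟩ (V (Oℓ ℓ) d a) (V (Oℓ ℓ) d b) hb'
      (by
        show V ℚ d (x : LaurentSeries ℚ) * toQ ℓ (V (Oℓ ℓ) d b) = toQ ℓ (V (Oℓ ℓ) d a)
        rw [valRing_toQ_V, valRing_toQ_V, ← map_mul, hab])
  rw [h1, valRing_rho_eq_div ℓ x a b hb hab, valRing_toF_V, valRing_toF_V, map_div₀]

/-! ### `j(q^d)` and `Δ(q^d)/Δ(q^e)` -/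

theorem valRing_toQ_jd (d : ℕ) : toQ ℓ (jd (Oℓ ℓ) d) = jd ℚ d := coeffMap_jd _ d

theorem valRing_toF_jd (d : ℕ) : toF ℓ (jd (Oℓ ℓ) d) = jd (ZMod ℓ) d := coeffMap_jd _ d

theorem valRing_toQ_Dd (d : ℕ) : toQ ℓ (Dd (Oℓ ℓ) d) = Dd ℚ d := coeffMap_Dd _ d

theorem valRing_toF_Dd (d : ℕ) : toF ℓ (Dd (Oℓ ℓ) d) = Dd (ZMod ℓ) d := coeffMap_Dd _ d

theorem jd_mem_Vw (d : ℕ) : jd ℚ d ∈ Vw ℓ := by
  rw [← valRing_toQ_jd ℓ d]
  exact toQ_mem_Vw ℓ _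

theorem rho_jd (d : ℕ) : rho ℓ ⟨jd ℚ d, jd_mem_Vw ℓ d⟩ = jd (ZMod ℓ) d := by
  rw [valRing_rho_eq_toF ℓ _ (jd (Oℓ ℓ) d) (valRing_toQ_jd ℓ d).symm, valRing_toF_jd]

theorem valRing_Dq_coeff_one (R : Type*) [CommRing R] : (Dq R).coeff 1 = 1 := by
  have h : (Dq R).coeff ((1 : ℕ) : ℤ) = 1 := by
    rw [Dq, HahnSeries.ofPowerSeries_apply_coeff, PowerSeries.coeff_map, DqZ,
      show (1 : ℕ) = 0 + 1 from rfl, PowerSeries.coeff_succ_X_mul,
      PowerSeries.coeff_zero_eq_constantCoeff_apply, constantCoeff_dedekindEtaUnit, map_one]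
  simpa using h

theorem valRing_Dq_coeff_of_lt (R : Type*) [CommRing R] {k : ℤ} (hk : k < 1) :
    (Dq R).coeff k = 0 := by
  rcases lt_or_eq_of_le (show k ≤ 0 by omega) with h | h
  · rw [Dq]
    exact ofPowerSeries_coeff_of_neg _ h
  · subst h
    have h : (Dq R).coeff ((0 : ℕ) : ℤ) = 0 := by
      rw [Dq, HahnSeries.ofPowerSeries_apply_coeff, PowerSeries.coeff_map, DqZ,
        PowerSeries.coeff_zero_X_mul, map_zero]
    simpa using h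

theorem valRing_Dq_ne_zero (R : Type*) [CommRing R] [Nontrivial R] : Dq R ≠ 0 := fun h => by
  have := valRing_Dq_coeff_one R
  rw [h] at this
  simp at this

theorem valRing_Dd_ne_zero (R : Type*) [CommRing R] [Nontrivial R] (d : ℕ) : Dd R d ≠ 0 := by
  rw [Dd, Ne, valRing_V_eq_zero_iff]
  exact valRing_Dq_ne_zero R

theorem Dd_div_mem_Vw (d e : ℕ) : Dd ℚ d / Dd ℚ e ∈ Vw ℓ := by
  refine ⟨Dd (Oℓ ℓ) d, Dd (Oℓ ℓ) e, ?_, ?_⟩
  · rw [valRing_toF_Dd]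
    exact valRing_Dd_ne_zero _ e
  · rw [valRing_toQ_Dd, valRing_toQ_Dd]
    exact div_mul_cancel₀ _ (valRing_Dd_ne_zero _ e)

theorem rho_Dd_div (d e : ℕ) :
    rho ℓ ⟨Dd ℚ d / Dd ℚ e, Dd_div_mem_Vw ℓ d e⟩ = Dd (ZMod ℓ) d / Dd (ZMod ℓ) e := by
  have h := valRing_rho_eq_div ℓ ⟨Dd ℚ d / Dd ℚ e, Dd_div_mem_Vw ℓ d e⟩ (Dd (Oℓ ℓ) d)
    (Dd (Oℓ ℓ) e) (by rw [valRing_toF_Dd]; exact valRing_Dd_ne_zero _ e)
    (by
      show Dd ℚ d / Dd ℚ e * toQ ℓ (Dd (Oℓ ℓ) e) = toQ ℓ (Dd (Oℓ ℓ) d)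
      rw [valRing_toQ_Dd, valRing_toQ_Dd]
      exact div_mul_cancel₀ _ (valRing_Dd_ne_zero _ e))
  rw [h, valRing_toF_Dd, valRing_toF_Dd]

/-! ### Evaluation of polynomials -/

theorem valRing_algebraMap_eq_toQ (c : Oℓ ℓ) :
    algebraMap ℚ (LaurentSeries ℚ) (c : ℚ) = toQ ℓ (HahnSeries.C c) := by
  rw [toQ, HahnSeries.C_apply, coeffMap_single, algebraMap_apply_eq_single]
  rfl

/-- The constants `ℤ_(ℓ) → Vw`. -/
def valRingConst : Oℓ ℓ →+* Vw ℓ :=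
  ((algebraMap ℚ (LaurentSeries ℚ)).comp (GaloisRep.ratLocalizedAt ℓ).subtype).codRestrict (Vw ℓ)
    (fun c => by
      show algebraMap ℚ (LaurentSeries ℚ) (c : ℚ) ∈ Vw ℓ
      rw [valRing_algebraMap_eq_toQ]
      exact toQ_mem_Vw ℓ _)

theorem valRing_rho_const (c : Oℓ ℓ) :
    rho ℓ (valRingConst ℓ c) = algebraMap (ZMod ℓ) (LaurentSeries (ZMod ℓ)) (red ℓ c) := by
  rw [valRing_rho_eq_toF ℓ _ (HahnSeries.C c) (valRing_algebraMap_eq_toQ ℓ c), toF,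
    HahnSeries.C_apply, coeffMap_single, HahnSeries.algebraMap_apply']
  have h1 : algebraMap (ZMod ℓ) (PowerSeries (ZMod ℓ)) (red ℓ c) = PowerSeries.C (red ℓ c) := by
    simp
  rw [h1, HahnSeries.ofPowerSeries_C]
  rfl

theorem rho_evJ (t : Vw ℓ) (P : Polynomial (Oℓ ℓ)) (h : evJ ℓ t P ∈ Vw ℓ) :
    rho ℓ ⟨evJ ℓ t P, h⟩ = Polynomial.aeval (rho ℓ t) (P.map (red ℓ)) := by
  have h1 : (⟨evJ ℓ t P, h⟩ : Vw ℓ) = Polynomial.eval₂ (valRingConst ℓ) t P := by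
    apply Subtype.ext
    show evJ ℓ t P = (Vw ℓ).subtype (Polynomial.eval₂ (valRingConst ℓ) t P)
    rw [Polynomial.hom_eval₂]
    rfl
  rw [h1, Polynomial.hom_eval₂, Polynomial.aeval_def, Polynomial.eval₂_map]
  congr 1
  exact RingHom.ext fun c => valRing_rho_const ℓ c

/-! ### Orders and transcendence of `j(q^d)` -/

theorem valRing_order_eq {R : Type*} [Zero R] (x : HahnSeries ℤ R) (g : ℤ) (h1 : x.coeff g ≠ 0)
    (h2 : ∀ g' < g, x.coeff g' = 0) : x.order = g := by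
  have hx : x ≠ 0 := HahnSeries.ne_zero_of_coeff_ne_zero h1
  apply le_antisymm (HahnSeries.order_le_of_coeff_ne_zero h1)
  by_contra hlt
  push Not at hlt
  exact (HahnSeries.coeff_order_eq_zero.not.mpr hx) (h2 _ hlt)

theorem valRing_V_coeff_mul (R : Type*) [CommRing R] (d : ℕ) (hd : d ≠ 0) (x : LaurentSeries R)
    (k : ℤ) : (V R d x).coeff ((d : ℤ) * k) = x.coeff k := by
  have : NeZero d := ⟨hd⟩
  rw [V_eq_qExpand]
  exact qExpand_coeff_mul d x k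

theorem valRing_V_coeff_of_not_dvd (R : Type*) [CommRing R] (d : ℕ) (hd : d ≠ 0)
    (x : LaurentSeries R) {k : ℤ} (hk : ¬ (d : ℤ) ∣ k) : (V R d x).coeff k = 0 := by
  have : NeZero d := ⟨hd⟩
  rw [V_eq_qExpand]
  exact qExpand_coeff_of_not_dvd d x hk

theorem valRing_jd_order (R : Type*) [CommRing R] [Nontrivial R] (d : ℕ) (hd : d ≠ 0) :
    (jd R d).order = -(d : ℤ) := by
  have hdpos : (0 : ℤ) < d := by exact_mod_cast Nat.pos_of_ne_zero hd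
  apply valRing_order_eq
  · rw [show -(d : ℤ) = (d : ℤ) * (-1) by ring, jd, valRing_V_coeff_mul R d hd,
      coeff_jqModC_neg_one]
    exact one_ne_zero
  · intro g' hg'
    by_cases hdvd : (d : ℤ) ∣ g'
    · obtain ⟨k, rfl⟩ := hdvd
      rw [jd, valRing_V_coeff_mul R d hd]
      apply coeff_jqModC_of_lt
      nlinarith
    · exact valRing_V_coeff_of_not_dvd R d hd _ hdvd

theorem valRing_Dd_order (R : Type*) [CommRing R] [Nontrivial R] (d : ℕ) (hd : d ≠ 0) :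
    (Dd R d).order = (d : ℤ) := by
  have hdpos : (0 : ℤ) < d := by exact_mod_cast Nat.pos_of_ne_zero hd
  apply valRing_order_eq
  · rw [show (d : ℤ) = (d : ℤ) * 1 by ring, Dd, valRing_V_coeff_mul R d hd,
      valRing_Dq_coeff_one]
    exact one_ne_zero
  · intro g' hg'
    by_cases hdvd : (d : ℤ) ∣ g'
    · obtain ⟨k, rfl⟩ := hdvd
      rw [Dd, valRing_V_coeff_mul R d hd]
      apply valRing_Dq_coeff_of_lt
      nlinarith
    · exact valRing_V_coeff_of_not_dvd R d hd _ hdvd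

/-- orders: `j(q^d)` has a simple pole in `q^d`, `Δ(q^d)` a simple zero (any nontrivial ring). -/
theorem jd_order (d : ℕ) (hd : d ≠ 0) : (jd (ZMod ℓ) d).order = -(d : ℤ) :=
  valRing_jd_order (ZMod ℓ) d hd

theorem Dd_order (d : ℕ) (hd : d ≠ 0) : (Dd (ZMod ℓ) d).order = (d : ℤ) :=
  valRing_Dd_order (ZMod ℓ) d hd

theorem valRing_algebraMap_eq_C (R : Type*) [CommRing R] (c : R) :
    algebraMap R (LaurentSeries R) c = HahnSeries.C c := by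
  rw [HahnSeries.algebraMap_apply']
  have h2 : algebraMap R (PowerSeries R) c = PowerSeries.C c := by simp
  rw [h2, HahnSeries.ofPowerSeries_C]

theorem valRing_coeff_algebraMap_mul (R : Type*) [CommRing R] (c : R) (x : LaurentSeries R)
    (n : ℤ) : (algebraMap R (LaurentSeries R) c * x).coeff n = c * x.coeff n := by
  rw [valRing_algebraMap_eq_C, HahnSeries.C_mul_eq_smul, HahnSeries.coeff_smul, smul_eq_mul]

theorem valRing_jq_transcendental (R : Type*) [CommRing R] (P : Polynomial R) (hP : P ≠ 0) :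
    Polynomial.aeval (jqModC R) P ≠ 0 := by
  intro h
  have hc := congrArg (fun z => HahnSeries.coeff z (-(P.natDegree : ℤ))) h
  simp only [HahnSeries.coeff_zero] at hc
  rw [Polynomial.aeval_eq_sum_range, HahnSeries.coeff_sum, Finset.sum_range_succ] at hc
  rw [Finset.sum_eq_zero, zero_add, Algebra.smul_def, valRing_coeff_algebraMap_mul,
    coeff_jqModC_pow_self, mul_one] at hc
  · exact hP (Polynomial.leadingCoeff_eq_zero.mp hc)
  · intro i hi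
    have hi' : i < P.natDegree := Finset.mem_range.mp hi
    rw [Algebra.smul_def, valRing_coeff_algebraMap_mul, coeff_jqModC_pow_of_lt R (by omega),
      mul_zero]

theorem valRing_V_algebraMap (R : Type*) [CommRing R] (d : ℕ) (c : R) :
    V R d (algebraMap R (LaurentSeries R) c) = algebraMap R (LaurentSeries R) c := by
  by_cases hd : d = 0
  · subst hd
    simp [V]
  · have : NeZero d := ⟨hd⟩
    rw [V_eq_qExpand, valRing_algebraMap_eq_C, qExpand_C]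

theorem valRing_V_aeval (R : Type*) [CommRing R] (d : ℕ) (x : LaurentSeries R)
    (P : Polynomial R) : V R d (Polynomial.aeval x P) = Polynomial.aeval (V R d x) P := by
  rw [Polynomial.aeval_def, Polynomial.hom_eval₂, Polynomial.aeval_def]
  congr 1
  exact RingHom.ext fun c => valRing_V_algebraMap R d c

theorem valRing_jd_transcendental (R : Type*) [CommRing R] (d : ℕ) (P : Polynomial R)
    (hP : P ≠ 0) : Polynomial.aeval (jd R d) P ≠ 0 := by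
  rw [jd, ← valRing_V_aeval, Ne, valRing_V_eq_zero_iff]
  exact valRing_jq_transcendental R P hP

theorem jd_transcendental (d : ℕ) (_hd : d ≠ 0) (P : Polynomial (ZMod ℓ)) (hP : P ≠ 0) :
    Polynomial.aeval (jd (ZMod ℓ) d) P ≠ 0 :=
  valRing_jd_transcendental (ZMod ℓ) d P hP

theorem jd_rat_transcendental (d : ℕ) (_hd : d ≠ 0) (P : Polynomial ℚ) (hP : P ≠ 0) :
    Polynomial.aeval (jd ℚ d) P ≠ 0 :=
  valRing_jd_transcendental ℚ d P hP

/-! ### The residue fields `kj`, `kappa` -/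

theorem valRing_jd_mem_kappa {M d : ℕ} (hd : d ∣ M) : jd (ZMod ℓ) d ∈ kappa ℓ M :=
  ⟨⟨jd ℚ d, jd_mem_Vw ℓ d⟩, jd_mem_Ft hd, rho_jd ℓ d⟩

theorem kj_le_kappa {M d : ℕ} (hd : d ∣ M) : kj ℓ d ≤ kappa ℓ M := by
  rw [kj, Subfield.closure_le]
  intro x hx
  rw [Set.mem_singleton_iff] at hx
  rw [hx]
  exact valRing_jd_mem_kappa ℓ hd

theorem valRing_V_jd (R : Type*) [CommRing R] (d e : ℕ) (hd : d ≠ 0) (he : e ≠ 0) :
    V R d (jd R e) = jd R (d * e) := by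
  rw [jd, jd, V_V R hd he]

theorem valRing_V_Dd (R : Type*) [CommRing R] (d e : ℕ) (hd : d ≠ 0) (he : e ≠ 0) :
    V R d (Dd R e) = Dd R (d * e) := by
  rw [Dd, Dd, V_V R hd he]

theorem kj_map (d e : ℕ) (hd : d ≠ 0) (he : e ≠ 0) :
    (kj ℓ e).map (V (ZMod ℓ) d) = kj ℓ (d * e) := by
  rw [kj, kj, RingHom.map_field_closure, Set.image_singleton, valRing_V_jd _ d e hd he]

/-- `V d` maps `Ft M` into `Ft (d * M)`. -/
theorem valRing_V_mem_Ft (d M : ℕ) (hd : d ≠ 0) (hM : M ≠ 0) {x : LaurentSeries ℚ}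
    (hx : x ∈ Ft M) : V ℚ d x ∈ Ft (d * M) := by
  have : NeZero d := ⟨hd⟩
  have hle : (Ft M).map (qExpandₐ d) ≤ Ft (d * M) := by
    rw [Ft, IntermediateField.adjoin_map, IntermediateField.adjoin_le_iff]
    rintro _ ⟨y, hy, rfl⟩
    rw [qExpandₐ_apply, ← V_eq_qExpand]
    rcases hy with ⟨e, he, rfl⟩ | ⟨e, e', he, he', rfl⟩
    · have he0 : e ≠ 0 := fun h0 => hM (by rw [h0] at he; exact Nat.eq_zero_of_zero_dvd he)
      rw [valRing_V_jd ℚ d e hd he0]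
      exact jd_mem_Ft (Nat.mul_dvd_mul_left d he)
    · have he0 : e ≠ 0 := fun h0 => hM (by rw [h0] at he; exact Nat.eq_zero_of_zero_dvd he)
      have he0' : e' ≠ 0 := fun h0 => hM (by rw [h0] at he'; exact Nat.eq_zero_of_zero_dvd he')
      rw [map_div₀, valRing_V_Dd ℚ d e hd he0, valRing_V_Dd ℚ d e' hd he0']
      exact Dd_div_mem_Ft (Nat.mul_dvd_mul_left d he) (Nat.mul_dvd_mul_left d he')
  have h1 : qExpandₐ d x ∈ (Ft M).map (qExpandₐ d) := ⟨x, hx, rfl⟩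
  have h2 := hle h1
  rwa [qExpandₐ_apply, ← V_eq_qExpand] at h2

theorem kappa_map_le (d M : ℕ) (hd : d ≠ 0) (hM : M ≠ 0) :
    (kappa ℓ M).map (V (ZMod ℓ) d) ≤ kappa ℓ (d * M) := by
  rintro _ ⟨y, ⟨x, hx, rfl⟩, rfl⟩
  exact ⟨⟨V ℚ d x, V_mem_Vw ℓ d x⟩, valRing_V_mem_Ft d M hd hM hx, rho_V ℓ d x⟩

theorem Dd_div_mem_kappa {M d e : ℕ} (hd : d ∣ M) (he : e ∣ M) :
    Dd (ZMod ℓ) d / Dd (ZMod ℓ) e ∈ kappa ℓ M :=
  ⟨⟨Dd ℚ d / Dd ℚ e, Dd_div_mem_Vw ℓ d e⟩, Dd_div_mem_Ft hd he, rho_Dd_div ℓ d e⟩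

/-! ### `Ft M` lies in the fraction field of `ℤ_(ℓ)((q))` -/

/-- The fraction field of `ℤ_(ℓ)((q))` inside `ℚ((q))`. -/
def valRingFrac : Subfield (LaurentSeries ℚ) where
  carrier := {x | ∃ a b : LaurentSeries (Oℓ ℓ), b ≠ 0 ∧ x * toQ ℓ b = toQ ℓ a}
  mul_mem' := by
    rintro x y ⟨a, b, hb, h⟩ ⟨a', b', hb', h'⟩
    refine ⟨a * a', b * b', mul_ne_zero hb hb', ?_⟩
    rw [map_mul, map_mul, ← h, ← h']
    ring
  one_mem' := ⟨1, 1, one_ne_zero, by simp⟩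
  add_mem' := by
    rintro x y ⟨a, b, hb, h⟩ ⟨a', b', hb', h'⟩
    refine ⟨a * b' + a' * b, b * b', mul_ne_zero hb hb', ?_⟩
    rw [map_mul, map_add, map_mul, map_mul, ← h, ← h']
    ring
  zero_mem' := ⟨0, 1, one_ne_zero, by simp⟩
  neg_mem' := by
    rintro x ⟨a, b, hb, h⟩
    exact ⟨-a, b, hb, by rw [map_neg, ← h]; ring⟩
  inv_mem' := by
    rintro x ⟨a, b, hb, h⟩
    by_cases hx : x = 0
    · rw [hx, inv_zero]
      exact ⟨0, 1, one_ne_zero, by simp⟩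
    · have hbQ : toQ ℓ b ≠ 0 := valRing_toQ_ne_zero ℓ hb
      have ha : a ≠ 0 := by
        rintro rfl
        rw [map_zero] at h
        rcases mul_eq_zero.mp h with h0 | h0
        · exact hx h0
        · exact hbQ h0
      refine ⟨b, a, ha, ?_⟩
      rw [← h]
      field_simp

theorem valRing_mem_frac_iff {x : LaurentSeries ℚ} :
    x ∈ valRingFrac ℓ ↔ ∃ a b : LaurentSeries (Oℓ ℓ), b ≠ 0 ∧ x * toQ ℓ b = toQ ℓ a := Iff.rfl

theorem valRing_toQ_mem_frac (a : LaurentSeries (Oℓ ℓ)) : toQ ℓ a ∈ valRingFrac ℓ :=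
  ⟨a, 1, one_ne_zero, by simp⟩

theorem Ft_le_frac (M : ℕ) (_hM : 0 < M) (x : LaurentSeries ℚ) (hx : x ∈ Ft M) :
    ∃ a b : LaurentSeries (Oℓ ℓ), b ≠ 0 ∧ x * toQ ℓ b = toQ ℓ a := by
  have hle : Ft M ≤ (valRingFrac ℓ).toIntermediateField (fun c => by
      rw [eq_ratCast]
      exact SubfieldClass.ratCast_mem _ c) := by
    rw [Ft, IntermediateField.adjoin_le_iff]
    rintro y (⟨d, _, rfl⟩ | ⟨d, e, _, _, rfl⟩)
    · show jd ℚ d ∈ valRingFrac ℓ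
      rw [← valRing_toQ_jd ℓ d]
      exact valRing_toQ_mem_frac ℓ _
    · show Dd ℚ d / Dd ℚ e ∈ valRingFrac ℓ
      rw [← valRing_toQ_Dd ℓ d, ← valRing_toQ_Dd ℓ e]
      exact div_mem (valRing_toQ_mem_frac ℓ _) (valRing_toQ_mem_frac ℓ _)
  exact hle hx

end W7

end Fermat.Agent.S28
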