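import Mathlib
import Fermat.Agent.S28.Defs
import Fermat.Agent.S28.PsiArith
import Fermat.Agent.S28.Ramification
import Fermat.Agent.S28.Factor
import Fermat.Agent.S28.RelrankFt
import Fermat.Agent.S28.UnitPoly
import Fermat.Agent.S28.ValRing
import Fermat.Agent.S28.FundIneq

/-!
# S28, W11: prime level (char ℓ): `[κ(p) : F_ℓ(j_p)] = [κ(p) : F_ℓ(j)] = p + 1`.
-/

set_option autoImplicit false

open ModularCurve

noncomputable section

namespace Fermat.Agent.S28

/-! ### Generalities on Laurent series over a field -/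

theorem primeLevel_algebraMap_eq_C (F : Type) [Field F] (c : F) :
    algebraMap F (LaurentSeries F) c = HahnSeries.C c := by
  rw [HahnSeries.algebraMap_apply', PowerSeries.algebraMap_apply, Algebra.algebraMap_self,
    RingHom.id_apply, HahnSeries.ofPowerSeries_C]

/-- order of a sum with a strictly dominant term -/
theorem primeLevel_order_add {F : Type} [Field F] (a b : LaurentSeries F) (ha : a ≠ 0)
    (hb : b = 0 ∨ a.order < b.order) : a + b ≠ 0 ∧ (a + b).order = a.order := by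
  by_cases hb0 : b = 0
  · subst hb0
    simp [ha]
  · have hb' : a.order < b.order := hb.resolve_left hb0
    have h1 : a.orderTop < b.orderTop := by
      rw [← HahnSeries.order_eq_orderTop_of_ne_zero ha,
        ← HahnSeries.order_eq_orderTop_of_ne_zero hb0]
      exact_mod_cast hb'
    have h2 := HahnSeries.orderTop_add_eq_left h1
    have h3 : a + b ≠ 0 := by
      intro h
      rw [h, HahnSeries.orderTop_zero, ← HahnSeries.order_eq_orderTop_of_ne_zero ha] at h2
      exact WithTop.top_ne_coe h2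
    refine ⟨h3, ?_⟩
    rw [← HahnSeries.order_eq_orderTop_of_ne_zero h3,
      ← HahnSeries.order_eq_orderTop_of_ne_zero ha] at h2
    exact_mod_cast h2

theorem primeLevel_order_div {F : Type} [Field F] (a b : LaurentSeries F) (ha : a ≠ 0)
    (hb : b ≠ 0) : (a / b).order = a.order - b.order := by
  have h : a / b * b = a := div_mul_cancel₀ a hb
  have h2 := HahnSeries.order_mul (div_ne_zero ha hb) hb
  rw [h] at h2
  omega

/-- If `x` has a pole, `P(x)` has order `deg P · ord x` for every nonzero polynomial `P`. -/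
theorem primeLevel_order_aeval {F : Type} [Field F] (x : LaurentSeries F) (hx : x.order < 0) :
    ∀ (n : ℕ) (R : Polynomial F), R ≠ 0 → R.natDegree = n →
      Polynomial.aeval x R ≠ 0 ∧ (Polynomial.aeval x R).order = n * x.order := by
  have hx0 : x ≠ 0 := by
    rintro rfl
    simp at hx
  intro n
  induction n using Nat.strong_induction_on with
  | _ n ih =>
    intro R hR hdeg
    have hlc : R.leadingCoeff ≠ 0 := Polynomial.leadingCoeff_ne_zero.mpr hR
    have hsplit := Polynomial.eraseLead_add_C_mul_X_pow R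
    have ha : Polynomial.aeval x (Polynomial.C R.leadingCoeff * Polynomial.X ^ R.natDegree) =
        HahnSeries.C R.leadingCoeff * x ^ n := by
      rw [map_mul, Polynomial.aeval_C, map_pow, Polynomial.aeval_X, primeLevel_algebraMap_eq_C,
        hdeg]
    have hC0 : (HahnSeries.C R.leadingCoeff : LaurentSeries F) ≠ 0 := by
      intro h
      apply hlc
      have := congrArg (fun z : LaurentSeries F => z.coeff 0) h
      simpa using this
    have ha0 : HahnSeries.C R.leadingCoeff * x ^ n ≠ 0 := mul_ne_zero hC0 (pow_ne_zero n hx0)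
    have hao : (HahnSeries.C R.leadingCoeff * x ^ n).order = n * x.order := by
      rw [HahnSeries.order_mul hC0 (pow_ne_zero n hx0), HahnSeries.order_C, HahnSeries.order_pow,
        zero_add, nsmul_eq_mul]
    have hsum : Polynomial.aeval x R =
        HahnSeries.C R.leadingCoeff * x ^ n + Polynomial.aeval x R.eraseLead := by
      conv_lhs => rw [← hsplit]
      rw [map_add, ha, add_comm]
    rw [hsum]
    have key := primeLevel_order_add (HahnSeries.C R.leadingCoeff * x ^ n)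
      (Polynomial.aeval x R.eraseLead) ha0 ?_
    · rw [hao] at key
      exact key
    · rcases Polynomial.eraseLead_natDegree_lt_or_eraseLead_eq_zero R with h | h
      · by_cases h0 : R.eraseLead = 0
        · left
          rw [h0, map_zero]
        · right
          obtain ⟨-, h2⟩ := ih R.eraseLead.natDegree (hdeg ▸ h) R.eraseLead h0 rfl
          rw [hao, h2]
          have h3 : (R.eraseLead.natDegree : ℤ) < n := by exact_mod_cast (hdeg ▸ h)
          nlinarith
      · left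
        rw [h, map_zero]

theorem primeLevel_aeval_injective {F : Type} [Field F] (x : LaurentSeries F) (hx : x.order < 0) :
    Function.Injective
      ((Polynomial.aeval x : Polynomial F →ₐ[F] LaurentSeries F) :
        Polynomial F →+* LaurentSeries F) := by
  rw [injective_iff_map_eq_zero]
  intro R hR
  by_contra h0
  exact (primeLevel_order_aeval x hx _ R h0 rfl).1 hR

/-- elements of `F(x)` are values of rational functions. -/
theorem primeLevel_mem_closure {F : Type} [Field F] (x : LaurentSeries F) (hx : x.order < 0)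
    (y : LaurentSeries F) (hy : y ∈ Subfield.closure {x}) :
    ∃ r : RatFunc F, IsFractionRing.lift (primeLevel_aeval_injective x hx) r = y := by
  have h : Subfield.closure {x} ≤
      (IsFractionRing.lift (K := RatFunc F) (primeLevel_aeval_injective x hx)).fieldRange := by
    rw [Subfield.closure_le]
    rintro _ rfl
    exact ⟨algebraMap _ _ Polynomial.X, by rw [IsFractionRing.lift_algebraMap]; simp⟩
  exact h hy

/-- An element of `F(x)` (`x` with a pole) which is integral over `F[x]` is a polynomial in `x`. -/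
theorem primeLevel_poly_of_integral {F : Type} [Field F] (x : LaurentSeries F) (hx : x.order < 0)
    (w : LaurentSeries F) (hw : w ∈ Subfield.closure {x}) (n : ℕ)
    (g : Fin (n + 1) → Polynomial F)
    (hrel : w ^ (n + 1) + ∑ i : Fin (n + 1), Polynomial.aeval x (g i) * w ^ (i : ℕ) = 0) :
    ∃ R : Polynomial F, w = Polynomial.aeval x R := by
  obtain ⟨r, rfl⟩ := primeLevel_mem_closure x hx w hw
  have hrel' : r ^ (n + 1) +
      ∑ i : Fin (n + 1), algebraMap (Polynomial F) (RatFunc F) (g i) * r ^ (i : ℕ) = 0 := by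
    apply (IsFractionRing.lift (K := RatFunc F) (primeLevel_aeval_injective x hx)).injective
    rw [map_add, map_pow, map_sum, map_zero]
    simp only [map_mul, map_pow, IsFractionRing.lift_algebraMap]
    exact hrel
  have hint : IsIntegral (Polynomial F) r := by
    refine ⟨Polynomial.X ^ (n + 1) +
      ∑ i : Fin (n + 1), Polynomial.C (g i) * Polynomial.X ^ (i : ℕ), ?_, ?_⟩
    · apply Polynomial.monic_X_pow_add
      refine lt_of_le_of_lt (Polynomial.degree_sum_le _ _) ?_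
      rw [Finset.sup_lt_iff (WithBot.bot_lt_coe _)]
      intro i _
      refine lt_of_le_of_lt (Polynomial.degree_C_mul_X_pow_le _ _) ?_
      exact_mod_cast i.2
    · rw [Polynomial.eval₂_add, Polynomial.eval₂_pow, Polynomial.eval₂_X,
        Polynomial.eval₂_finsetSum]
      simp only [Polynomial.eval₂_mul, Polynomial.eval₂_C, Polynomial.eval₂_pow,
        Polynomial.eval₂_X]
      exact hrel'
  obtain ⟨R, hR⟩ := IsIntegrallyClosed.isIntegral_iff.mp hint
  exact ⟨R, by rw [← hR, IsFractionRing.lift_algebraMap]; rfl⟩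

section W11
variable (ℓ : ℕ) [Fact ℓ.Prime]

/-- `rho` commutes with evaluation of integer polynomials. -/
theorem primeLevel_rho_aeval (t : Vw ℓ) (G : Polynomial ℤ) :
    rho ℓ (Polynomial.aeval t G) =
      Polynomial.aeval (rho ℓ t) (G.map (Int.castRingHom (ZMod ℓ))) := by
  rw [Polynomial.aeval_def, Polynomial.hom_eval₂, Polynomial.aeval_def, Polynomial.eval₂_map]
  congr 1
  exact RingHom.ext_int _ _

theorem primeLevel_coe_aeval (t : Vw ℓ) (G : Polynomial ℤ) :
    ((Polynomial.aeval t G : Vw ℓ) : LaurentSeries ℚ) =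
      Polynomial.aeval (t : LaurentSeries ℚ) G := by
  show (Vw ℓ).subtype (Polynomial.aeval t G) = _
  rw [Polynomial.aeval_def, Polynomial.hom_eval₂, Polynomial.aeval_def]
  congr 1
  exact RingHom.ext_int _ _

/-- reduction mod ℓ of `exists_unit_poly` (apply `rho`; needs `p ≠ ℓ` only for later use). -/
theorem exists_unit_poly_mod (p : ℕ) (hp : p.Prime) :
    ∃ (n : ℕ) (g : Fin (n + 1) → Polynomial (ZMod ℓ)), n ≤ p ∧
      ((p : LaurentSeries (ZMod ℓ)) ^ 12 * (Dd (ZMod ℓ) p / Dd (ZMod ℓ) 1)) ^ (n + 1) +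
          ∑ i : Fin (n + 1), Polynomial.aeval (jd (ZMod ℓ) 1) (g i) *
            ((p : LaurentSeries (ZMod ℓ)) ^ 12 * (Dd (ZMod ℓ) p / Dd (ZMod ℓ) 1)) ^ (i : ℕ) = 0 ∧
      (Dd (ZMod ℓ) 1 / Dd (ZMod ℓ) p) ^ (n + 1) +
          ∑ i : Fin (n + 1), Polynomial.aeval (jd (ZMod ℓ) p) (g i) *
            (Dd (ZMod ℓ) 1 / Dd (ZMod ℓ) p) ^ (i : ℕ) = 0 := by
  obtain ⟨n, G, hn, h1, h2⟩ := exists_unit_poly p hp
  refine ⟨n, fun i => (G i).map (Int.castRingHom (ZMod ℓ)), hn, ?_, ?_⟩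
  · -- first relation
    set u : Vw ℓ := ⟨Dd ℚ p / Dd ℚ 1, Dd_div_mem_Vw ℓ p 1⟩ with hu
    set J : Vw ℓ := ⟨jd ℚ 1, jd_mem_Vw ℓ 1⟩ with hJ
    have key : ((p : Vw ℓ) ^ 12 * u) ^ (n + 1) +
        ∑ i : Fin (n + 1), Polynomial.aeval J (G i) * ((p : Vw ℓ) ^ 12 * u) ^ (i : ℕ) = 0 := by
      apply Subtype.ext
      simp only [Subring.coe_add, Subring.coe_mul, Subring.coe_pow, Subring.coe_natCast,
        AddSubmonoidClass.coe_finsetSum, primeLevel_coe_aeval, Subring.coe_zero]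
      exact h1
    have key2 := congrArg (rho ℓ) key
    simp only [map_add, map_mul, map_pow, map_natCast, map_sum, primeLevel_rho_aeval,
      map_zero] at key2
    rw [hu, hJ, rho_Dd_div, rho_jd] at key2
    exact key2
  · set u : Vw ℓ := ⟨Dd ℚ 1 / Dd ℚ p, Dd_div_mem_Vw ℓ 1 p⟩ with hu
    set J : Vw ℓ := ⟨jd ℚ p, jd_mem_Vw ℓ p⟩ with hJ
    have key : u ^ (n + 1) +
        ∑ i : Fin (n + 1), Polynomial.aeval J (G i) * u ^ (i : ℕ) = 0 := by
      apply Subtype.ext
      simp only [Subring.coe_add, Subring.coe_mul, Subring.coe_pow,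
        AddSubmonoidClass.coe_finsetSum, primeLevel_coe_aeval, Subring.coe_zero]
      exact h2
    have key2 := congrArg (rho ℓ) key
    simp only [map_add, map_mul, map_pow, map_sum, primeLevel_rho_aeval,
      map_zero] at key2
    rw [hu, hJ, rho_Dd_div, rho_jd] at key2
    exact key2

theorem primeLevel_natCast_ne_zero (p : ℕ) (hp : p.Prime) (hpℓ : p ≠ ℓ) : (p : ZMod ℓ) ≠ 0 := by
  intro h
  rw [ZMod.natCast_eq_zero_iff] at h
  exact hpℓ ((Nat.prime_dvd_prime_iff_eq Fact.out hp).mp h).symm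

theorem primeLevel_Dd_ne_zero (d : ℕ) (hd : d ≠ 0) : Dd (ZMod ℓ) d ≠ 0 := by
  intro h
  have := Dd_order ℓ d hd
  rw [h, HahnSeries.order_zero] at this
  exact hd (by exact_mod_cast this.symm)

theorem primeLevel_natCast_eq_C (p : ℕ) :
    (p : LaurentSeries (ZMod ℓ)) = HahnSeries.C (p : ZMod ℓ) := (map_natCast HahnSeries.C p).symm

theorem primeLevel_natCast_pow_ne_zero (p : ℕ) (hp : p.Prime) (hpℓ : p ≠ ℓ) (k : ℕ) :
    (p : LaurentSeries (ZMod ℓ)) ^ k ≠ 0 := by
  apply pow_ne_zero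
  rw [primeLevel_natCast_eq_C]
  intro h
  exact primeLevel_natCast_ne_zero ℓ p hp hpℓ (HahnSeries.C_injective (h.trans (map_zero _).symm))

theorem primeLevel_natCast_pow_order (p : ℕ) (k : ℕ) :
    ((p : LaurentSeries (ZMod ℓ)) ^ k).order = 0 := by
  rw [primeLevel_natCast_eq_C, HahnSeries.order_pow, HahnSeries.order_C, smul_zero]

theorem primeLevel_unit_order (p : ℕ) (hp : p.Prime) :
    (Dd (ZMod ℓ) p / Dd (ZMod ℓ) 1).order = (p : ℤ) - 1 := by
  rw [primeLevel_order_div _ _ (primeLevel_Dd_ne_zero ℓ p hp.ne_zero)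
    (primeLevel_Dd_ne_zero ℓ 1 one_ne_zero), Dd_order ℓ p hp.ne_zero, Dd_order ℓ 1 one_ne_zero]
  push_cast
  ring

/-- the unit `Δ(q^p)/Δ(q)` is not a rational function of `j` mod ℓ (it is integral over `F_ℓ[j]`,
so it would be a polynomial in `j`, of order ≤ 0; but its order is p - 1 > 0). -/
theorem unit_not_mem_kj (p : ℕ) (hp : p.Prime) (hpℓ : p ≠ ℓ) :
    Dd (ZMod ℓ) p / Dd (ZMod ℓ) 1 ∉ kj ℓ 1 := by
  intro hmem
  obtain ⟨n, g, -, h1, -⟩ := exists_unit_poly_mod ℓ p hp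
  have hjo : (jd (ZMod ℓ) 1).order < 0 := by
    rw [jd_order ℓ 1 one_ne_zero]
    norm_num
  have hwmem : (p : LaurentSeries (ZMod ℓ)) ^ 12 * (Dd (ZMod ℓ) p / Dd (ZMod ℓ) 1) ∈
      Subfield.closure {jd (ZMod ℓ) 1} := mul_mem (pow_mem (natCast_mem _ p) 12) hmem
  obtain ⟨R, hR⟩ := primeLevel_poly_of_integral (jd (ZMod ℓ) 1) hjo _ hwmem n g h1
  have hD1 : Dd (ZMod ℓ) 1 ≠ 0 := primeLevel_Dd_ne_zero ℓ 1 one_ne_zero
  have hDp : Dd (ZMod ℓ) p ≠ 0 := primeLevel_Dd_ne_zero ℓ p hp.ne_zero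
  have hu0 : Dd (ZMod ℓ) p / Dd (ZMod ℓ) 1 ≠ 0 := div_ne_zero hDp hD1
  have hp0 := primeLevel_natCast_pow_ne_zero ℓ p hp hpℓ 12
  have hwo : ((p : LaurentSeries (ZMod ℓ)) ^ 12 * (Dd (ZMod ℓ) p / Dd (ZMod ℓ) 1)).order =
      (p : ℤ) - 1 := by
    rw [HahnSeries.order_mul hp0 hu0, primeLevel_natCast_pow_order, primeLevel_unit_order ℓ p hp,
      zero_add]
  have hR0 : R ≠ 0 := by
    rintro rfl
    rw [map_zero] at hR
    exact mul_ne_zero hp0 hu0 hR
  obtain ⟨-, h2⟩ := primeLevel_order_aeval (jd (ZMod ℓ) 1) hjo _ R hR0 rfl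
  rw [← hR, hwo, jd_order ℓ 1 one_ne_zero] at h2
  have h3 : (2 : ℤ) ≤ p := by exact_mod_cast hp.two_le
  have h4 : (0 : ℤ) ≤ R.natDegree := Int.natCast_nonneg _
  push_cast at h2
  nlinarith

/-! ### The polynomial `X^(n+1) + Σ g_i(t) X^i` over a subfield containing `t` -/

theorem primeLevel_aeval_mem (k : Subfield (LaurentSeries (ZMod ℓ))) (t : LaurentSeries (ZMod ℓ))
    (ht : t ∈ k) (P : Polynomial (ZMod ℓ)) : Polynomial.aeval t P ∈ k := by
  rw [Polynomial.aeval_eq_sum_range]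
  refine sum_mem fun i _ => ?_
  rw [Algebra.smul_def]
  refine mul_mem ?_ (pow_mem ht i)
  rw [← ZMod.natCast_zmod_val (P.coeff i), map_natCast]
  exact natCast_mem k _

/-- every ring endomorphism of `F_ℓ((q))` commutes with `F_ℓ`-polynomial evaluation. -/
theorem primeLevel_hom_aeval (φ : LaurentSeries (ZMod ℓ) →+* LaurentSeries (ZMod ℓ))
    (t : LaurentSeries (ZMod ℓ)) (P : Polynomial (ZMod ℓ)) :
    φ (Polynomial.aeval t P) = Polynomial.aeval (φ t) P := by
  rw [Polynomial.aeval_def, Polynomial.hom_eval₂, Polynomial.aeval_def]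
  congr 1
  exact RingHom.ext_zmod _ _

/-- `X^(n+1) + Σ_i g_i(t) X^i` as a polynomial over a subfield `k ∋ t`. -/
def primeLevelPoly (k : Subfield (LaurentSeries (ZMod ℓ))) (t : LaurentSeries (ZMod ℓ))
    (ht : t ∈ k) (n : ℕ) (g : Fin (n + 1) → Polynomial (ZMod ℓ)) : Polynomial k :=
  Polynomial.X ^ (n + 1) + ∑ i : Fin (n + 1),
    Polynomial.C (⟨Polynomial.aeval t (g i), primeLevel_aeval_mem ℓ k t ht (g i)⟩ : k) *
      Polynomial.X ^ (i : ℕ)

theorem primeLevelPoly_degree_lt (k : Subfield (LaurentSeries (ZMod ℓ)))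
    (t : LaurentSeries (ZMod ℓ)) (ht : t ∈ k) (n : ℕ) (g : Fin (n + 1) → Polynomial (ZMod ℓ)) :
    (∑ i : Fin (n + 1),
      Polynomial.C (⟨Polynomial.aeval t (g i), primeLevel_aeval_mem ℓ k t ht (g i)⟩ : k) *
        Polynomial.X ^ (i : ℕ)).degree < ((n + 1 : ℕ) : WithBot ℕ) := by
  refine lt_of_le_of_lt (Polynomial.degree_sum_le _ _) ?_
  rw [Finset.sup_lt_iff (WithBot.bot_lt_coe _)]
  intro i _
  refine lt_of_le_of_lt (Polynomial.degree_C_mul_X_pow_le _ _) ?_
  exact_mod_cast i.2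

theorem primeLevelPoly_monic (k : Subfield (LaurentSeries (ZMod ℓ)))
    (t : LaurentSeries (ZMod ℓ)) (ht : t ∈ k) (n : ℕ) (g : Fin (n + 1) → Polynomial (ZMod ℓ)) :
    (primeLevelPoly ℓ k t ht n g).Monic :=
  Polynomial.monic_X_pow_add (primeLevelPoly_degree_lt ℓ k t ht n g)

theorem primeLevelPoly_natDegree (k : Subfield (LaurentSeries (ZMod ℓ)))
    (t : LaurentSeries (ZMod ℓ)) (ht : t ∈ k) (n : ℕ) (g : Fin (n + 1) → Polynomial (ZMod ℓ)) :
    (primeLevelPoly ℓ k t ht n g).natDegree = n + 1 := by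
  have h := primeLevelPoly_degree_lt ℓ k t ht n g
  unfold primeLevelPoly
  apply Polynomial.natDegree_eq_of_degree_eq_some
  rw [Polynomial.degree_add_eq_left_of_degree_lt (by rw [Polynomial.degree_X_pow]; exact h),
    Polynomial.degree_X_pow]

theorem primeLevelPoly_eval (k : Subfield (LaurentSeries (ZMod ℓ)))
    (t : LaurentSeries (ZMod ℓ)) (ht : t ∈ k) (n : ℕ) (g : Fin (n + 1) → Polynomial (ZMod ℓ))
    (c : LaurentSeries (ZMod ℓ)) :
    ((primeLevelPoly ℓ k t ht n g).map k.subtype).eval c =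
      c ^ (n + 1) + ∑ i : Fin (n + 1), Polynomial.aeval t (g i) * c ^ (i : ℕ) := by
  unfold primeLevelPoly
  rw [Polynomial.map_add, Polynomial.map_pow, Polynomial.map_X, Polynomial.map_sum,
    Polynomial.eval_add, Polynomial.eval_pow, Polynomial.eval_X, Polynomial.eval_finsetSum]
  congr 1
  refine Finset.sum_congr rfl fun i _ => ?_
  rw [Polynomial.map_mul, Polynomial.map_pow, Polynomial.map_X, Polynomial.map_C,
    Polynomial.eval_mul, Polynomial.eval_C, Polynomial.eval_pow, Polynomial.eval_X]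
  rfl

/-- transport of `primeLevelPoly` along a ring endomorphism of `F_ℓ((q))`. -/
theorem primeLevelPoly_map (k k' : Subfield (LaurentSeries (ZMod ℓ)))
    (φ : LaurentSeries (ZMod ℓ) →+* LaurentSeries (ZMod ℓ)) (hφ : ∀ x ∈ k, φ x ∈ k')
    (t : LaurentSeries (ZMod ℓ)) (ht : t ∈ k) (n : ℕ) (g : Fin (n + 1) → Polynomial (ZMod ℓ)) :
    (primeLevelPoly ℓ k t ht n g).map (φ.restrict k k' hφ) =
      primeLevelPoly ℓ k' (φ t) (hφ t ht) n g := by
  unfold primeLevelPoly
  rw [Polynomial.map_add, Polynomial.map_pow, Polynomial.map_X, Polynomial.map_sum]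
  congr 1
  refine Finset.sum_congr rfl fun i _ => ?_
  rw [Polynomial.map_mul, Polynomial.map_pow, Polynomial.map_X, Polynomial.map_C]
  congr 2
  apply Subtype.ext
  exact primeLevel_hom_aeval ℓ φ t (g i)

/-! ### Irreducibility at prime level -/

theorem primeLevel_V_mem_kj (p : ℕ) (hp : p.Prime) :
    ∀ x ∈ kj ℓ 1, V (ZMod ℓ) p x ∈ kj ℓ p := by
  intro x hx
  have h := kj_map ℓ p 1 hp.ne_zero one_ne_zero
  rw [mul_one] at h
  rw [← h]
  exact Subfield.mem_map.mpr ⟨x, hx, rfl⟩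

omit [Fact ℓ.Prime] in
theorem primeLevel_V_jd_one (p : ℕ) : V (ZMod ℓ) p (jd (ZMod ℓ) 1) = jd (ZMod ℓ) p := by
  rw [jd_one]
  rfl

theorem primeLevel_jd_mem_kj (d : ℕ) : jd (ZMod ℓ) d ∈ kj ℓ d :=
  Subfield.subset_closure rfl

/-- the two polynomials `χ̄(X, j_p)` and `χ̄(X, j_1)` are irreducible of degree `p + 1`. -/
theorem primeLevel_exists_irreducible (p : ℕ) (hp : p.Prime) (hpℓ : p ≠ ℓ) :
    ∃ g : Fin (p + 1) → Polynomial (ZMod ℓ),
      Irreducible (primeLevelPoly ℓ (kj ℓ p) (jd (ZMod ℓ) p) (primeLevel_jd_mem_kj ℓ p) p g) ∧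
      Irreducible (primeLevelPoly ℓ (kj ℓ 1) (jd (ZMod ℓ) 1) (primeLevel_jd_mem_kj ℓ 1) p g) ∧
      ((p : LaurentSeries (ZMod ℓ)) ^ 12 * (Dd (ZMod ℓ) p / Dd (ZMod ℓ) 1)) ^ (p + 1) +
          ∑ i : Fin (p + 1), Polynomial.aeval (jd (ZMod ℓ) 1) (g i) *
            ((p : LaurentSeries (ZMod ℓ)) ^ 12 * (Dd (ZMod ℓ) p / Dd (ZMod ℓ) 1)) ^ (i : ℕ) = 0 ∧
      (Dd (ZMod ℓ) 1 / Dd (ZMod ℓ) p) ^ (p + 1) +
          ∑ i : Fin (p + 1), Polynomial.aeval (jd (ZMod ℓ) p) (g i) *
            (Dd (ZMod ℓ) 1 / Dd (ZMod ℓ) p) ^ (i : ℕ) = 0 := by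
  obtain ⟨n, g, hn, h1, h2⟩ := exists_unit_poly_mod ℓ p hp
  have hD1 : Dd (ZMod ℓ) 1 ≠ 0 := primeLevel_Dd_ne_zero ℓ 1 one_ne_zero
  have hDp : Dd (ZMod ℓ) p ≠ 0 := primeLevel_Dd_ne_zero ℓ p hp.ne_zero
  have hp0 := primeLevel_natCast_pow_ne_zero ℓ p hp hpℓ 12
  -- the field `E = F_ℓ((q^p))`
  set E : Subfield (LaurentSeries (ZMod ℓ)) := (V (ZMod ℓ) p).fieldRange with hE
  have hkE : kj ℓ p ≤ E := by
    rw [kj, Subfield.closure_le]
    rintro _ rfl
    exact ⟨jqModC (ZMod ℓ), rfl⟩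
  set f := primeLevelPoly ℓ (kj ℓ p) (jd (ZMod ℓ) p) (primeLevel_jd_mem_kj ℓ p) n g with hf
  set c : LaurentSeries (ZMod ℓ) :=
    (p : LaurentSeries (ZMod ℓ)) ^ 12 * V (ZMod ℓ) p (Dd (ZMod ℓ) p / Dd (ZMod ℓ) 1) with hc
  set x : LaurentSeries (ZMod ℓ) := Dd (ZMod ℓ) 1 / Dd (ZMod ℓ) p with hx
  have hcE : c ∈ E := mul_mem (pow_mem (natCast_mem E p) 12) ⟨_, rfl⟩
  have hfc : (f.map (kj ℓ p).subtype).eval c = 0 := by
    rw [hf, primeLevelPoly_eval]
    have h1' := congrArg (V (ZMod ℓ) p) h1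
    simp only [map_add, map_mul, map_pow, map_natCast, map_sum, primeLevel_hom_aeval,
      primeLevel_V_jd_one, map_zero] at h1'
    exact h1'
  have hfx : (f.map (kj ℓ p).subtype).eval x = 0 := by
    rw [hf, primeLevelPoly_eval]
    exact h2
  have hx0 : x ≠ 0 := div_ne_zero hD1 hDp
  have hxo : x.order = 1 - (p : ℤ) := by
    rw [hx, primeLevel_order_div _ _ hD1 hDp, Dd_order ℓ p hp.ne_zero, Dd_order ℓ 1 one_ne_zero]
    push_cast
    ring
  have hord : Nat.Coprime x.order.natAbs p := by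
    have h2le := hp.two_le
    have hna : x.order.natAbs = p - 1 := by
      rw [hxo]
      omega
    rw [hna]
    refine ((Nat.Prime.coprime_iff_not_dvd hp).mpr ?_).symm
    exact Nat.not_dvd_of_pos_of_lt (by omega) (by omega)
  have hxram : ∀ g' : Polynomial (LaurentSeries (ZMod ℓ)), (∀ i, g'.coeff i ∈ E) →
      g'.natDegree < p → g'.eval x = 0 → g' = 0 := by
    intro g' hg' hdeg h0
    exact ramification_poly p hp.pos x hx0 hord g' (fun i => RingHom.mem_fieldRange.mp (hg' i))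
      hdeg h0
  have hck : c ∉ kj ℓ p := by
    intro hmem
    have h3 : V (ZMod ℓ) p (Dd (ZMod ℓ) p / Dd (ZMod ℓ) 1) ∈ kj ℓ p := by
      have h4 : V (ZMod ℓ) p (Dd (ZMod ℓ) p / Dd (ZMod ℓ) 1) =
          ((p : LaurentSeries (ZMod ℓ)) ^ 12)⁻¹ * c := by
        rw [hc, ← mul_assoc, inv_mul_cancel₀ hp0, one_mul]
      rw [h4]
      exact mul_mem (inv_mem (pow_mem (natCast_mem _ p) 12)) hmem
    have h5 := kj_map ℓ p 1 hp.ne_zero one_ne_zero
    rw [mul_one] at h5
    rw [← h5] at h3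
    obtain ⟨y, hy, hy2⟩ := Subfield.mem_map.mp h3
    have h6 := V_injective (ZMod ℓ) hp.ne_zero hy2
    rw [h6] at hy
    exact unit_not_mem_kj ℓ p hp hpℓ hy
  have hirr := irreducible_of_roots (kj ℓ p) E hkE p hp.two_le f
    (primeLevelPoly_monic ℓ _ _ _ n g)
    (by rw [hf, primeLevelPoly_natDegree]; omega) c x hcE hfc hfx hxram hck
  have hnp : n = p := by
    have := hirr.2
    rw [hf, primeLevelPoly_natDegree] at this
    omega
  subst hnp
  refine ⟨g, hirr.1, ?_, h1, h2⟩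
  -- transport to `kj ℓ 1`
  apply Polynomial.Monic.irreducible_of_irreducible_map
    ((V (ZMod ℓ) n).restrict (kj ℓ 1) (kj ℓ n) (primeLevel_V_mem_kj ℓ n hp)) _
    (primeLevelPoly_monic ℓ _ _ _ n g)
  rw [primeLevelPoly_map]
  have hirr1 := hirr.1
  rw [hf] at hirr1
  convert hirr1 using 2
  exact primeLevel_V_jd_one ℓ n

/-- auxiliary: upper bounds `[κ(p) : F_ℓ(j_d)] ≤ p + 1`. -/
theorem primeLevel_relrank_le (p d : ℕ) (hp : p.Prime) (hd : d ∣ p) :
    Subfield.relrank (kj ℓ d) (kappa ℓ p) ≤ ((p + 1 : ℕ) : Cardinal) := by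
  refine (relrank_kappa_le ℓ p d hp.pos hd).trans ?_
  have h := relrank_Ft_le p d hp.pos hd
  rw [psi_prime hp] at h
  exact h

theorem relrank_kappa_prime_self (p : ℕ) (hp : p.Prime) (hpℓ : p ≠ ℓ) :
    Subfield.relrank (kj ℓ p) (kappa ℓ p) = ((p + 1 : ℕ) : Cardinal) := by
  apply le_antisymm (primeLevel_relrank_le ℓ p p hp dvd_rfl)
  obtain ⟨g, hirr, -, -, h2⟩ := primeLevel_exists_irreducible ℓ p hp hpℓ
  have h := le_relrank_of_irreducible (kj ℓ p) (kappa ℓ p) (kj_le_kappa ℓ dvd_rfl) _ hirr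
    (Dd (ZMod ℓ) 1 / Dd (ZMod ℓ) p) (Dd_div_mem_kappa ℓ (one_dvd p) dvd_rfl)
    (by rw [primeLevelPoly_eval]; exact h2)
  rwa [primeLevelPoly_natDegree] at h

theorem relrank_kappa_prime_one (p : ℕ) (hp : p.Prime) (hpℓ : p ≠ ℓ) :
    Subfield.relrank (kj ℓ 1) (kappa ℓ p) = ((p + 1 : ℕ) : Cardinal) := by
  apply le_antisymm (primeLevel_relrank_le ℓ p 1 hp (one_dvd p))
  obtain ⟨g, -, hirr, h1, -⟩ := primeLevel_exists_irreducible ℓ p hp hpℓ
  have h := le_relrank_of_irreducible (kj ℓ 1) (kappa ℓ p) (kj_le_kappa ℓ (one_dvd p)) _ hirr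
    ((p : LaurentSeries (ZMod ℓ)) ^ 12 * (Dd (ZMod ℓ) p / Dd (ZMod ℓ) 1))
    (mul_mem (pow_mem (natCast_mem _ p) 12) (Dd_div_mem_kappa ℓ dvd_rfl (one_dvd p)))
    (by rw [primeLevelPoly_eval]; exact h1)
  rwa [primeLevelPoly_natDegree] at h

/-- `kappa ℓ p = F_ℓ(j, Δ_p/Δ_1)` (degree count). -/
theorem kappa_prime_eq (p : ℕ) (hp : p.Prime) (hpℓ : p ≠ ℓ) :
    kappa ℓ p = Subfield.closure {jd (ZMod ℓ) 1, Dd (ZMod ℓ) p / Dd (ZMod ℓ) 1} := by
  set T := Subfield.closure {jd (ZMod ℓ) 1, Dd (ZMod ℓ) p / Dd (ZMod ℓ) 1} with hT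
  have hTk : T ≤ kappa ℓ p := by
    rw [hT, Subfield.closure_le]
    rintro y (rfl | rfl)
    · exact kj_le_kappa ℓ (one_dvd p) (primeLevel_jd_mem_kj ℓ 1)
    · exact Dd_div_mem_kappa ℓ dvd_rfl (one_dvd p)
  have hkT : kj ℓ 1 ≤ T := Subfield.closure_mono (by simp)
  apply le_antisymm _ hTk
  rw [← Subfield.relrank_eq_one_iff]
  obtain ⟨g, -, hirr, h1, -⟩ := primeLevel_exists_irreducible ℓ p hp hpℓ
  have h := le_relrank_of_irreducible (kj ℓ 1) T hkT _ hirr
    ((p : LaurentSeries (ZMod ℓ)) ^ 12 * (Dd (ZMod ℓ) p / Dd (ZMod ℓ) 1))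
    (mul_mem (pow_mem (natCast_mem _ p) 12) (Subfield.subset_closure (by simp)))
    (by rw [primeLevelPoly_eval]; exact h1)
  rw [primeLevelPoly_natDegree] at h
  have hmul := Subfield.relrank_mul_relrank hkT hTk
  rw [relrank_kappa_prime_one ℓ p hp hpℓ] at hmul
  -- cardinal arithmetic: `a * b = p + 1`, `p + 1 ≤ a` ⟹ `b = 1`
  have hb0 : Subfield.relrank T (kappa ℓ p) ≠ 0 := by
    intro h0
    rw [h0, mul_zero] at hmul
    exact_mod_cast hmul
  have ha : Subfield.relrank (kj ℓ 1) T = ((p + 1 : ℕ) : Cardinal) := by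
    apply le_antisymm _ h
    calc Subfield.relrank (kj ℓ 1) T
        ≤ Subfield.relrank (kj ℓ 1) T * Subfield.relrank T (kappa ℓ p) :=
          Cardinal.le_mul_right hb0
      _ = _ := hmul
  rw [ha] at hmul
  have hblt : Subfield.relrank T (kappa ℓ p) < Cardinal.aleph0 := by
    have : Subfield.relrank T (kappa ℓ p) ≤ ((p + 1 : ℕ) : Cardinal) := by
      calc Subfield.relrank T (kappa ℓ p)
          ≤ Subfield.relrank T (kappa ℓ p) * ((p + 1 : ℕ) : Cardinal) :=
            Cardinal.le_mul_right (by exact_mod_cast Nat.succ_ne_zero p)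
        _ = _ := by rw [mul_comm]; exact hmul
    exact lt_of_le_of_lt this (Cardinal.natCast_lt_aleph0)
  obtain ⟨m, hm⟩ := Cardinal.lt_aleph0.mp hblt
  rw [hm] at hmul ⊢
  have hm1 : (p + 1) * m = p + 1 := by exact_mod_cast hmul
  have : m = 1 := by
    have := Nat.eq_of_mul_eq_mul_left (Nat.succ_pos p) (hm1.trans (mul_one _).symm)
    exact this
  rw [this, Nat.cast_one]

end W11

end Fermat.Agent.S28
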