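import Mathlib
import Fermat.Agent.S28.Defs
import Fermat.Agent.S28.PsiArith
import Fermat.Agent.S28.Ramification
import Fermat.Agent.S28.Factor
import Fermat.Agent.S28.RelrankFt
import Fermat.Agent.S28.ValRing
import Fermat.Agent.S28.FundIneq
import Fermat.Agent.S28.PrimeLevel

/-!
# S28, W12: the lower bound `ψ(M) ≤ [κ(M) : F_ℓ(j_M)]` and `[κ(M) : F_ℓ(j)] = [κ(M) : F_ℓ(j_M)]`
by induction on `M` (largest prime factor first).
-/

set_option autoImplicit false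

open ModularCurve

noncomputable section

namespace Fermat.Agent.S28

section W12
variable (ℓ : ℕ) [Fact ℓ.Prime]

omit [Fact ℓ.Prime] in
theorem ind_V_jd (d e : ℕ) (hd : d ≠ 0) (he : e ≠ 0) :
    V (ZMod ℓ) d (jd (ZMod ℓ) e) = jd (ZMod ℓ) (d * e) := V_V (ZMod ℓ) hd he _

omit [Fact ℓ.Prime] in
theorem ind_V_Dd (d e : ℕ) (hd : d ≠ 0) (he : e ≠ 0) :
    V (ZMod ℓ) d (Dd (ZMod ℓ) e) = Dd (ZMod ℓ) (d * e) := V_V (ZMod ℓ) hd he _

theorem ind_map_mono (f : LaurentSeries (ZMod ℓ) →+* LaurentSeries (ZMod ℓ))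
    {A B : Subfield (LaurentSeries (ZMod ℓ))} (h : A ≤ B) : A.map f ≤ B.map f :=
  (Subfield.gc_map_comap f).monotone_l h

theorem ind_jd_one_mem_kappa (M : ℕ) : jd (ZMod ℓ) 1 ∈ kappa ℓ M :=
  kj_le_kappa ℓ (one_dvd M) (primeLevel_jd_mem_kj ℓ 1)

theorem ind_jd_one_ne_zero : jd (ZMod ℓ) 1 ≠ 0 := by
  intro h
  have := jd_order ℓ 1 one_ne_zero
  rw [h, HahnSeries.order_zero] at this
  norm_num at this

theorem ind_jd_one_coprime (d : ℕ) : Nat.Coprime (jd (ZMod ℓ) 1).order.natAbs d := by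
  rw [jd_order ℓ 1 one_ne_zero]
  simp

theorem ind_one_le_relrank (A B : Subfield (LaurentSeries (ZMod ℓ))) :
    (1 : Cardinal) ≤ Subfield.relrank A B := by
  have := ramification_relrank (k := ZMod ℓ) 1 one_pos A B (fun a _ => ⟨a, V_one _ a⟩) 1
    (one_mem B) one_ne_zero (Nat.coprime_one_right _)
  exact_mod_cast this

/-- ramification: `[κ(M) : A] ≥ d` whenever `A ⊆ F_ℓ((q^d))`. -/
theorem ind_ramification (d M : ℕ) (hd : 0 < d) (A : Subfield (LaurentSeries (ZMod ℓ)))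
    (hA : A ≤ (V (ZMod ℓ) d).fieldRange) : (d : Cardinal) ≤ Subfield.relrank A (kappa ℓ M) :=
  ramification_relrank d hd A (kappa ℓ M) (fun _ ha => RingHom.mem_fieldRange.mp (hA ha))
    (jd (ZMod ℓ) 1) (ind_jd_one_mem_kappa ℓ M) (ind_jd_one_ne_zero ℓ) (ind_jd_one_coprime ℓ d)

theorem ind_kj_le_fieldRange (d : ℕ) : kj ℓ d ≤ (V (ZMod ℓ) d).fieldRange := by
  rw [kj, Subfield.closure_le]
  rintro _ rfl
  exact ⟨jqModC (ZMod ℓ), rfl⟩

theorem ind_map_le_fieldRange (d : ℕ) (A : Subfield (LaurentSeries (ZMod ℓ))) :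
    A.map (V (ZMod ℓ) d) ≤ (V (ZMod ℓ) d).fieldRange := by
  intro y hy
  obtain ⟨x, -, rfl⟩ := Subfield.mem_map.mp hy
  exact ⟨x, rfl⟩

/-- the subfield `T = V_d(κ(p))` has degree `p + 1` over both `F_ℓ(j_d)` and `F_ℓ(j_{dp})`. -/
theorem ind_T (p d : ℕ) (hp : p.Prime) (hpℓ : p ≠ ℓ) (hd : d ≠ 0) :
    kj ℓ d ≤ (kappa ℓ p).map (V (ZMod ℓ) d) ∧ kj ℓ (d * p) ≤ (kappa ℓ p).map (V (ZMod ℓ) d) ∧
    (kappa ℓ p).map (V (ZMod ℓ) d) ≤ kappa ℓ (d * p) ∧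
    Subfield.relrank (kj ℓ d) ((kappa ℓ p).map (V (ZMod ℓ) d)) = ((p + 1 : ℕ) : Cardinal) ∧
    Subfield.relrank (kj ℓ (d * p)) ((kappa ℓ p).map (V (ZMod ℓ) d)) =
      ((p + 1 : ℕ) : Cardinal) := by
  have h1 := kj_map ℓ d 1 hd one_ne_zero
  rw [mul_one] at h1
  have hp' := kj_map ℓ d p hd hp.ne_zero
  refine ⟨?_, ?_, kappa_map_le ℓ d p hd hp.ne_zero, ?_, ?_⟩
  · rw [← h1]
    exact ind_map_mono ℓ _ (kj_le_kappa ℓ (one_dvd p))
  · rw [← hp']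
    exact ind_map_mono ℓ _ (kj_le_kappa ℓ dvd_rfl)
  · rw [← h1, Subfield.relrank_map_map, relrank_kappa_prime_one ℓ p hp hpℓ]
  · rw [← hp', Subfield.relrank_map_map, relrank_kappa_prime_self ℓ p hp hpℓ]

theorem ind_relrank_eq (p d : ℕ) (hp : p.Prime) (hpℓ : p ≠ ℓ) (hd : d ≠ 0)
    (B : Subfield (LaurentSeries (ZMod ℓ))) (hB : (kappa ℓ p).map (V (ZMod ℓ) d) ≤ B) :
    Subfield.relrank (kj ℓ d) B = Subfield.relrank (kj ℓ (d * p)) B := by
  obtain ⟨h1, h2, -, h4, h5⟩ := ind_T ℓ p d hp hpℓ hd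
  rw [← Subfield.relrank_mul_relrank h1 hB, ← Subfield.relrank_mul_relrank h2 hB, h4, h5]

theorem relrank_one_eq (M : ℕ) (hM : 0 < M) (hℓ : ¬ ℓ ∣ M) :
    Subfield.relrank (kj ℓ 1) (kappa ℓ M) = Subfield.relrank (kj ℓ M) (kappa ℓ M) := by
  induction M using Nat.strong_induction_on with
  | _ M ih =>
    by_cases hM1 : M = 1
    · subst hM1
      rfl
    obtain ⟨p, hp, hpM⟩ := Nat.exists_prime_and_dvd hM1
    obtain ⟨d, rfl⟩ := hpM
    have hd : d ≠ 0 := by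
      rintro rfl
      simp at hM
    have hpℓ : p ≠ ℓ := by
      rintro rfl
      exact hℓ (dvd_mul_right _ _)
    have hdℓ : ¬ ℓ ∣ d := fun h => hℓ (h.mul_left p)
    have hdlt : d < p * d := by
      have := hp.two_le
      have := Nat.pos_of_ne_zero hd
      nlinarith
    have ihd := ih d hdlt (Nat.pos_of_ne_zero hd) hdℓ
    rw [mul_comm p d]
    obtain ⟨h1, h2, h3, h4, h5⟩ := ind_T ℓ p d hp hpℓ hd
    have e1 := ind_relrank_eq ℓ p d hp hpℓ hd (kappa ℓ (d * p)) h3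
    rw [← e1]
    have hkk : kappa ℓ d ≤ kappa ℓ (d * p) := kappa_mono ℓ (dvd_mul_right d p)
    rw [← Subfield.relrank_mul_relrank (kj_le_kappa ℓ (one_dvd d)) hkk,
      ← Subfield.relrank_mul_relrank (kj_le_kappa ℓ (dvd_refl d)) hkk, ihd]

/-- case (b) of the induction: `p ∤ d`, all prime factors of `d` smaller than `p`. -/
theorem ind_caseB (p d : ℕ) (hp : p.Prime) (hpℓ : p ≠ ℓ) (hd : 0 < d) (hpd : ¬ p ∣ d)
    (hlt : ∀ r ∈ d.primeFactors, r < p) :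
    ((p + 1 : ℕ) : Cardinal) ≤
      Subfield.relrank ((kappa ℓ d).map (V (ZMod ℓ) p)) (kappa ℓ (p * d)) := by
  obtain ⟨g, -, -, h1, h2⟩ := primeLevel_exists_irreducible ℓ p hp hpℓ
  have hd0 : d ≠ 0 := hd.ne'
  have hk'E : (kappa ℓ d).map (V (ZMod ℓ) p) ≤ (V (ZMod ℓ) p).fieldRange :=
    ind_map_le_fieldRange ℓ p _
  have h2' : (kappa ℓ d).map (V (ZMod ℓ) p) ≤ kappa ℓ (p * d) :=
    kappa_map_le ℓ p d hp.ne_zero hd0
  have ht : jd (ZMod ℓ) (p * d) ∈ (kappa ℓ d).map (V (ZMod ℓ) p) := by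
    rw [← ind_V_jd ℓ p d hp.ne_zero hd0]
    exact Subfield.mem_map.mpr ⟨_, kj_le_kappa ℓ dvd_rfl (primeLevel_jd_mem_kj ℓ d), rfl⟩
  have hD1 : Dd (ZMod ℓ) 1 ≠ 0 := primeLevel_Dd_ne_zero ℓ 1 one_ne_zero
  have hDp : Dd (ZMod ℓ) p ≠ 0 := primeLevel_Dd_ne_zero ℓ p hp.ne_zero
  have hp0 := primeLevel_natCast_pow_ne_zero ℓ p hp hpℓ 12
  -- the two roots
  obtain ⟨c', hc'⟩ : ∃ c' : LaurentSeries (ZMod ℓ), c' = (p : LaurentSeries (ZMod ℓ)) ^ 12 *
      V (ZMod ℓ) p (V (ZMod ℓ) d (Dd (ZMod ℓ) p / Dd (ZMod ℓ) 1)) := ⟨_, rfl⟩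
  obtain ⟨x', hx'⟩ : ∃ x' : LaurentSeries (ZMod ℓ),
      x' = V (ZMod ℓ) d (Dd (ZMod ℓ) 1 / Dd (ZMod ℓ) p) := ⟨_, rfl⟩
  have hfc : ((primeLevelPoly ℓ _ (jd (ZMod ℓ) (p * d)) ht p g).map
      ((kappa ℓ d).map (V (ZMod ℓ) p)).subtype).eval c' = 0 := by
    rw [primeLevelPoly_eval]
    have h1' := congrArg (fun z => V (ZMod ℓ) p (V (ZMod ℓ) d z)) h1
    simp only [map_add, map_mul, map_pow, map_natCast, map_sum, primeLevel_hom_aeval,
      map_zero, ind_V_jd ℓ d 1 hd0 one_ne_zero, mul_one, ind_V_jd ℓ p d hp.ne_zero hd0] at h1'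
    rw [hc']
    exact h1'
  have hfx : ((primeLevelPoly ℓ _ (jd (ZMod ℓ) (p * d)) ht p g).map
      ((kappa ℓ d).map (V (ZMod ℓ) p)).subtype).eval x' = 0 := by
    rw [primeLevelPoly_eval]
    have h2'' := congrArg (V (ZMod ℓ) d) h2
    simp only [map_add, map_mul, map_pow, map_sum, primeLevel_hom_aeval,
      map_zero, ind_V_jd ℓ d p hd0 hp.ne_zero, mul_comm d p] at h2''
    rw [hx']
    exact h2''
  have hx'eq : x' = Dd (ZMod ℓ) d / Dd (ZMod ℓ) (d * p) := by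
    rw [hx', map_div₀, ind_V_Dd ℓ d 1 hd0 one_ne_zero, ind_V_Dd ℓ d p hd0 hp.ne_zero, mul_one]
  have hDd : Dd (ZMod ℓ) d ≠ 0 := primeLevel_Dd_ne_zero ℓ d hd0
  have hDdp : Dd (ZMod ℓ) (d * p) ≠ 0 :=
    primeLevel_Dd_ne_zero ℓ (d * p) (Nat.mul_ne_zero hd0 hp.ne_zero)
  have hx'0 : x' ≠ 0 := by
    rw [hx'eq]
    exact div_ne_zero hDd hDdp
  have hx'o : x'.order = (d : ℤ) - (d : ℤ) * p := by
    rw [hx'eq, primeLevel_order_div _ _ hDd hDdp, Dd_order ℓ d hd0,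
      Dd_order ℓ (d * p) (Nat.mul_ne_zero hd0 hp.ne_zero)]
    push_cast
    ring
  have hord : Nat.Coprime x'.order.natAbs p := by
    have h2le := hp.two_le
    have hna : x'.order.natAbs = d * (p - 1) := by
      rw [hx'o]
      have : (d : ℤ) - (d : ℤ) * p = -((d * (p - 1) : ℕ) : ℤ) := by
        rw [Nat.cast_mul, Nat.cast_sub (by omega : 1 ≤ p)]
        push_cast
        ring
      rw [this, Int.natAbs_neg, Int.natAbs_natCast]
    rw [hna]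
    refine Nat.Coprime.mul_left ?_ ?_
    · exact ((Nat.Prime.coprime_iff_not_dvd hp).mpr hpd).symm
    · exact ((Nat.Prime.coprime_iff_not_dvd hp).mpr
        (Nat.not_dvd_of_pos_of_lt (by omega) (by omega))).symm
  have hxram : ∀ g' : Polynomial (LaurentSeries (ZMod ℓ)),
      (∀ i, g'.coeff i ∈ (V (ZMod ℓ) p).fieldRange) →
      g'.natDegree < p → g'.eval x' = 0 → g' = 0 := by
    intro g' hg' hdeg h0
    exact ramification_poly p hp.pos x' hx'0 hord g' (fun i => RingHom.mem_fieldRange.mp (hg' i))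
      hdeg h0
  have hcE : c' ∈ (V (ZMod ℓ) p).fieldRange := by
    rw [hc']
    exact mul_mem (pow_mem (natCast_mem _ p) 12) ⟨_, rfl⟩
  have hck : c' ∉ (kappa ℓ d).map (V (ZMod ℓ) p) := by
    intro hmem
    have h3 : V (ZMod ℓ) p (V (ZMod ℓ) d (Dd (ZMod ℓ) p / Dd (ZMod ℓ) 1)) ∈
        (kappa ℓ d).map (V (ZMod ℓ) p) := by
      have h4 : V (ZMod ℓ) p (V (ZMod ℓ) d (Dd (ZMod ℓ) p / Dd (ZMod ℓ) 1)) =
          ((p : LaurentSeries (ZMod ℓ)) ^ 12)⁻¹ * c' := by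
        rw [hc', ← mul_assoc, inv_mul_cancel₀ hp0, one_mul]
      rw [h4]
      exact mul_mem (inv_mem (pow_mem (natCast_mem _ p) 12)) hmem
    obtain ⟨y, hy, hy2⟩ := Subfield.mem_map.mp h3
    have h6 := V_injective (ZMod ℓ) hp.ne_zero hy2
    rw [h6] at hy
    have hT : (kappa ℓ p).map (V (ZMod ℓ) d) ≤ kappa ℓ d := by
      rw [Subfield.map_le_iff_le_comap, kappa_prime_eq ℓ p hp hpℓ, Subfield.closure_le]
      rintro z (rfl | rfl)
      · show V (ZMod ℓ) d (jd (ZMod ℓ) 1) ∈ kappa ℓ d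
        rw [ind_V_jd ℓ d 1 hd0 one_ne_zero, mul_one]
        exact kj_le_kappa ℓ dvd_rfl (primeLevel_jd_mem_kj ℓ d)
      · exact hy
    have e1 := ind_relrank_eq ℓ p d hp hpℓ hd0 (kappa ℓ d) hT
    have hub : Subfield.relrank (kj ℓ d) (kappa ℓ d) ≤ (psi d : Cardinal) :=
      (relrank_kappa_le ℓ d d hd dvd_rfl).trans (relrank_Ft_le d d hd dvd_rfl)
    have hlb : ((d * p : ℕ) : Cardinal) ≤ Subfield.relrank (kj ℓ (d * p)) (kappa ℓ d) :=
      ind_ramification ℓ (d * p) d (Nat.mul_pos hd hp.pos) _ (ind_kj_le_fieldRange ℓ (d * p))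
    have hpsi := psi_lt hp.two_le hd hlt
    rw [← e1] at hlb
    have h7 : ((d * p : ℕ) : Cardinal) ≤ (psi d : Cardinal) := hlb.trans hub
    have h8 : d * p ≤ psi d := by exact_mod_cast h7
    nlinarith
  have hirr := irreducible_of_roots _ _ hk'E p hp.two_le
    (primeLevelPoly ℓ _ (jd (ZMod ℓ) (p * d)) ht p g) (primeLevelPoly_monic ℓ _ _ _ p g)
    (by rw [primeLevelPoly_natDegree]) c' x' hcE hfc hfx hxram hck
  have hx'mem : x' ∈ kappa ℓ (p * d) := by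
    rw [hx'eq]
    exact Dd_div_mem_kappa ℓ (dvd_mul_left d p) (by rw [mul_comm])
  have hfin := le_relrank_of_irreducible _ (kappa ℓ (p * d)) h2' _ hirr.1 x' hx'mem hfx
  rwa [primeLevelPoly_natDegree] at hfin

/-- the induction step `d ⟶ p * d`, `p ≥` all prime factors of `d`. -/
theorem ind_step (p d : ℕ) (hp : p.Prime) (hpℓ : p ≠ ℓ) (hd : 0 < d)
    (hmax : ∀ r ∈ d.primeFactors, r ≤ p)
    (ih : (psi d : Cardinal) ≤ Subfield.relrank (kj ℓ d) (kappa ℓ d)) :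
    (psi (p * d) : Cardinal) ≤ Subfield.relrank (kj ℓ (p * d)) (kappa ℓ (p * d)) := by
  have hd0 : d ≠ 0 := hd.ne'
  have hkj : kj ℓ (p * d) = (kj ℓ d).map (V (ZMod ℓ) p) := (kj_map ℓ p d hp.ne_zero hd0).symm
  have h1 : kj ℓ (p * d) ≤ (kappa ℓ d).map (V (ZMod ℓ) p) := by
    rw [hkj]
    exact ind_map_mono ℓ _ (kj_le_kappa ℓ dvd_rfl)
  have h2 : (kappa ℓ d).map (V (ZMod ℓ) p) ≤ kappa ℓ (p * d) :=
    kappa_map_le ℓ p d hp.ne_zero hd0
  have h3 : Subfield.relrank (kj ℓ (p * d)) ((kappa ℓ d).map (V (ZMod ℓ) p)) =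
      Subfield.relrank (kj ℓ d) (kappa ℓ d) := by
    rw [hkj, Subfield.relrank_map_map]
  rw [← Subfield.relrank_mul_relrank h1 h2, h3]
  by_cases hpd : p ∣ d
  · rw [psi_mul_of_dvd hp hd hpd, Nat.cast_mul, mul_comm]
    exact mul_le_mul' ih (ind_ramification ℓ p (p * d) hp.pos _ (ind_map_le_fieldRange ℓ p _))
  · rw [psi_mul_of_not_dvd hp hd hpd, Nat.cast_mul, mul_comm]
    refine mul_le_mul' ih (ind_caseB ℓ p d hp hpℓ hd hpd ?_)
    intro r hr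
    refine lt_of_le_of_ne (hmax r hr) ?_
    rintro rfl
    exact hpd (Nat.mem_primeFactors.mp hr).2.1

theorem psi_le_relrank (M : ℕ) (hM : 0 < M) (hℓ : ¬ ℓ ∣ M) :
    (psi M : Cardinal) ≤ Subfield.relrank (kj ℓ M) (kappa ℓ M) := by
  induction M using Nat.strong_induction_on with
  | _ M ih =>
    by_cases hM1 : M = 1
    · subst hM1
      rw [psi_one, Nat.cast_one]
      exact ind_one_le_relrank ℓ _ _
    have hne : M.primeFactors.Nonempty := Nat.nonempty_primeFactors.mpr (by omega)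
    obtain ⟨p, hpdef⟩ : ∃ p, p = M.primeFactors.max' hne := ⟨_, rfl⟩
    have hpmem : p ∈ M.primeFactors := hpdef ▸ Finset.max'_mem _ hne
    have hp : p.Prime := (Nat.mem_primeFactors.mp hpmem).1
    have hpM : p ∣ M := (Nat.mem_primeFactors.mp hpmem).2.1
    have hmax : ∀ r ∈ M.primeFactors, r ≤ p := fun r hr => hpdef ▸ Finset.le_max' _ r hr
    obtain ⟨d, hMd⟩ := hpM
    have hd : 0 < d := by
      rcases Nat.eq_zero_or_pos d with h | h
      · rw [h, mul_zero] at hMd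
        omega
      · exact h
    have hpℓ : p ≠ ℓ := by
      rintro rfl
      exact hℓ (hMd ▸ dvd_mul_right _ _)
    have hdℓ : ¬ ℓ ∣ d := fun h => hℓ (hMd ▸ h.mul_left p)
    have hdlt : d < M := by
      have := hp.two_le
      rw [hMd]
      nlinarith
    have ihd := ih d hdlt hd hdℓ
    have hmax' : ∀ r ∈ d.primeFactors, r ≤ p := fun r hr =>
      hmax r (Nat.primeFactors_mono (hMd ▸ dvd_mul_left d p) (by omega) hr)
    rw [hMd]
    exact ind_step ℓ p d hp hpℓ hd hmax' ihd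

end W12

end Fermat.Agent.S28
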