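import Mathlib
import Fermat.Prelude.Def_GaloisRep_Flat
import Fermat.Prelude.Def_ModularCurve_LaurentCoeff

/-!
# S28, step (B1): base change of a `ℤ_(ℓ)`-algebra with a mod-`ℓ` `q`-expansion map

Let `A` be a `ℤ_(ℓ)`-algebra with a ring homomorphism `ρ : A → 𝔽_ℓ((q))` whose kernel is `ℓ A`.
Then for every field `K` of characteristic `ℓ` the base change `A ⊗ K` is a domain: it embeds
into `K((q))`.
-/

set_option autoImplicit false

open scoped TensorProduct

namespace Fermat.Agent.S28

/-- Ring homomorphisms out of `ℤ_(ℓ)` (as a subring of `ℚ`) are unique. -/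
theorem ratLocalizedAt_ringHom_ext (l : ℕ) {R : Type*} [Ring R]
    (f g : ↥(GaloisRep.ratLocalizedAt l) →+* R) : f = g := by
  ext x
  -- the denominator of `x` as a unit of `ℤ_(ℓ)`
  have hden : ((x : ℚ).den : ℚ) ≠ 0 := Nat.cast_ne_zero.mpr (x : ℚ).den_ne_zero
  let d : ↥(GaloisRep.ratLocalizedAt l) := ((x : ℚ).den : ↥(GaloisRep.ratLocalizedAt l))
  let u : ↥(GaloisRep.ratLocalizedAt l) := ⟨((x : ℚ).den : ℚ)⁻¹, by
    show (((x : ℚ).den : ℚ)⁻¹).den.Coprime l
    have h1 : (((x : ℚ).den : ℚ)⁻¹).den = (x : ℚ).den := by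
      rw [Rat.inv_natCast_den_of_pos (x : ℚ).den_pos]
    rw [h1]
    exact x.2⟩
  have hdu : d * u = 1 := by
    apply Subtype.ext
    show (((x : ℚ).den : ↥(GaloisRep.ratLocalizedAt l)) : ℚ) * ((x : ℚ).den : ℚ)⁻¹ = 1
    push_cast
    exact mul_inv_cancel₀ hden
  have hxd : x * d = ((x : ℚ).num : ↥(GaloisRep.ratLocalizedAt l)) := by
    apply Subtype.ext
    show (x : ℚ) * (((x : ℚ).den : ↥(GaloisRep.ratLocalizedAt l)) : ℚ)
      = (((x : ℚ).num : ↥(GaloisRep.ratLocalizedAt l)) : ℚ)
    push_cast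
    exact Rat.mul_den_eq_num (x : ℚ)
  have hx : x = ((x : ℚ).num : ↥(GaloisRep.ratLocalizedAt l)) * u := by
    rw [← hxd, mul_assoc, hdu, mul_one]
  have hfu : f u * f d = 1 := by rw [← map_mul, mul_comm, hdu, map_one]
  have hgu : g d * g u = 1 := by rw [← map_mul, hdu, map_one]
  have hfd : f d = g d := by
    show f ((x : ℚ).den : ↥(GaloisRep.ratLocalizedAt l)) = g ((x : ℚ).den : ↥(GaloisRep.ratLocalizedAt l))
    rw [map_natCast, map_natCast]
  have hu : f u = g u := by
    calc f u = f u * (g d * g u) := by rw [hgu, mul_one]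
      _ = (f u * f d) * g u := by rw [hfd, mul_assoc]
      _ = g u := by rw [hfu, one_mul]
  rw [hx, map_mul, map_mul, map_intCast, map_intCast, hu]

section Tensor

variable (l : ℕ) [Fact l.Prime] (A : Type) [CommRing A] [Algebra ↥(GaloisRep.ratLocalizedAt l) A]
  (K : Type) [Field K] [CharP K l] [Algebra ↥(GaloisRep.ratLocalizedAt l) K]

/-- The comparison map `A ⊗ K → K((q))`, `a ⊗ k ↦ ρ(a) · k`. -/
noncomputable def tensorToLaurent (ρ : A →+* LaurentSeries (ZMod l)) :
    A ⊗[↥(GaloisRep.ratLocalizedAt l)] K →+* LaurentSeries K :=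
  (Algebra.TensorProduct.productMap
    ({ toRingHom := (ModularCurve.coeffMap (ZMod.castHom (dvd_refl l) K)).comp ρ
       commutes' := fun c => DFunLike.congr_fun (ratLocalizedAt_ringHom_ext l
          (((ModularCurve.coeffMap (ZMod.castHom (dvd_refl l) K)).comp ρ).comp
            (algebraMap ↥(GaloisRep.ratLocalizedAt l) A))
          (algebraMap ↥(GaloisRep.ratLocalizedAt l) (LaurentSeries K))) c } :
      A →ₐ[↥(GaloisRep.ratLocalizedAt l)] LaurentSeries K)
    ({ toRingHom := algebraMap K (LaurentSeries K)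
       commutes' := fun c => DFunLike.congr_fun (ratLocalizedAt_ringHom_ext l
          ((algebraMap K (LaurentSeries K)).comp (algebraMap ↥(GaloisRep.ratLocalizedAt l) K))
          (algebraMap ↥(GaloisRep.ratLocalizedAt l) (LaurentSeries K))) c } :
      K →ₐ[↥(GaloisRep.ratLocalizedAt l)] LaurentSeries K)).toRingHom

theorem tensorToLaurent_tmul (ρ : A →+* LaurentSeries (ZMod l)) (a : A) (k : K) :
    tensorToLaurent l A K ρ (a ⊗ₜ k)
      = ModularCurve.coeffMap (ZMod.castHom (dvd_refl l) K) (ρ a) * HahnSeries.single 0 k := by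
  rw [← ModularCurve.algebraMap_laurentSeries_eq_single]
  unfold tensorToLaurent
  exact Algebra.TensorProduct.productMap_apply_tmul _ _ a k

/-- The base change is nontrivial as soon as there is a mod-`ℓ` expansion map. -/
theorem nontrivial_tensor_of_ringHom (ρ : A →+* LaurentSeries (ZMod l)) :
    Nontrivial (A ⊗[↥(GaloisRep.ratLocalizedAt l)] K) :=
  (tensorToLaurent l A K ρ).domain_nontrivial

omit [Fact l.Prime] [CharP K l] in
variable {l A K} in
/-- Every tensor is a finite sum `∑ b_j ⊗ e_j` over a given `𝔽_ℓ`-basis `e` of `K`. -/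
theorem exists_finsupp_sum_tmul {J : Type*} (e : J → K)
    (he : ∀ k : K, ∃ (s : Finset J) (n : J → ℕ), k = ∑ j ∈ s, n j • e j)
    (t : A ⊗[↥(GaloisRep.ratLocalizedAt l)] K) :
    ∃ (s : Finset J) (b : J → A), t = ∑ j ∈ s, b j ⊗ₜ[↥(GaloisRep.ratLocalizedAt l)] e j := by
  classical
  induction t using TensorProduct.induction_on with
  | zero => exact ⟨∅, fun _ => 0, by simp⟩
  | tmul a k =>
    obtain ⟨s, n, hk⟩ := he k
    refine ⟨s, fun j => n j • a, ?_⟩
    rw [hk, TensorProduct.tmul_sum]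
    refine Finset.sum_congr rfl fun j _ => ?_
    exact (TensorProduct.smul_tmul (n j) a (e j)).symm
  | add x y hx hy =>
    obtain ⟨s, b, hb⟩ := hx
    obtain ⟨s', b', hb'⟩ := hy
    refine ⟨s ∪ s', fun j => (if j ∈ s then b j else 0) + (if j ∈ s' then b' j else 0), ?_⟩
    have h1 : ∑ j ∈ s, b j ⊗ₜ[↥(GaloisRep.ratLocalizedAt l)] e j
        = ∑ j ∈ s ∪ s', (if j ∈ s then b j else 0) ⊗ₜ[↥(GaloisRep.ratLocalizedAt l)] e j := by
      rw [← Finset.sum_subset Finset.subset_union_left
        (f := fun j => (if j ∈ s then b j else 0) ⊗ₜ[↥(GaloisRep.ratLocalizedAt l)] e j)]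
      · exact Finset.sum_congr rfl fun j hj => by rw [if_pos hj]
      · intro j _ hj
        rw [if_neg hj, TensorProduct.zero_tmul]
    have h2 : ∑ j ∈ s', b' j ⊗ₜ[↥(GaloisRep.ratLocalizedAt l)] e j
        = ∑ j ∈ s ∪ s', (if j ∈ s' then b' j else 0) ⊗ₜ[↥(GaloisRep.ratLocalizedAt l)] e j := by
      rw [← Finset.sum_subset Finset.subset_union_right
        (f := fun j => (if j ∈ s' then b' j else 0) ⊗ₜ[↥(GaloisRep.ratLocalizedAt l)] e j)]
      · exact Finset.sum_congr rfl fun j hj => by rw [if_pos hj]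
      · intro j _ hj
        rw [if_neg hj, TensorProduct.zero_tmul]
    rw [hb, hb', h1, h2, ← Finset.sum_add_distrib]
    exact Finset.sum_congr rfl fun j _ => (TensorProduct.add_tmul _ _ _).symm

/-- **Step (B1).** If `ρ : A → 𝔽_ℓ((q))` has kernel `ℓ A`, the comparison map `A ⊗ K → K((q))` is
injective. -/
theorem tensorToLaurent_injective (ρ : A →+* LaurentSeries (ZMod l))
    (hρ : RingHom.ker ρ = Ideal.span {(l : A)}) :
    Function.Injective (tensorToLaurent l A K ρ) := by
  classical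
  let _ : Algebra (ZMod l) K := (ZMod.castHom (dvd_refl l) K).toAlgebra
  let e := Module.Basis.ofVectorSpace (ZMod l) K
  have he : ∀ k : K, ∃ (s : Finset (Module.Basis.ofVectorSpaceIndex (ZMod l) K)) (n : _ → ℕ),
      k = ∑ j ∈ s, n j • e j := by
    intro k
    refine ⟨(e.repr k).support, fun j => (e.repr k j).val, ?_⟩
    conv_lhs => rw [← e.linearCombination_repr k, Finsupp.linearCombination_apply, Finsupp.sum]
    refine Finset.sum_congr rfl fun j _ => ?_
    rw [Algebra.smul_def, nsmul_eq_mul]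
    congr 1
    show (ZMod.castHom (dvd_refl l) K) (e.repr k j) = _
    rw [ZMod.castHom_apply, ZMod.natCast_val]
  rw [injective_iff_map_eq_zero]
  intro t ht
  obtain ⟨s, b, rfl⟩ := exists_finsupp_sum_tmul (⇑e) he t
  rw [map_sum] at ht
  simp only [tensorToLaurent_tmul] at ht
  -- compare coefficients
  have hcoeff : ∀ j ∈ s, ρ (b j) = 0 := by
    intro j hj
    ext n
    have h1 := congrArg (fun x : LaurentSeries K => x.coeff n) ht
    simp only [HahnSeries.coeff_sum, HahnSeries.coeff_mul_single_zero,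
      ModularCurve.coeffMap_coeff, HahnSeries.coeff_zero] at h1
    have h2 : ∑ i ∈ s, ((ρ (b i)).coeff n) • e i = 0 := by
      rw [← h1]
      refine Finset.sum_congr rfl fun i _ => ?_
      rw [Algebra.smul_def]
      rfl
    exact (linearIndependent_iff'.mp e.linearIndependent) s _ h2 j hj
  refine Finset.sum_eq_zero fun j hj => ?_
  have hmem : b j ∈ Ideal.span {(l : A)} := by
    rw [← hρ]
    exact (RingHom.mem_ker).mpr (hcoeff j hj)
  obtain ⟨c, hc⟩ := Ideal.mem_span_singleton'.mp hmem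
  have hle : l • e j = 0 := by
    rw [nsmul_eq_mul, CharP.cast_eq_zero, zero_mul]
  rw [← hc, mul_comm, ← nsmul_eq_mul, TensorProduct.smul_tmul, hle, TensorProduct.tmul_zero]

/-- **Step (B1).** If `ρ : A → 𝔽_ℓ((q))` has kernel `ℓ A`, then `A ⊗ K` is a domain for every
field `K` of characteristic `ℓ`. -/
theorem isDomain_tensor_of_ker_eq (ρ : A →+* LaurentSeries (ZMod l))
    (hρ : RingHom.ker ρ = Ideal.span {(l : A)}) :
    IsDomain (A ⊗[↥(GaloisRep.ratLocalizedAt l)] K) :=
  (tensorToLaurent_injective l A K ρ hρ).isDomain _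

end Tensor

end Fermat.Agent.S28
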