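import Mathlib

/-!
# S28, W13: an integrality lemma over integrally closed domains

In an integrally closed domain `R` with a prime element `l` and `s` not divisible by `l`: if
`l * y` and `s * y` are integral over `R` then so is `y`.
-/

set_option autoImplicit false

open Polynomial

namespace Fermat.Agent.S28

/-- The minimal polynomial of `c * y` over a field is the root-scaled minimal polynomial
of `y`. -/
theorem normal_minpoly_mul {K L : Type*} [Field K] [Field L] [Algebra K L] (y : L)
    (hy : IsIntegral K y) (c : K) (hc : c ≠ 0) :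
    minpoly K (algebraMap K L c * y) = (minpoly K y).scaleRoots c := by
  symm
  refine minpoly.unique K _ ((monic_scaleRoots_iff c).mpr (minpoly.monic hy))
    (scaleRoots_aeval_eq_zero (minpoly.aeval K y)) ?_
  intro q hq hq0
  rw [degree_scaleRoots]
  have h1 : aeval (algebraMap K L c⁻¹ * (algebraMap K L c * y)) (q.scaleRoots c⁻¹) = 0 :=
    scaleRoots_aeval_eq_zero hq0
  have h2 : algebraMap K L c⁻¹ * (algebraMap K L c * y) = y := by
    rw [← mul_assoc, ← map_mul, inv_mul_cancel₀ hc, map_one, one_mul]
  rw [h2] at h1
  have h3 := minpoly.min K y ((monic_scaleRoots_iff c⁻¹).mpr hq) h1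
  rwa [degree_scaleRoots] at h3

/-- In an integrally closed domain `R` with a prime element `l` and `s` not divisible by `l`:
if `l y` and `s y` are integral over `R` then so is `y` (coefficients of the minimal
polynomial). -/
theorem isIntegral_of_mul_isIntegral {R L : Type*} [CommRing R] [IsDomain R]
    [IsIntegrallyClosed R] [Field L] [Algebra R L] [FaithfulSMul R L] (l s : R) (hl : Prime l)
    (hs : ¬ l ∣ s) (y : L) (h1 : IsIntegral R (algebraMap R L l * y))
    (h2 : IsIntegral R (algebraMap R L s * y)) : IsIntegral R y := by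
  classical
  let _ : Algebra (FractionRing R) L := FractionRing.liftAlgebra R L
  have : IsScalarTower R (FractionRing R) L := FractionRing.isScalarTower_liftAlgebra R L
  set K := FractionRing R with hK
  have hinj : Function.Injective (algebraMap R K) := IsFractionRing.injective R K
  have hl0 : l ≠ 0 := hl.ne_zero
  have hs0 : s ≠ 0 := by
    rintro rfl
    exact hs (dvd_zero l)
  have hlK : algebraMap R K l ≠ 0 := fun h => hl0 (hinj (by rw [h, map_zero]))
  have hsK : algebraMap R K s ≠ 0 := fun h => hs0 (hinj (by rw [h, map_zero]))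
  have hlL : algebraMap R L l = algebraMap K L (algebraMap R K l) :=
    IsScalarTower.algebraMap_apply R K L l
  have hsL : algebraMap R L s = algebraMap K L (algebraMap R K s) :=
    IsScalarTower.algebraMap_apply R K L s
  -- `y` is algebraic over `K`
  have hyK : IsIntegral K y := by
    have h3 : IsIntegral K (algebraMap R L l * y) := h1.tower_top
    have h4 : IsIntegral K (algebraMap K L (algebraMap R K l)⁻¹) := isIntegral_algebraMap
    have h5 := h4.mul h3
    have e : algebraMap K L (algebraMap R K l)⁻¹ * (algebraMap R L l * y) = y := by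
      rw [hlL, ← mul_assoc, ← map_mul, inv_mul_cancel₀ hlK, map_one, one_mul]
    rwa [e] at h5
  set m := minpoly K y with hm
  set n := m.natDegree with hn
  -- the coefficients of the scaled minimal polynomials lie in `R`
  have hcoef : ∀ (c : R), c ≠ 0 → IsIntegral R (algebraMap R L c * y) →
      ∀ i, ∃ r : R, algebraMap R K r = m.coeff i * algebraMap R K c ^ (n - i) := by
    intro c hc hint i
    have hcK : algebraMap R K c ≠ 0 := fun h => hc (hinj (by rw [h, map_zero]))
    have e1 := minpoly.isIntegrallyClosed_eq_field_fractions' K hint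
    rw [IsScalarTower.algebraMap_apply R K L c, normal_minpoly_mul y hyK _ hcK] at e1
    refine ⟨(minpoly R (algebraMap R L c * y)).coeff i, ?_⟩
    have e2 := congrArg (fun P => P.coeff i) e1
    simp only [coeff_scaleRoots, coeff_map] at e2
    rw [IsScalarTower.algebraMap_apply R K L c]
    exact e2.symm
  have hlift : m ∈ lifts (algebraMap R K) := by
    rw [lifts_iff_coeff_lifts]
    intro i
    obtain ⟨r₁, hr₁⟩ := hcoef l hl0 h1 i
    obtain ⟨r₂, hr₂⟩ := hcoef s hs0 h2 i
    have e : r₁ * s ^ (n - i) = r₂ * l ^ (n - i) := by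
      apply hinj
      rw [map_mul, map_mul, map_pow, map_pow, hr₁, hr₂]
      ring
    have hdvd : l ^ (n - i) ∣ r₁ := by
      refine hl.pow_dvd_of_dvd_mul_right (b := s ^ (n - i)) (n - i)
        (fun h => hs (hl.dvd_of_dvd_pow h)) ?_
      rw [e]
      exact Dvd.intro_left _ rfl
    obtain ⟨r₃, hr₃⟩ := hdvd
    refine ⟨r₃, ?_⟩
    have h6 : algebraMap R K l ^ (n - i) ≠ 0 := pow_ne_zero _ hlK
    apply mul_right_cancel₀ h6
    rw [← hr₁, hr₃, map_mul, map_pow]
    ring
  obtain ⟨q, hq, -, hqm⟩ := lifts_and_natDegree_eq_and_monic hlift (minpoly.monic hyK)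
  refine ⟨q, hqm, ?_⟩
  have h7 : aeval y (map (algebraMap R K) q) = aeval y q := aeval_map_algebraMap K y q
  rw [hq, hm, minpoly.aeval] at h7
  rw [← aeval_def]
  exact h7.symm

end Fermat.Agent.S28
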