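import Mathlib
import Fermat.Agent.S28.Defs
import Fermat.Agent.S28.ValRing
import Fermat.Agent.S28.FundIneq
import Fermat.Agent.S28.RelrankFt
import Fermat.Agent.S28.Induction
import Fermat.Agent.S28.Normal
import Fermat.Agent.S28.TensorDomain
import Fermat.Agent.S28.PsiArith

/-!
S28, charts: the chart algebras of the Igusa model map to `𝔽_ℓ((q))` with kernel generated by `ℓ`;
hence their base changes to a field of characteristic `ℓ` are domains.
-/

set_option autoImplicit false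
set_option linter.unusedSectionVars false

open ModularCurve ModularCurve.IgusaScheme
open scoped TensorProduct

noncomputable section

namespace Fermat.Agent.S28

/-! ### Arithmetic of `ℤ_(ℓ)` -/

section Oell

variable (ℓ : ℕ) [Fact ℓ.Prime]

theorem chart_exists_inv (b : ℕ) (hb : b.Coprime ℓ) : ∃ u : Oℓ ℓ, (u : ℚ) = (b : ℚ)⁻¹ := by
  have hb0 : 0 < b := by
    rcases Nat.eq_zero_or_pos b with h | h
    · subst h
      rw [Nat.coprime_zero_left] at hb
      exact absurd hb (Fact.out : ℓ.Prime).one_lt.ne'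
    · exact h
  refine ⟨⟨(b : ℚ)⁻¹, ?_⟩, rfl⟩
  show ((b : ℚ)⁻¹).den.Coprime ℓ
  rw [Rat.inv_natCast_den_of_pos hb0]
  exact hb

theorem chart_num_eq (x : Oℓ ℓ) :
    ∃ u : Oℓ ℓ, x = ((x : ℚ).num : Oℓ ℓ) * u ∧ (((x : ℚ).den : ℕ) : Oℓ ℓ) * x = ((x : ℚ).num : Oℓ ℓ) := by
  obtain ⟨u, hu⟩ := chart_exists_inv ℓ (x : ℚ).den x.2
  refine ⟨u, Subtype.ext ?_, Subtype.ext ?_⟩
  · push_cast
    rw [hu]
    exact (Rat.num_div_den (x : ℚ)).symm.trans (div_eq_mul_inv _ _)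
  · push_cast
    rw [mul_comm]
    exact Rat.mul_den_eq_num (x : ℚ)

instance chart_isPrincipalIdealRing : IsPrincipalIdealRing (Oℓ ℓ) := by
  refine ⟨fun I => ?_⟩
  obtain ⟨n, hn⟩ : ∃ n : ℤ, I.comap (Int.castRingHom (Oℓ ℓ)) = Ideal.span {n} :=
    ⟨_, (Ideal.span_singleton_generator _).symm⟩
  refine ⟨⟨(n : Oℓ ℓ), ?_⟩⟩
  apply le_antisymm
  · intro x hx
    obtain ⟨u, hxu, hden⟩ := chart_num_eq ℓ x
    have ha : ((x : ℚ).num : Oℓ ℓ) ∈ I := by
      rw [← hden]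
      exact I.mul_mem_left _ hx
    have ha' : (x : ℚ).num ∈ I.comap (Int.castRingHom (Oℓ ℓ)) := by
      rw [Ideal.mem_comap]
      simpa using ha
    rw [hn, Ideal.mem_span_singleton] at ha'
    obtain ⟨c, hc⟩ := ha'
    rw [Ideal.submodule_span_eq, Ideal.mem_span_singleton]
    refine ⟨(c : Oℓ ℓ) * u, ?_⟩
    rw [hxu, hc]
    push_cast
    ring
  · rw [Ideal.submodule_span_eq, Ideal.span_le, Set.singleton_subset_iff]
    have : n ∈ I.comap (Int.castRingHom (Oℓ ℓ)) := by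
      rw [hn]
      exact Ideal.mem_span_singleton_self n
    simpa using this

theorem chart_red_natCast : red ℓ ((ℓ : ℕ) : Oℓ ℓ) = 0 := by
  rw [map_natCast]
  exact ZMod.natCast_self ℓ

theorem chart_red_eq_zero_iff (x : Oℓ ℓ) :
    red ℓ x = 0 ↔ ∃ y : Oℓ ℓ, x = ((ℓ : ℕ) : Oℓ ℓ) * y := by
  constructor
  · intro h
    obtain ⟨u, hxu, hden⟩ := chart_num_eq ℓ x
    have h1 : red ℓ ((x : ℚ).num : Oℓ ℓ) = 0 := by
      rw [← hden, map_mul, h, mul_zero]
    rw [map_intCast, ZMod.intCast_zmod_eq_zero_iff_dvd] at h1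
    obtain ⟨c, hc⟩ := h1
    refine ⟨(c : Oℓ ℓ) * u, ?_⟩
    rw [hxu, hc]
    push_cast
    ring
  · rintro ⟨y, rfl⟩
    rw [map_mul, chart_red_natCast, zero_mul]

theorem chart_natCast_ne_zero : ((ℓ : ℕ) : Oℓ ℓ) ≠ 0 := by
  intro h
  have := congrArg (Subtype.val) h
  simp only [Subring.coe_natCast, Subring.coe_zero, Nat.cast_eq_zero] at this
  exact (Fact.out : ℓ.Prime).ne_zero this

theorem chart_prime_ell : Prime ((ℓ : ℕ) : Oℓ ℓ) := by
  rw [← Ideal.span_singleton_prime (chart_natCast_ne_zero ℓ)]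
  have hker : RingHom.ker (red ℓ) = Ideal.span {((ℓ : ℕ) : Oℓ ℓ)} := by
    ext x
    rw [RingHom.mem_ker, chart_red_eq_zero_iff, Ideal.mem_span_singleton]
    rfl
  rw [← hker]
  exact RingHom.ker_isPrime (red ℓ)

theorem chart_not_dvd (Q : Polynomial (Oℓ ℓ)) (hQ : Q.map (red ℓ) ≠ 0) :
    ¬ (Polynomial.C ((ℓ : ℕ) : Oℓ ℓ)) ∣ Q := by
  rintro ⟨Q', rfl⟩
  apply hQ
  rw [Polynomial.map_mul, Polynomial.map_C, chart_red_natCast, map_zero, zero_mul]

instance chart_isIntegrallyClosed : IsIntegrallyClosed (Polynomial (Oℓ ℓ)) :=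
  UniqueFactorizationMonoid.instIsIntegrallyClosed

end Oell


/-! ### `evJ` and the valuation ring -/

section EvJ

variable (ℓ : ℕ) [Fact ℓ.Prime]

theorem chart_evJ_C (t : LaurentSeries ℚ) (a : Oℓ ℓ) :
    evJ ℓ t (Polynomial.C a) = algebraMap ℚ (LaurentSeries ℚ) (a : ℚ) := by
  simp [evJ]

theorem chart_evJ_X (t : LaurentSeries ℚ) : evJ ℓ t Polynomial.X = t := by
  simp [evJ]

theorem chart_const_mem_Vw (a : Oℓ ℓ) : algebraMap ℚ (LaurentSeries ℚ) (a : ℚ) ∈ Vw ℓ := by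
  have h : algebraMap ℚ (LaurentSeries ℚ) (a : ℚ) = toQ ℓ (HahnSeries.C a) := by
    rw [algebraMap_laurentSeries_eq_single, toQ, HahnSeries.C_apply, coeffMap_single]
    rfl
  rw [h]
  exact toQ_mem_Vw ℓ _

theorem chart_evJ_mem_Vw (t : LaurentSeries ℚ) (ht : t ∈ Vw ℓ) (P : Polynomial (Oℓ ℓ)) :
    evJ ℓ t P ∈ Vw ℓ := by
  induction P using Polynomial.induction_on with
  | C a => rw [chart_evJ_C]; exact chart_const_mem_Vw ℓ a
  | add p q hp hq => rw [map_add]; exact add_mem hp hq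
  | monomial n a h =>
    rw [pow_succ, ← mul_assoc, map_mul, chart_evJ_X]
    exact mul_mem h ht

/-- `evJ ℓ t` is injective when `t` is transcendental over `ℚ`. -/
theorem chart_evJ_injective (t : LaurentSeries ℚ) (ht : Transcendental ℚ t) :
    Function.Injective (evJ ℓ t) := by
  rw [injective_iff_map_eq_zero]
  intro P hP
  have h1 : evJ ℓ t P = Polynomial.aeval t (P.map (GaloisRep.ratLocalizedAt ℓ).subtype) := by
    rw [evJ, Polynomial.coe_eval₂RingHom, Polynomial.aeval_def, Polynomial.eval₂_map]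
  rw [h1] at hP
  have h2 := (transcendental_iff.mp ht) _ hP
  exact (Polynomial.map_eq_zero_iff (Subtype.val_injective)).mp h2

end EvJ


/-! ### Integrality over `ℤ_(ℓ)[s]` in terms of `evJ` -/

/-- the full modular function field as a type. -/
abbrev chartF (N : ℕ) : Type := ↥(modularFunctionFieldFull N)

section Conv

variable (N : ℕ) [NeZero N] (ℓ : ℕ) [Fact ℓ.Prime]

/-- the coercion `F → ℚ((q))` as a ring hom. -/
def chartVal : chartF N →+* LaurentSeries ℚ := algebraMap (chartF N) (LaurentSeries ℚ)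

theorem chartVal_apply (x : chartF N) : chartVal N x = (x : LaurentSeries ℚ) := rfl

theorem chartVal_injective : Function.Injective (chartVal N) := Subtype.val_injective

theorem chart_coe_algebraMap (a : Oℓ ℓ) :
    ((algebraMap (Oℓ ℓ) (chartF N) a : chartF N) : LaurentSeries ℚ) =
      algebraMap ℚ (LaurentSeries ℚ) (a : ℚ) := by
  rw [RingHom.algebraMap_toAlgebra, RingHom.comp_apply]
  have h1 : algebraMap ↥(GaloisRep.ratLocalizedAt ℓ) ℚ a = (a : ℚ) := rfl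
  rw [h1, eq_ratCast (algebraMap ℚ ↥(modularFunctionFieldFull N)),
    eq_ratCast (algebraMap ℚ (LaurentSeries ℚ))]
  simp

/-- `P ↦ P(s)` as a ring hom `ℤ_(ℓ)[X] → ℤ_(ℓ)[s] ⊆ F`. -/
def chartEv (s : chartF N) :
    Polynomial (Oℓ ℓ) →+* ↥(Algebra.adjoin (Oℓ ℓ) ({s} : Set (chartF N))) :=
  ((Polynomial.aeval s : Polynomial (Oℓ ℓ) →ₐ[Oℓ ℓ] chartF N).codRestrict
    (Algebra.adjoin (Oℓ ℓ) ({s} : Set (chartF N))) (fun P => by
      rw [Algebra.adjoin_singleton_eq_range_aeval]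
      exact ⟨P, rfl⟩)).toRingHom

theorem chartEv_coe (s : chartF N) (P : Polynomial (Oℓ ℓ)) :
    ((chartEv N ℓ s P : ↥(Algebra.adjoin (Oℓ ℓ) ({s} : Set (chartF N)))) : chartF N) =
      Polynomial.aeval s P :=
  rfl

theorem chartEv_surjective (s : chartF N) : Function.Surjective (chartEv N ℓ s) := by
  rintro ⟨c, hc⟩
  rw [Algebra.adjoin_singleton_eq_range_aeval] at hc
  obtain ⟨P, rfl⟩ := hc
  exact ⟨P, rfl⟩

theorem chart_comp_eq (s : chartF N) :
    ((chartVal N).comp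
      ((algebraMap (↥(Algebra.adjoin (Oℓ ℓ) ({s} : Set (chartF N)))) (chartF N)).comp
        (chartEv N ℓ s))) = evJ ℓ (s : LaurentSeries ℚ) := by
  apply Polynomial.ringHom_ext
  · intro a
    rw [chart_evJ_C]
    show ((Polynomial.aeval s (Polynomial.C a) : chartF N) : LaurentSeries ℚ) = _
    rw [Polynomial.aeval_C]
    exact chart_coe_algebraMap N ℓ a
  · rw [chart_evJ_X]
    show ((Polynomial.aeval s (Polynomial.X : Polynomial (Oℓ ℓ)) : chartF N) : LaurentSeries ℚ) = _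
    rw [Polynomial.aeval_X]

theorem chart_mem_iff (s x : chartF N) :
    x ∈ chartAlg N ℓ {s} ↔ (evJ ℓ (s : LaurentSeries ℚ)).IsIntegralElem (x : LaurentSeries ℚ) := by
  rw [mem_chartAlg_iff]
  constructor
  · rintro ⟨p, hmonic, hroot⟩
    obtain ⟨q, hq⟩ := Polynomial.map_surjective (chartEv N ℓ s) (chartEv_surjective N ℓ s) p
    have hlifts : p ∈ Polynomial.lifts (chartEv N ℓ s) := (Polynomial.mem_lifts p).mpr ⟨q, hq⟩
    obtain ⟨q', hq', -, hq'monic⟩ := Polynomial.lifts_and_natDegree_eq_and_monic hlifts hmonic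
    refine ⟨q', hq'monic, ?_⟩
    rw [← chart_comp_eq, ← chartVal_apply, ← Polynomial.hom_eval₂, ← Polynomial.eval₂_map, hq',
      hroot, map_zero]
  · rintro ⟨q, hmonic, hroot⟩
    refine ⟨q.map (chartEv N ℓ s), hmonic.map _, ?_⟩
    rw [Polynomial.eval₂_map]
    apply chartVal_injective N
    rw [map_zero, Polynomial.hom_eval₂, chart_comp_eq]
    exact hroot

end Conv

/-! ### The charts lie in the valuation ring; the reduction maps and their kernels -/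

section Kernel

variable (N : ℕ) [NeZero N] (ℓ : ℕ) [Fact ℓ.Prime]

theorem chart_inv_mem_Vw (x : Vw ℓ) (h0 : rho ℓ x ≠ 0) : (x : LaurentSeries ℚ)⁻¹ ∈ Vw ℓ := by
  obtain ⟨a, b, hb, h⟩ := x.2
  have hspec := rho_spec ℓ x a b hb h
  have ha : toF ℓ a ≠ 0 := by
    rw [← hspec]
    exact mul_ne_zero h0 hb
  have hbQ : toQ ℓ b ≠ 0 := fun hq => hb (by
    have : b = 0 := toQ_injective ℓ (by rw [hq, map_zero])
    rw [this, map_zero])
  have haQ : toQ ℓ a ≠ 0 := fun hq => ha (by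
    have : a = 0 := toQ_injective ℓ (by rw [hq, map_zero])
    rw [this, map_zero])
  have hx0 : (x : LaurentSeries ℚ) ≠ 0 := by
    intro hx0
    rw [hx0, zero_mul] at h
    exact haQ h.symm
  refine ⟨b, a, ha, ?_⟩
  rw [← h]
  field_simp

theorem chart_coe_jFull : ((jFull N : chartF N) : LaurentSeries ℚ) = jd ℚ 1 := by
  rw [coe_jFull, jd_one]
  rfl

theorem chart_coe_jFull_inv : (((jFull N)⁻¹ : chartF N) : LaurentSeries ℚ) = (jd ℚ 1)⁻¹ := by
  rw [← chart_coe_jFull N]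
  rfl

theorem chart_jd_one_ne_zero : jd (ZMod ℓ) 1 ≠ 0 := by
  rw [jd_one]
  exact jqModC_ne_zero_of_nontrivial _

theorem chart_jinv_mem_Vw : (jd ℚ 1)⁻¹ ∈ Vw ℓ := by
  refine chart_inv_mem_Vw ℓ ⟨jd ℚ 1, jd_mem_Vw ℓ 1⟩ ?_
  rw [rho_jd]
  exact chart_jd_one_ne_zero ℓ

theorem chart_adjoin_mem_Vw (S : Set (chartF N)) (hS : S ⊆ {jFull N, (jFull N)⁻¹})
    (c : chartF N) (hc : c ∈ Algebra.adjoin (Oℓ ℓ) S) : (c : LaurentSeries ℚ) ∈ Vw ℓ := by
  induction hc using Algebra.adjoin_induction with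
  | mem y hy =>
    rcases hS hy with rfl | rfl
    · rw [chart_coe_jFull]
      exact jd_mem_Vw ℓ 1
    · rw [chart_coe_jFull_inv]
      exact chart_jinv_mem_Vw ℓ
  | algebraMap a =>
    rw [chart_coe_algebraMap]
    exact chart_const_mem_Vw ℓ a
  | add y z _ _ hy hz => exact add_mem hy hz
  | mul y z _ _ hy hz => exact mul_mem hy hz

theorem chart_mem_Vw (S : Set (chartF N)) (hS : S ⊆ {jFull N, (jFull N)⁻¹})
    (x : chartF N) (hx : x ∈ chartAlg N ℓ S) : (x : LaurentSeries ℚ) ∈ Vw ℓ := by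
  obtain ⟨p, hmonic, hroot⟩ := (mem_chartAlg_iff N ℓ).mp hx
  refine mem_Vw_of_isIntegral ℓ _ (Ft_le_frac ℓ N (NeZero.pos N) _ (full_le_Ft N x.2))
    ⟨p.map ((chartVal N).comp (algebraMap (↥(Algebra.adjoin (Oℓ ℓ) S)) (chartF N))),
      hmonic.map _, fun i => ?_, ?_⟩
  · rw [Polynomial.coeff_map]
    exact chart_adjoin_mem_Vw N ℓ S hS _ (p.coeff i).2
  · rw [Polynomial.eval_map, ← chartVal_apply, ← Polynomial.hom_eval₂, hroot, map_zero]

/-- The reduction map of a chart: `chartAlg N ℓ S → 𝔽_ℓ((q))`. -/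
def chartRho (S : Set (chartF N)) (hS : S ⊆ {jFull N, (jFull N)⁻¹}) :
    ↥(chartAlg N ℓ S) →+* LaurentSeries (ZMod ℓ) :=
  (rho ℓ).comp (((chartVal N).comp (chartAlg N ℓ S).toSubring.subtype).codRestrict (Vw ℓ)
    (fun x => chart_mem_Vw N ℓ S hS x.1 x.2))

theorem chartRho_apply (S : Set (chartF N)) (hS : S ⊆ {jFull N, (jFull N)⁻¹})
    (x : ↥(chartAlg N ℓ S)) :
    chartRho N ℓ S hS x =
      rho ℓ ⟨((x : chartF N) : LaurentSeries ℚ), chart_mem_Vw N ℓ S hS x.1 x.2⟩ := rfl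

theorem chart_natCast_eq_zero : ((ℓ : ℕ) : LaurentSeries (ZMod ℓ)) = 0 := by
  rw [← map_natCast (algebraMap (ZMod ℓ) (LaurentSeries (ZMod ℓ))) ℓ, ZMod.natCast_self, map_zero]

theorem chart_transcendental (t : LaurentSeries ℚ) (ht : t = jd ℚ 1 ∨ t = (jd ℚ 1)⁻¹) :
    Transcendental ℚ t := by
  have h1 : Transcendental ℚ (jd ℚ 1) :=
    transcendental_iff.mpr fun P hP => by
      by_contra hne
      exact jd_rat_transcendental 1 one_ne_zero P hne hP
  rcases ht with rfl | rfl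
  · exact h1
  · intro halg
    exact h1 (by simpa using halg.inv)

/-- the key kernel statement for a chart generated by one of `j`, `j⁻¹`. -/
theorem chart_ker_single (hℓN : ¬ ℓ ∣ N) (s : chartF N)
    (hs : (s : LaurentSeries ℚ) = jd ℚ 1 ∨ (s : LaurentSeries ℚ) = (jd ℚ 1)⁻¹)
    (x : chartF N) (hx : x ∈ chartAlg N ℓ {s}) (hxV : (x : LaurentSeries ℚ) ∈ Vw ℓ)
    (h0 : rho ℓ ⟨x, hxV⟩ = 0) :
    ∃ y : chartF N, y ∈ chartAlg N ℓ {s} ∧ x = ((ℓ : ℕ) : chartF N) * y := by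
  obtain ⟨y', hy'⟩ := (rho_eq_zero_iff ℓ ⟨x, hxV⟩).mp h0
  have hℓ0 : ((ℓ : ℕ) : chartF N) ≠ 0 := Nat.cast_ne_zero.mpr (Fact.out : ℓ.Prime).ne_zero
  have hℓ0' : ((ℓ : ℕ) : LaurentSeries ℚ) ≠ 0 := by
    intro h
    apply hℓ0
    apply Subtype.ext
    have h1 : (((ℓ : ℕ) : chartF N) : LaurentSeries ℚ) = ((ℓ : ℕ) : LaurentSeries ℚ) := rfl
    rw [h1, h]
    rfl
  set y : chartF N := ((ℓ : ℕ) : chartF N)⁻¹ * x with hy
  have hxy : x = ((ℓ : ℕ) : chartF N) * y := by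
    rw [hy, ← mul_assoc, mul_inv_cancel₀ hℓ0, one_mul]
  have hyy' : (y : LaurentSeries ℚ) = (y' : LaurentSeries ℚ) := by
    apply mul_left_cancel₀ hℓ0'
    have h1 : (x : LaurentSeries ℚ) = ((ℓ : ℕ) : LaurentSeries ℚ) * (y : LaurentSeries ℚ) := by
      conv_lhs => rw [hxy]
      push_cast
      rfl
    rw [← h1]
    exact hy'
  have hyV : (y : LaurentSeries ℚ) ∈ Vw ℓ := by
    rw [hyy']
    exact y'.2
  have hyFt : (y : LaurentSeries ℚ) ∈ Ft N := full_le_Ft N y.2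
  have hN : 0 < N := NeZero.pos N
  obtain ⟨Q, hQ, hQint⟩ := isIntegralElem_of_relrank ℓ N 1 hN (one_dvd N) (psi N)
    (relrank_Ft_le N 1 hN (one_dvd N))
    ((psi_le_relrank ℓ N hN hℓN).trans_eq (relrank_one_eq ℓ N hN hℓN).symm)
    (s : LaurentSeries ℚ) hs (y : LaurentSeries ℚ) hyFt hyV
  have hxint := (chart_mem_iff N ℓ s x).mp hx
  refine ⟨y, (chart_mem_iff N ℓ s y).mpr ?_, hxy⟩
  let _ : Algebra (Polynomial (Oℓ ℓ)) (LaurentSeries ℚ) := (evJ ℓ (s : LaurentSeries ℚ)).toAlgebra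
  have hfaith : FaithfulSMul (Polynomial (Oℓ ℓ)) (LaurentSeries ℚ) :=
    (faithfulSMul_iff_algebraMap_injective _ _).mpr
      (chart_evJ_injective ℓ _ (chart_transcendental _ hs))
  have h1 : IsIntegral (Polynomial (Oℓ ℓ))
      (algebraMap (Polynomial (Oℓ ℓ)) (LaurentSeries ℚ) (Polynomial.C ((ℓ : ℕ) : Oℓ ℓ)) *
        (y : LaurentSeries ℚ)) := by
    have h2 : algebraMap (Polynomial (Oℓ ℓ)) (LaurentSeries ℚ) (Polynomial.C ((ℓ : ℕ) : Oℓ ℓ)) *
        (y : LaurentSeries ℚ) = (x : LaurentSeries ℚ) := by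
      rw [RingHom.algebraMap_toAlgebra, chart_evJ_C]
      conv_rhs => rw [hxy]
      push_cast
      rfl
    rw [h2]
    exact hxint
  have h3 : IsIntegral (Polynomial (Oℓ ℓ))
      (algebraMap (Polynomial (Oℓ ℓ)) (LaurentSeries ℚ) Q * (y : LaurentSeries ℚ)) := hQint
  exact isIntegral_of_mul_isIntegral (Polynomial.C ((ℓ : ℕ) : Oℓ ℓ)) Q
    (Polynomial.prime_C_iff.mpr (chart_prime_ell ℓ)) (chart_not_dvd ℓ Q hQ) _ h1 h3

/-- kernel of the reduction map of a chart generated by one of `j`, `j⁻¹`. -/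
theorem chart_ker_of_single (hℓN : ¬ ℓ ∣ N) (s : chartF N)
    (hsS : ({s} : Set (chartF N)) ⊆ {jFull N, (jFull N)⁻¹}) :
    RingHom.ker (chartRho N ℓ {s} hsS) = Ideal.span {((ℓ : ℕ) : ↥(chartAlg N ℓ {s}))} := by
  apply le_antisymm
  · intro x hx
    rw [RingHom.mem_ker, chartRho_apply] at hx
    have hs : (s : LaurentSeries ℚ) = jd ℚ 1 ∨ (s : LaurentSeries ℚ) = (jd ℚ 1)⁻¹ := by
      rcases hsS (Set.mem_singleton s) with h | h
      · left
        rw [h, chart_coe_jFull]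
      · right
        rw [Set.mem_singleton_iff] at h
        rw [h, chart_coe_jFull_inv]
    obtain ⟨y, hy, hxy⟩ := chart_ker_single N ℓ hℓN s hs x.1 x.2 _ hx
    rw [Ideal.mem_span_singleton]
    exact ⟨⟨y, hy⟩, Subtype.ext hxy⟩
  · rw [Ideal.span_le, Set.singleton_subset_iff, SetLike.mem_coe, RingHom.mem_ker, map_natCast]
    exact chart_natCast_eq_zero ℓ

/-- kernel of the reduction map of the middle chart. -/
theorem chart_ker_mid (hℓN : ¬ ℓ ∣ N) :
    RingHom.ker (chartRho N ℓ {jFull N, (jFull N)⁻¹} subset_rfl) =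
      Ideal.span {((ℓ : ℕ) : ↥(chartAlgMid N ℓ))} := by
  apply le_antisymm
  · intro x hx
    rw [RingHom.mem_ker, chartRho_apply] at hx
    have hz : (x : chartF N) ∈ chartAlg N ℓ (insert (jFull N)⁻¹ {jFull N}) := by
      rw [show insert (jFull N)⁻¹ ({jFull N} : Set (chartF N)) = {jFull N, (jFull N)⁻¹}
        from Set.pair_comm _ _]
      exact x.2
    obtain ⟨n, hn⟩ := exists_pow_mul_mem_chartAlg (Set.mem_singleton _) (jFull_ne_zero N) hz
    have hzV : ((jFull N ^ n * (x : chartF N) : chartF N) : LaurentSeries ℚ) ∈ Vw ℓ :=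
      chart_mem_Vw N ℓ {jFull N} (sFin_subset N) _ hn
    have hz0 : rho ℓ ⟨_, hzV⟩ = 0 := by
      have h1 : (⟨_, hzV⟩ : Vw ℓ) = (⟨jd ℚ 1, jd_mem_Vw ℓ 1⟩ : Vw ℓ) ^ n *
          ⟨((x : chartF N) : LaurentSeries ℚ), chart_mem_Vw N ℓ _ subset_rfl x.1 x.2⟩ := by
        apply Subtype.ext
        show ((jFull N ^ n * (x : chartF N) : chartF N) : LaurentSeries ℚ) =
          (jd ℚ 1) ^ n * ((x : chartF N) : LaurentSeries ℚ)
        rw [← chart_coe_jFull N]
        rfl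
      rw [h1, map_mul, hx, mul_zero]
    obtain ⟨y, hy, hzy⟩ := chart_ker_single N ℓ hℓN (jFull N) (Or.inl (chart_coe_jFull N)) _ hn
      hzV hz0
    rw [Ideal.mem_span_singleton]
    refine ⟨⟨y * (jFull N)⁻¹ ^ n, mul_mem (chartAlg_mono N ℓ (sFin_subset N) hy)
      (pow_mem (subset_chartAlg N ℓ _ (by simp)) n)⟩, Subtype.ext ?_⟩
    have hj := jFull_ne_zero N
    show (x : chartF N) = ((ℓ : ℕ) : chartF N) * (y * (jFull N)⁻¹ ^ n)
    rw [← mul_assoc, ← hzy, inv_pow]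
    field_simp
  · rw [Ideal.span_le, Set.singleton_subset_iff, SetLike.mem_coe, RingHom.mem_ker, map_natCast]
    exact chart_natCast_eq_zero ℓ

end Kernel

/-- **The three charts have integral special fibres** (after any base change to a field of
characteristic `ℓ`). -/
theorem isDomain_charts (N : ℕ) [NeZero N] (ℓ : ℕ) [Fact ℓ.Prime] (hℓN : ¬ ℓ ∣ N)
    (K : Type) [Field K] [CharP K ℓ] [Algebra (Oℓ ℓ) K] :
    IsDomain (↥(chartAlgFin N ℓ) ⊗[Oℓ ℓ] K) ∧ IsDomain (↥(chartAlgInf N ℓ) ⊗[Oℓ ℓ] K) ∧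
      IsDomain (↥(chartAlgMid N ℓ) ⊗[Oℓ ℓ] K) :=
  ⟨isDomain_tensor_of_ker_eq ℓ _ K (chartRho N ℓ {jFull N} (sFin_subset N))
      (chart_ker_of_single N ℓ hℓN _ _),
    isDomain_tensor_of_ker_eq ℓ _ K (chartRho N ℓ {(jFull N)⁻¹} (sInf_subset N))
      (chart_ker_of_single N ℓ hℓN _ _),
    isDomain_tensor_of_ker_eq ℓ _ K (chartRho N ℓ {jFull N, (jFull N)⁻¹} subset_rfl)
      (chart_ker_mid N ℓ hℓN)⟩

end Fermat.Agent.S28
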