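import Mathlib
import Fermat.Agent.S28.Defs

/-!
S28, scheme glue: the pullback of the Igusa scheme to a field `K` is integral as soon as the three
chart algebras tensored with `K` are domains.
-/

set_option autoImplicit false

open AlgebraicGeometry CategoryTheory CategoryTheory.Limits ModularCurve ModularCurve.IgusaScheme
open TensorProduct

noncomputable section

namespace Fermat.Agent.S28

universe u

/-- A scheme covered by integral open subschemes with pairwise intersecting images is integral. -/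
theorem scheme_isIntegral_of_openCover {P : Scheme.{u}} (𝒱 : P.OpenCover) [Nonempty 𝒱.I₀]
    (h : ∀ i, IsIntegral (𝒱.X i))
    (hn : ∀ i j, ∃ x : P, x ∈ Set.range (𝒱.f i) ∧ x ∈ Set.range (𝒱.f j)) :
    IsIntegral P := by
  have hred : IsReduced P := (IsReduced.iff_of_openCover P 𝒱).mpr fun i => inferInstance
  have hne : Nonempty P := by
    obtain ⟨i⟩ := (inferInstance : Nonempty 𝒱.I₀)
    have : Nonempty (𝒱.X i) := (h i).nonempty
    exact Nonempty.map (𝒱.f i) inferInstance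
  have hpre : PreirreducibleSpace P := by
    refine PreirreducibleSpace.of_isOpenCover (U := fun i => (𝒱.f i).opensRange) ?_
      𝒱.isOpenCover_opensRange ?_
    · intro i j _
      obtain ⟨x, hxi, hxj⟩ := hn i j
      show ¬ Disjoint ((𝒱.f i).opensRange) ((𝒱.f j).opensRange)
      rw [disjoint_iff]
      intro hbot
      have hx : x ∈ ((𝒱.f i).opensRange ⊓ (𝒱.f j).opensRange : P.Opens) := ⟨hxi, hxj⟩
      rw [hbot] at hx
      exact hx
    · intro i
      have hirr : IrreducibleSpace (𝒱.X i) := inferInstance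
      have hemb := (𝒱.f i).isOpenEmbedding
      have : IsPreirreducible (Set.range (𝒱.f i)) := by
        rw [← Set.image_univ]
        exact (PreirreducibleSpace.isPreirreducible_univ (X := 𝒱.X i)).image _
          hemb.continuous.continuousOn
      exact (isPreirreducible_iff_preirreducibleSpace).mp this
  have : IrreducibleSpace P := { toPreirreducibleSpace := hpre, toNonempty := hne }
  exact isIntegral_of_irreducibleSpace_of_isReduced P


theorem scheme_isIntegral_pullback_Spec (R S T : Type) [CommRing R] [CommRing S] [CommRing T]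
    [Algebra R S] [Algebra R T] [IsDomain (S ⊗[R] T)] :
    IsIntegral (pullback (Spec.map (CommRingCat.ofHom (algebraMap R S)))
      (Spec.map (CommRingCat.ofHom (algebraMap R T)))) := by
  have : IsDomain ↑(CommRingCat.of (S ⊗[R] T)) := ‹_›
  exact IsIntegral.of_isIso (pullbackSpecIso R S T).inv

theorem scheme_isIntegral_pullback_congr {X Y Z : Scheme.{u}} {m m' : X ⟶ Z} (g : Y ⟶ Z)
    (h : m = m') (hI : IsIntegral (pullback m' g)) : IsIntegral (pullback m g) := by
  subst h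
  exact hI

theorem scheme_pullback_factor {X X' Y Z P : Scheme.{u}} (a : X ⟶ P) (a' : X' ⟶ P) (t : X ⟶ X')
    (ht : t ≫ a' = a) (f : P ⟶ Z) (g : Y ⟶ Z) :
    ∃ φ : pullback (a ≫ f) g ⟶ pullback (a' ≫ f) g,
      φ ≫ pullback.map (a' ≫ f) g f g a' (𝟙 Y) (𝟙 Z) (by simp) (by simp) =
        pullback.map (a ≫ f) g f g a (𝟙 Y) (𝟙 Z) (by simp) (by simp) := by
  have hc : (pullback.fst (a ≫ f) g ≫ t) ≫ (a' ≫ f) = pullback.snd (a ≫ f) g ≫ g := by
    rw [Category.assoc, ← Category.assoc t, ht]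
    exact pullback.condition
  refine ⟨pullback.lift (pullback.fst (a ≫ f) g ≫ t) (pullback.snd (a ≫ f) g) hc, ?_⟩
  apply pullback.hom_ext
  · have h1 : pullback.map (a' ≫ f) g f g a' (𝟙 Y) (𝟙 Z) (by simp) (by simp) ≫ pullback.fst f g
        = pullback.fst (a' ≫ f) g ≫ a' := pullback.lift_fst _ _ _
    have h2 : pullback.map (a ≫ f) g f g a (𝟙 Y) (𝟙 Z) (by simp) (by simp) ≫ pullback.fst f g
        = pullback.fst (a ≫ f) g ≫ a := pullback.lift_fst _ _ _
    rw [Category.assoc, h1, h2, ← Category.assoc, pullback.lift_fst, Category.assoc, ht]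
  · have h1 : pullback.map (a' ≫ f) g f g a' (𝟙 Y) (𝟙 Z) (by simp) (by simp) ≫ pullback.snd f g
        = pullback.snd (a' ≫ f) g ≫ 𝟙 Y := pullback.lift_snd _ _ _
    have h2 : pullback.map (a ≫ f) g f g a (𝟙 Y) (𝟙 Z) (by simp) (by simp) ≫ pullback.snd f g
        = pullback.snd (a ≫ f) g ≫ 𝟙 Y := pullback.lift_snd _ _ _
    rw [Category.assoc, h1, h2, ← Category.assoc, pullback.lift_snd]

section Igusa

variable (N : ℕ) [NeZero N] (ℓ : ℕ) [Fact ℓ.Prime]

/-- the open cover of the Igusa scheme by its three charts. -/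
abbrev igusaCover3 : (ModularCurve.IgusaScheme N ℓ).OpenCover :=
  Scheme.IsLocallyDirected.openCover (span (fFin N ℓ) (fInf N ℓ))

theorem igusaCover3_mid_comp :
    (fFin N ℓ ≫ ιFin N ℓ) ≫ igusaTo N ℓ =
      Spec.map (CommRingCat.ofHom (algebraMap (Oℓ ℓ) (chartAlgMid N ℓ))) := by
  rw [Category.assoc, ιFin_igusaTo, ← Spec.map_comp, ← CommRingCat.ofHom_comp]
  congr 2

theorem igusaCover3_none_eq :
    (igusaCover3 N ℓ).f none = fFin N ℓ ≫ ιFin N ℓ :=
  (colimit.w (span (fFin N ℓ) (fInf N ℓ)) WalkingSpan.Hom.fst).symm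

theorem igusaCover3_none_eq' :
    (igusaCover3 N ℓ).f none = fInf N ℓ ≫ ιInf N ℓ :=
  (colimit.w (span (fFin N ℓ) (fInf N ℓ)) WalkingSpan.Hom.snd).symm

theorem igusaCover3_none_comp :
    (igusaCover3 N ℓ).f none ≫ igusaTo N ℓ =
      Spec.map (CommRingCat.ofHom (algebraMap (Oℓ ℓ) (chartAlgMid N ℓ))) :=
  (congrArg (· ≫ igusaTo N ℓ) (igusaCover3_none_eq N ℓ)).trans (igusaCover3_mid_comp N ℓ)

theorem igusaCover3_left_comp :
    (igusaCover3 N ℓ).f WalkingSpan.left ≫ igusaTo N ℓ =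
      Spec.map (CommRingCat.ofHom (algebraMap (Oℓ ℓ) (chartAlgFin N ℓ))) :=
  ιFin_igusaTo N ℓ

theorem igusaCover3_right_comp :
    (igusaCover3 N ℓ).f WalkingSpan.right ≫ igusaTo N ℓ =
      Spec.map (CommRingCat.ofHom (algebraMap (Oℓ ℓ) (chartAlgInf N ℓ))) :=
  ιInf_igusaTo N ℓ

theorem scheme_result_of_domains (K : Type) [Field K] [Algebra (Oℓ ℓ) K]
    (hFin : IsDomain (chartAlgFin N ℓ ⊗[Oℓ ℓ] K)) (hInf : IsDomain (chartAlgInf N ℓ ⊗[Oℓ ℓ] K))
    (hMid : IsDomain (chartAlgMid N ℓ ⊗[Oℓ ℓ] K)) :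
    IsIntegral ↑(pullback (igusaTo N ℓ)
      (Spec.map (CommRingCat.ofHom (algebraMap (Oℓ ℓ) K)))) := by
  set g := Spec.map (CommRingCat.ofHom (algebraMap (Oℓ ℓ) K)) with hg
  let 𝒱 := Scheme.Pullback.openCoverOfLeft (igusaCover3 N ℓ) (igusaTo N ℓ) g
  have hI : ∀ i, IsIntegral (𝒱.X i) := by
    intro i
    rcases i with (_ | _ | _)
    · exact scheme_isIntegral_pullback_congr g (igusaCover3_none_comp N ℓ)
        (scheme_isIntegral_pullback_Spec (Oℓ ℓ) (chartAlgMid N ℓ) K)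
    · exact scheme_isIntegral_pullback_congr g (igusaCover3_left_comp N ℓ)
        (scheme_isIntegral_pullback_Spec (Oℓ ℓ) (chartAlgFin N ℓ) K)
    · exact scheme_isIntegral_pullback_congr g (igusaCover3_right_comp N ℓ)
        (scheme_isIntegral_pullback_Spec (Oℓ ℓ) (chartAlgInf N ℓ) K)
  have : Nonempty 𝒱.I₀ := ⟨(none : WalkingSpan)⟩
  refine scheme_isIntegral_of_openCover 𝒱 hI ?_
  -- every chart contains the image of the middle chart
  have hmid : ∀ i, ∃ φ : 𝒱.X none ⟶ 𝒱.X i, φ ≫ 𝒱.f i = 𝒱.f none := by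
    intro i
    rcases i with (_ | _ | _)
    · exact ⟨𝟙 _, Category.id_comp _⟩
    · exact scheme_pullback_factor ((igusaCover3 N ℓ).f none)
        ((igusaCover3 N ℓ).f WalkingSpan.left) (fFin N ℓ) (igusaCover3_none_eq N ℓ).symm
        (igusaTo N ℓ) g
    · exact scheme_pullback_factor ((igusaCover3 N ℓ).f none)
        ((igusaCover3 N ℓ).f WalkingSpan.right) (fInf N ℓ) (igusaCover3_none_eq' N ℓ).symm
        (igusaTo N ℓ) g
  have hne : Nonempty (𝒱.X none) := (hI none).nonempty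
  obtain ⟨z⟩ := hne
  intro i j
  obtain ⟨φi, hφi⟩ := hmid i
  obtain ⟨φj, hφj⟩ := hmid j
  refine ⟨𝒱.f none z, ⟨φi z, ?_⟩, ⟨φj z, ?_⟩⟩
  · rw [← hφi]; rfl
  · rw [← hφj]; rfl

end Igusa

end Fermat.Agent.S28
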