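import Mathlib
import Fermat.Agent.S28.Defs
import Fermat.Agent.S28.ValRing
import Fermat.Agent.S28.Ramification
import Fermat.Agent.S28.PsiArith

/-!
# S28, work package W12a: the induction step `p ∣ M'` of the lower bound
`ψ(M) ≤ [κ(M) : 𝔽_ℓ(j(q^M))]`.
-/

set_option autoImplicit false

open ModularCurve

noncomputable section

namespace Fermat.Agent.S28

variable (ℓ : ℕ) [Fact ℓ.Prime]

theorem inda_jd_one_ne_zero : jd (ZMod ℓ) 1 ≠ 0 := by
  intro h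
  have h1 := jd_order ℓ 1 one_ne_zero
  rw [h, HahnSeries.order_zero] at h1
  norm_num at h1

theorem induction_step_dvd (p M' : ℕ) (hp : p.Prime) (hM' : 0 < M') (hpM' : p ∣ M')
    (_hℓ : ¬ ℓ ∣ p * M')
    (IH : (psi M' : Cardinal) ≤ Subfield.relrank (kj ℓ M') (kappa ℓ M')) :
    (psi (p * M') : Cardinal) ≤ Subfield.relrank (kj ℓ (p * M')) (kappa ℓ (p * M')) := by
  have hp0 : p ≠ 0 := hp.ne_zero
  have hM0 : M' ≠ 0 := hM'.ne'
  have hk'le : (kappa ℓ M').map (V (ZMod ℓ) p) ≤ kappa ℓ (p * M') := kappa_map_le ℓ p M' hp0 hM0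
  have hkj : (kj ℓ M').map (V (ZMod ℓ) p) = kj ℓ (p * M') := kj_map ℓ p M' hp0 hM0
  have hkjle : kj ℓ (p * M') ≤ (kappa ℓ M').map (V (ZMod ℓ) p) := by
    rw [← hkj]
    rintro _ ⟨b, hb, rfl⟩
    exact ⟨b, kj_le_kappa ℓ dvd_rfl hb, rfl⟩
  have h1 : Subfield.relrank (kj ℓ (p * M')) ((kappa ℓ M').map (V (ZMod ℓ) p))
      = Subfield.relrank (kj ℓ M') (kappa ℓ M') := by
    rw [← hkj]
    exact Subfield.relrank_map_map _ _ _
  have h2 : (p : Cardinal) ≤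
      Subfield.relrank ((kappa ℓ M').map (V (ZMod ℓ) p)) (kappa ℓ (p * M')) := by
    refine ramification_relrank p hp.pos _ _ ?_ (jd (ZMod ℓ) 1) ?_ (inda_jd_one_ne_zero ℓ) ?_
    · rintro a ⟨b, _, rfl⟩
      exact ⟨b, rfl⟩
    · exact valRing_jd_mem_kappa ℓ (one_dvd _)
    · rw [jd_order ℓ 1 one_ne_zero]
      simp
  have h3 := Subfield.relrank_mul_relrank hkjle hk'le
  rw [psi_mul_of_dvd hp hM' hpM', ← h3, h1, Nat.cast_mul, mul_comm]
  exact mul_le_mul' IH h2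

end Fermat.Agent.S28
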