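import Mathlib
import Fermat.Agent.S23.Vieta
import Fermat.Agent.S23.FixedField

/-!
Integrality of the elementary symmetric functions of a family of power series indexed by
`OnePoint (ZMod p)` whose members are "twists" `∑ a_n ζ^(j n) t^n` of one integral series by
the `p`-th roots of unity, together with one integral member at `∞`.
-/

set_option autoImplicit false

namespace Fermat.Agent.S28

open Fermat.Agent.S23

/-- ring homomorphisms commute with elementary symmetric functions -/
theorem unitAlg_map_esym {R S : Type*} [CommRing R] [CommRing S] {ι : Type*} [Fintype ι]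
    (f : R →+* S) (a : ι → R) (j : ℕ) : f (esym a j) = esym (fun q => f (a q)) j := by
  classical
  rw [esym_eq_sum, esym_eq_sum, map_sum]
  refine Finset.sum_congr rfl fun t _ => ?_
  rw [map_prod]

/-- the permutation `j ↦ c j`, `∞ ↦ ∞` of the index set -/
def unitAlgPerm (p : ℕ) (c : (ZMod p)ˣ) : OnePoint (ZMod p) ≃ OnePoint (ZMod p) :=
  Equiv.optionCongr (Units.mulLeft c)

theorem unitAlgPerm_infty (p : ℕ) (c : (ZMod p)ˣ) :
    unitAlgPerm p c OnePoint.infty = OnePoint.infty := rfl

theorem unitAlgPerm_coe (p : ℕ) (c : (ZMod p)ˣ) (j : ZMod p) :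
    unitAlgPerm p c (j : OnePoint (ZMod p)) = (((c : ZMod p) * j : ZMod p) : OnePoint (ZMod p)) :=
  rfl

theorem esym_coeff_int_of_twisted (p : ℕ) [Fact p.Prime] (ζ : ℂ) (hζ : IsPrimitiveRoot ζ p)
    (a : ℕ → ℤ) (Q : OnePoint (ZMod p) → PowerSeries ℂ)
    (hinf : ∀ n, ∃ m : ℤ, PowerSeries.coeff n (Q OnePoint.infty) = (m : ℂ))
    (hcoe : ∀ (j : ZMod p) (n : ℕ),
      PowerSeries.coeff n (Q (j : OnePoint (ZMod p))) = (a n : ℂ) * ζ ^ (j.val * n))
    (r n : ℕ) : ∃ m : ℤ, PowerSeries.coeff n (esym Q r) = (m : ℂ) := by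
  classical
  have hp : p.Prime := Fact.out
  have hp0 : 0 < p := hp.pos
  -- Galois invariance
  have hgal : ∀ σ : ℂ →+* ℂ, (esym Q r).map σ = esym Q r := by
    intro σ
    have hσζ : IsPrimitiveRoot (σ ζ) p := hζ.map_of_injective σ.injective
    obtain ⟨i, hip, hi⟩ := hζ.eq_pow_of_pow_eq_one hσζ.pow_eq_one
    have hcop : i.Coprime p := by
      rw [← hi] at hσζ
      exact (hζ.pow_iff_coprime hp0 i).mp hσζ
    set c : (ZMod p)ˣ := ZMod.unitOfCoprime i hcop with hc
    have hperm : (fun x => (Q x).map σ) = fun x => Q (unitAlgPerm p c x) := by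
      funext x
      ext m
      rw [PowerSeries.coeff_map]
      induction x using OnePoint.rec with
      | infty =>
        rw [unitAlgPerm_infty]
        obtain ⟨z, hz⟩ := hinf m
        rw [hz, map_intCast]
      | coe j =>
        rw [unitAlgPerm_coe, hcoe, hcoe, map_mul, map_intCast, map_pow, ← hi]
        congr 1
        have hval : ((c : ZMod p) * j).val = (i * j.val) % p := by
          rw [hc, ZMod.coe_unitOfCoprime]
          have : ((i : ZMod p) * j) = ((i * j.val : ℕ) : ZMod p) := by
            push_cast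
            rw [ZMod.natCast_zmod_val]
          rw [this, ZMod.val_natCast]
        rw [hval, ← pow_mul, pow_mul ζ ((i * j.val) % p) m, ← pow_eq_pow_mod _ hζ.pow_eq_one,
          ← pow_mul, mul_assoc]
    have h1 := unitAlg_map_esym (PowerSeries.map σ) Q r
    rw [h1, hperm]
    exact esym_reindex Q (unitAlgPerm p c) r
  -- rationality
  have hrat : ∃ q : ℚ, PowerSeries.coeff n (esym Q r) = (q : ℂ) := by
    apply exists_rat_of_forall_ringHom_eq
    intro σ
    rw [← PowerSeries.coeff_map, hgal σ]
  -- integrality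
  let S : Subring ℂ := (integralClosure ℤ ℂ).toSubring
  have hmemS : ∀ x : ℂ, x ∈ S ↔ IsIntegral ℤ x := fun x => Iff.rfl
  have hζint : IsIntegral ℤ ζ := hζ.isIntegral hp0
  have hQ : ∀ x, Q x ∈ (PowerSeries.map S.subtype).range := by
    intro x
    have hx : ∀ m, PowerSeries.coeff m (Q x) ∈ S := by
      intro m
      induction x using OnePoint.rec with
      | infty =>
        obtain ⟨z, hz⟩ := hinf m
        rw [hz]
        exact intCast_mem S z
      | coe j =>
        rw [hcoe]
        exact mul_mem (intCast_mem S _) (pow_mem ((hmemS ζ).mpr hζint) _)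
    refine ⟨PowerSeries.mk fun m => ⟨PowerSeries.coeff m (Q x), hx m⟩, ?_⟩
    ext m
    rw [PowerSeries.coeff_map, PowerSeries.coeff_mk]
    rfl
  have hE : esym Q r ∈ (PowerSeries.map S.subtype).range := by
    rw [esym_eq_sum]
    exact sum_mem fun t _ => prod_mem fun x _ => hQ x
  have hint : IsIntegral ℤ (PowerSeries.coeff n (esym Q r)) := by
    obtain ⟨g, hg⟩ := hE
    rw [← hg, PowerSeries.coeff_map]
    exact (hmemS _).mp (PowerSeries.coeff n g).2
  obtain ⟨q, hq⟩ := hrat
  rw [hq] at hint ⊢
  have hq' : IsIntegral ℤ q := by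
    have h := (isIntegral_algebraMap_iff (algebraMap ℚ ℂ).injective (R := ℤ) (x := q)).mp
      (by simpa using hint)
    exact h
  obtain ⟨z, hz⟩ := IsIntegrallyClosed.isIntegral_iff.mp hq'
  refine ⟨z, ?_⟩
  rw [← hz]
  simp

end Fermat.Agent.S28
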