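import Mathlib
import Fermat.Agent.S28.Defs

/-!
S28, backup of part of W7 (API of `Vw`, `rho` on `j(q^d)`, `Δ(q^d)/Δ(q^e)`, and their orders).
All names are prefixed `vrb_`.
-/

set_option autoImplicit false

open ModularCurve

noncomputable section

namespace Fermat.Agent.S28

/-! ### Orders via coefficients -/

theorem vrb_order_eq {R : Type*} [CommRing R] (x : LaurentSeries R) (a : ℤ)
    (ha : x.coeff a ≠ 0) (hlt : ∀ b < a, x.coeff b = 0) : x.order = a := by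
  refine le_antisymm (HahnSeries.order_le_of_coeff_ne_zero ha) ?_
  by_contra hcon
  have h1 : x.order < a := not_le.mp hcon
  have h2 := hlt _ h1
  rw [HahnSeries.coeff_order_eq_zero] at h2
  rw [h2] at ha
  simp at ha

theorem vrb_V_coeff_mul {R : Type*} [CommRing R] {d : ℕ} (hd : d ≠ 0) (x : LaurentSeries R)
    (k : ℤ) : (V R d x).coeff ((d : ℤ) * k) = x.coeff k := by
  have : NeZero d := ⟨hd⟩
  rw [V_eq_qExpand]
  exact qExpand_coeff_mul d x k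

theorem vrb_V_coeff_of_not_dvd {R : Type*} [CommRing R] {d : ℕ} (hd : d ≠ 0)
    (x : LaurentSeries R) {k : ℤ} (hk : ¬ (d : ℤ) ∣ k) : (V R d x).coeff k = 0 := by
  have : NeZero d := ⟨hd⟩
  rw [V_eq_qExpand]
  exact qExpand_coeff_of_not_dvd d x hk

/-- `ord (x(q^d)) = d · ord x`, in coefficient form. -/
theorem vrb_V_order {R : Type*} [CommRing R] {d : ℕ} (hd : d ≠ 0) (x : LaurentSeries R) (a : ℤ)
    (ha : x.coeff a ≠ 0) (hlt : ∀ b < a, x.coeff b = 0) : (V R d x).order = (d : ℤ) * a := by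
  have hdpos : (0 : ℤ) < (d : ℤ) := by exact_mod_cast Nat.pos_of_ne_zero hd
  refine vrb_order_eq _ _ ?_ ?_
  · rw [vrb_V_coeff_mul hd]
    exact ha
  · intro b hb
    by_cases hdvd : (d : ℤ) ∣ b
    · obtain ⟨k, rfl⟩ := hdvd
      rw [vrb_V_coeff_mul hd]
      exact hlt k (lt_of_mul_lt_mul_left hb hdpos.le)
    · exact vrb_V_coeff_of_not_dvd hd x hdvd

theorem vrb_Dq_coeff_one (R : Type*) [CommRing R] : (Dq R).coeff 1 = 1 := by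
  have h1 : (Dq R).coeff ((1 : ℕ) : ℤ) = 1 := by
    rw [Dq, HahnSeries.ofPowerSeries_apply_coeff, PowerSeries.coeff_map, DqZ,
      show (1 : ℕ) = 0 + 1 from rfl, PowerSeries.coeff_succ_X_mul,
      PowerSeries.coeff_zero_eq_constantCoeff_apply, constantCoeff_dedekindEtaUnit]
    simp
  simpa using h1

theorem vrb_Dq_coeff_of_lt (R : Type*) [CommRing R] {b : ℤ} (hb : b < 1) : (Dq R).coeff b = 0 := by
  have hb' : b ≤ 0 := by omega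
  rcases lt_or_eq_of_le hb' with h | h
  · rw [Dq]
    exact ofPowerSeries_coeff_of_neg _ h
  · subst h
    have h0 : (Dq R).coeff ((0 : ℕ) : ℤ) = 0 := by
      rw [Dq, HahnSeries.ofPowerSeries_apply_coeff, PowerSeries.coeff_map, DqZ,
        PowerSeries.coeff_zero_X_mul, map_zero]
    simpa using h0

theorem vrb_Dq_ne_zero (R : Type*) [CommRing R] [Nontrivial R] : Dq R ≠ 0 := by
  intro h
  have h1 := vrb_Dq_coeff_one R
  rw [h] at h1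
  simp at h1

theorem vrb_Dd_ne_zero (R : Type*) [CommRing R] [Nontrivial R] (d : ℕ) : Dd R d ≠ 0 := by
  by_cases hd : d = 0
  · subst hd
    simpa [Dd, V] using vrb_Dq_ne_zero R
  · intro h
    apply vrb_Dq_ne_zero R
    apply V_injective R hd
    rw [map_zero]
    exact h

/-- `Δ(q^d)` has a zero of order `d` (any nontrivial ring). -/
theorem vrb_Dd_order_gen (R : Type*) [CommRing R] [Nontrivial R] (d : ℕ) (hd : d ≠ 0) :
    (Dd R d).order = (d : ℤ) := by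
  have h := vrb_V_order hd (Dq R) 1 (by rw [vrb_Dq_coeff_one]; exact one_ne_zero)
    (fun b hb => vrb_Dq_coeff_of_lt R hb)
  rw [mul_one] at h
  exact h

/-- `j(q^d)` has a pole of order `d` (any nontrivial ring). -/
theorem vrb_jd_order_gen (R : Type*) [CommRing R] [Nontrivial R] (d : ℕ) (hd : d ≠ 0) :
    (jd R d).order = -(d : ℤ) := by
  have h := vrb_V_order hd (jqModC R) (-1) (by rw [coeff_jqModC_neg_one]; exact one_ne_zero)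
    (fun b hb => coeff_jqModC_of_lt R hb)
  rw [mul_neg, mul_one] at h
  exact h

section
variable (ℓ : ℕ) [Fact ℓ.Prime]

theorem vrb_jd_order (d : ℕ) (hd : d ≠ 0) : (jd (ZMod ℓ) d).order = -(d : ℤ) :=
  vrb_jd_order_gen (ZMod ℓ) d hd

theorem vrb_Dd_order (d : ℕ) (hd : d ≠ 0) : (Dd (ZMod ℓ) d).order = (d : ℤ) :=
  vrb_Dd_order_gen (ZMod ℓ) d hd

theorem vrb_jd_mem_Vw (d : ℕ) : jd ℚ d ∈ Vw ℓ := by
  rw [← coeffMap_jd (GaloisRep.ratLocalizedAt ℓ).subtype d]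
  exact toQ_mem_Vw ℓ (jd (Oℓ ℓ) d)

theorem vrb_rho_jd (d : ℕ) : rho ℓ ⟨jd ℚ d, vrb_jd_mem_Vw ℓ d⟩ = jd (ZMod ℓ) d := by
  have h : (⟨jd ℚ d, vrb_jd_mem_Vw ℓ d⟩ : Vw ℓ)
      = ⟨toQ ℓ (jd (Oℓ ℓ) d), toQ_mem_Vw ℓ _⟩ :=
    Subtype.ext (coeffMap_jd (GaloisRep.ratLocalizedAt ℓ).subtype d).symm
  rw [h, rho_toQ]
  exact coeffMap_jd (red ℓ) d

omit [Fact ℓ.Prime] in
theorem vrb_toQ_Dd (d : ℕ) : toQ ℓ (Dd (Oℓ ℓ) d) = Dd ℚ d :=
  coeffMap_Dd (GaloisRep.ratLocalizedAt ℓ).subtype d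

theorem vrb_toF_Dd (d : ℕ) : toF ℓ (Dd (Oℓ ℓ) d) = Dd (ZMod ℓ) d :=
  coeffMap_Dd (red ℓ) d

theorem vrb_Dd_div_spec (d e : ℕ) :
    toF ℓ (Dd (Oℓ ℓ) e) ≠ 0 ∧ Dd ℚ d / Dd ℚ e * toQ ℓ (Dd (Oℓ ℓ) e) = toQ ℓ (Dd (Oℓ ℓ) d) := by
  refine ⟨?_, ?_⟩
  · rw [vrb_toF_Dd]
    exact vrb_Dd_ne_zero (ZMod ℓ) e
  · rw [vrb_toQ_Dd, vrb_toQ_Dd]
    exact div_mul_cancel₀ _ (vrb_Dd_ne_zero ℚ e)

theorem vrb_Dd_div_mem_Vw (d e : ℕ) : Dd ℚ d / Dd ℚ e ∈ Vw ℓ :=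
  ⟨Dd (Oℓ ℓ) d, Dd (Oℓ ℓ) e, (vrb_Dd_div_spec ℓ d e).1, (vrb_Dd_div_spec ℓ d e).2⟩

theorem vrb_rho_Dd_div (d e : ℕ) :
    rho ℓ ⟨Dd ℚ d / Dd ℚ e, vrb_Dd_div_mem_Vw ℓ d e⟩ = Dd (ZMod ℓ) d / Dd (ZMod ℓ) e := by
  have h := rho_spec ℓ ⟨Dd ℚ d / Dd ℚ e, vrb_Dd_div_mem_Vw ℓ d e⟩ (Dd (Oℓ ℓ) d) (Dd (Oℓ ℓ) e)
    (vrb_Dd_div_spec ℓ d e).1 (vrb_Dd_div_spec ℓ d e).2
  rw [vrb_toF_Dd, vrb_toF_Dd] at h
  exact eq_div_of_mul_eq (vrb_Dd_ne_zero (ZMod ℓ) e) h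

end

end Fermat.Agent.S28
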